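import Mathlib

/-!
# Hyperbolic 3-space (LT, piece A1)

`H3 = {(z,t) | z ∈ ℂ, 0 < t}` with the action of `GL (Fin 2) ℂ` (through `PGL₂(ℂ)`), the hermitian
form `Q P (x,y) = (|x - z y|² + t² |y|²) / t`, and the point pair invariant
`ch P P' = (|z-z'|² + t² + t'²) / (2 t t')`.
-/

set_option autoImplicit false

open Complex Matrix

open scoped ComplexConjugate

noncomputable section

namespace Fermat.LT

/-- Hyperbolic 3-space. -/
def H3 : Type := {p : ℂ × ℝ // 0 < p.2}

namespace H3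

instance : TopologicalSpace H3 := inferInstanceAs (TopologicalSpace {p : ℂ × ℝ // 0 < p.2})
instance : MeasurableSpace H3 := inferInstanceAs (MeasurableSpace {p : ℂ × ℝ // 0 < p.2})
instance : T2Space H3 := inferInstanceAs (T2Space {p : ℂ × ℝ // 0 < p.2})
instance : BorelSpace H3 := inferInstanceAs (BorelSpace {p : ℂ × ℝ // 0 < p.2})
instance : SecondCountableTopology H3 :=
  inferInstanceAs (SecondCountableTopology {p : ℂ × ℝ // 0 < p.2})

/-- the open set of `ℂ × ℝ` underlying `H3` -/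
def set : Set (ℂ × ℝ) := {p | 0 < p.2}

lemma isOpen_set : IsOpen set := isOpen_lt continuous_const continuous_snd

instance : LocallyCompactSpace H3 := isOpen_set.locallyCompactSpace

/-- the point `(z,t)` -/
def mk (z : ℂ) (t : ℝ) (ht : 0 < t) : H3 := ⟨(z, t), ht⟩

/-- the complex coordinate -/
def z (P : H3) : ℂ := P.1.1

/-- the height coordinate -/
def t (P : H3) : ℝ := P.1.2

@[simp] lemma z_mk (z : ℂ) (t : ℝ) (ht : 0 < t) : (mk z t ht).z = z := rfl
@[simp] lemma t_mk (z : ℂ) (t : ℝ) (ht : 0 < t) : (mk z t ht).t = t := rfl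

lemma t_pos (P : H3) : 0 < P.t := P.2

lemma t_ne_zero (P : H3) : P.t ≠ 0 := P.t_pos.ne'

@[ext] lemma ext {P P' : H3} (hz : P.z = P'.z) (ht : P.t = P'.t) : P = P' :=
  Subtype.ext (Prod.ext hz ht)

lemma continuous_z : Continuous z := continuous_fst.comp continuous_subtype_val
lemma continuous_t : Continuous t := continuous_snd.comp continuous_subtype_val

lemma continuous_iff {X : Type*} [TopologicalSpace X] {f : X → H3} :
    Continuous f ↔ Continuous (fun x => (f x).z) ∧ Continuous (fun x => (f x).t) := by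
  constructor
  · intro h; exact ⟨continuous_z.comp h, continuous_t.comp h⟩
  · rintro ⟨h1, h2⟩
    exact Continuous.subtype_mk (h1.prodMk h2) fun x => (f x).2

instance : Nonempty H3 := ⟨mk 0 1 one_pos⟩

/-- The hyperbolic volume `dz dt / t³`. -/
instance : MeasureTheory.MeasureSpace H3 where
  volume := ((MeasureTheory.volume : MeasureTheory.Measure (ℂ × ℝ)).withDensity
    fun p => ENNReal.ofReal (p.2⁻¹ ^ 3)).comap Subtype.val

/-- base point -/
instance : Inhabited H3 := ⟨mk 0 1 one_pos⟩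

/-! ### The hermitian form -/

/-- the hermitian form attached to `P` -/
def Q (P : H3) (x y : ℂ) : ℝ := (normSq (x - P.z * y) + P.t ^ 2 * normSq y) / P.t

lemma Q_nonneg (P : H3) (x y : ℂ) : 0 ≤ P.Q x y :=
  div_nonneg (add_nonneg (normSq_nonneg _) (mul_nonneg (sq_nonneg _) (normSq_nonneg _)))
    P.t_pos.le

lemma Q_eq_zero_iff (P : H3) (x y : ℂ) : P.Q x y = 0 ↔ x = 0 ∧ y = 0 := by
  rw [Q, div_eq_zero_iff, or_iff_left P.t_ne_zero, add_eq_zero_iff_of_nonneg (normSq_nonneg _)
    (mul_nonneg (sq_nonneg _) (normSq_nonneg _)), normSq_eq_zero, mul_eq_zero, normSq_eq_zero,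
    or_iff_right (pow_ne_zero 2 P.t_ne_zero)]
  constructor
  · rintro ⟨h1, rfl⟩; exact ⟨by simpa using h1, rfl⟩
  · rintro ⟨rfl, rfl⟩; simp

lemma Q_pos (P : H3) {x y : ℂ} (h : x ≠ 0 ∨ y ≠ 0) : 0 < P.Q x y := by
  rcases (P.Q_nonneg x y).lt_or_eq with h' | h'
  · exact h'
  · exfalso
    obtain ⟨h1, h2⟩ := (P.Q_eq_zero_iff x y).1 h'.symm
    exact h.elim (fun h => h h1) (fun h => h h2)

lemma Q_smul (P : H3) (c x y : ℂ) : P.Q (c * x) (c * y) = normSq c * P.Q x y := by
  rw [Q, Q]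
  have : c * x - P.z * (c * y) = c * (x - P.z * y) := by ring
  rw [this, normSq_mul, normSq_mul]
  ring

@[simp] lemma Q_one_zero (P : H3) : P.Q 1 0 = 1 / P.t := by simp [Q]

/-- `P` is determined by its form. -/
lemma eq_of_Q_eq {P P' : H3} (h : ∀ x y, P.Q x y = P'.Q x y) : P = P' := by
  have ht : P.t = P'.t := by
    have := h 1 0
    rw [Q_one_zero, Q_one_zero, one_div, one_div, _root_.inv_inj] at this
    exact this
  have key : ∀ x y, normSq (x - P.z * y) = normSq (x - P'.z * y) := by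
    intro x y
    have := h x y
    rw [Q, Q, ht, div_left_inj' P'.t_ne_zero] at this
    exact add_right_cancel this
  refine H3.ext ?_ ht
  have := key P.z 1
  rw [mul_one, sub_self, normSq_zero, mul_one] at this
  have h0 := (normSq_eq_zero.1 this.symm)
  exact sub_eq_zero.1 h0

/-! ### The action of `GL₂(ℂ)` -/

/-- the denominator `|cz+d|² + |c|² t²` -/
def den (g : GL (Fin 2) ℂ) (P : H3) : ℝ :=
  normSq (g 1 0 * P.z + g 1 1) + normSq (g 1 0) * P.t ^ 2

lemma row_ne_zero (g : GL (Fin 2) ℂ) : g 1 0 ≠ 0 ∨ g 1 1 ≠ 0 := by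
  by_contra h
  push Not at h
  have hdet : (g : Matrix (Fin 2) (Fin 2) ℂ).det ≠ 0 := g.det_ne_zero
  rw [Matrix.det_fin_two] at hdet
  apply hdet
  rw [h.1, h.2]; ring

lemma den_pos (g : GL (Fin 2) ℂ) (P : H3) : 0 < den g P := by
  by_cases hc : g 1 0 = 0
  · have hd : g 1 1 ≠ 0 := (row_ne_zero g).resolve_left (fun h => h hc)
    rw [den, hc]
    simp only [zero_mul, zero_add, normSq_zero, add_zero]
    exact normSq_pos.2 hd
  · exact add_pos_of_nonneg_of_pos (normSq_nonneg _)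
      (mul_pos (normSq_pos.2 hc) (pow_pos P.t_pos 2))

lemma abs_det_pos (g : GL (Fin 2) ℂ) : 0 < ‖(g : Matrix (Fin 2) (Fin 2) ℂ).det‖ :=
  norm_pos_iff.2 g.det_ne_zero

/-- the action -/
def act (g : GL (Fin 2) ℂ) (P : H3) : H3 :=
  mk (((g 0 0 * P.z + g 0 1) * conj (g 1 0 * P.z + g 1 1) + g 0 0 * conj (g 1 0) * (P.t : ℂ) ^ 2)
      / (den g P : ℂ))
    (‖(g : Matrix (Fin 2) (Fin 2) ℂ).det‖ * P.t / den g P)
    (div_pos (mul_pos (abs_det_pos g) P.t_pos) (den_pos g P))

instance : SMul (GL (Fin 2) ℂ) H3 := ⟨act⟩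

lemma smul_z (g : GL (Fin 2) ℂ) (P : H3) : (g • P).z =
    ((g 0 0 * P.z + g 0 1) * conj (g 1 0 * P.z + g 1 1) + g 0 0 * conj (g 1 0) * (P.t : ℂ) ^ 2)
      / (den g P : ℂ) := rfl

lemma smul_t (g : GL (Fin 2) ℂ) (P : H3) : (g • P).t =
    ‖(g : Matrix (Fin 2) (Fin 2) ℂ).det‖ * P.t / den g P := rfl

/-- The basic transformation formula of the form `Q`. -/
theorem Q_smul_apply (g : GL (Fin 2) ℂ) (P : H3) (x y : ℂ) :
    (g • P).Q (g 0 0 * x + g 0 1 * y) (g 1 0 * x + g 1 1 * y) =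
      ‖(g : Matrix (Fin 2) (Fin 2) ℂ).det‖ * P.Q x y := by
  set a := g 0 0 with ha
  set b := g 0 1 with hb
  set c := g 1 0 with hc
  set d := g 1 1 with hd
  set D : ℂ := (g : Matrix (Fin 2) (Fin 2) ℂ).det with hD
  have hD' : D = a * d - b * c := by rw [hD, Matrix.det_fin_two]
  set N : ℝ := den g P with hN
  have hNpos : 0 < N := den_pos g P
  have hN0 : (N : ℂ) ≠ 0 := by exact_mod_cast hNpos.ne'
  have hDpos : 0 < ‖D‖ := abs_det_pos g
  have htpos := P.t_pos
  have hNc : (N : ℂ) = (c * P.z + d) * conj (c * P.z + d) + c * conj c * (P.t : ℂ) ^ 2 := by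
    rw [hN, den, mul_conj, mul_conj]; push_cast; rfl
  -- the first coordinate
  have h1 : a * x + b * y - (g • P).z * (c * x + d * y) =
      D / N * (conj (c * P.z + d) * (x - P.z * y) - conj c * (P.t : ℂ) ^ 2 * y) := by
    rw [smul_z, ← ha, ← hb, ← hc, ← hd, ← hN]
    field_simp
    rw [hNc, hD']
    ring_nf
  have h2 : normSq (conj (c * P.z + d) * (x - P.z * y) - conj c * (P.t : ℂ) ^ 2 * y)
      + P.t ^ 2 * normSq (c * x + d * y) = N * (normSq (x - P.z * y) + P.t ^ 2 * normSq y) := by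
    apply ofReal_injective
    push_cast
    rw [hNc]
    simp only [← mul_conj, map_add, map_sub, map_mul, map_pow, conj_conj, conj_ofReal]
    ring
  have hDN : normSq D = ‖D‖ ^ 2 := normSq_eq_norm_sq D
  rw [Q, Q, smul_t, ← hD, ← hN, h1, normSq_mul, normSq_div, normSq_ofReal, hDN]
  have h3 : normSq (conj (c * P.z + d) * (x - P.z * y) - conj c * (P.t : ℂ) ^ 2 * y) =
      N * (normSq (x - P.z * y) + P.t ^ 2 * normSq y) - P.t ^ 2 * normSq (c * x + d * y) := by
    linarith
  rw [h3]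
  field_simp
  ring

/-- A form of `Q_smul_apply` with the vector transformed by `g` given. -/
theorem Q_smul_eq (g : GL (Fin 2) ℂ) (P : H3) {x y x' y' : ℂ} (hx : g 0 0 * x + g 0 1 * y = x')
    (hy : g 1 0 * x + g 1 1 * y = y') :
    (g • P).Q x' y' = ‖(g : Matrix (Fin 2) (Fin 2) ℂ).det‖ * P.Q x y := by
  rw [← hx, ← hy]; exact Q_smul_apply g P x y

/-- every vector is in the image of `g` -/
lemma exists_preimage (g : GL (Fin 2) ℂ) (x' y' : ℂ) :
    ∃ x y, g 0 0 * x + g 0 1 * y = x' ∧ g 1 0 * x + g 1 1 * y = y' := by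
  have h := congrArg (fun m : GL (Fin 2) ℂ => (m : Matrix (Fin 2) (Fin 2) ℂ)) (mul_inv_cancel g)
  simp only [Units.val_mul, Units.val_one] at h
  have h00 := congrFun (congrFun h 0) 0
  have h01 := congrFun (congrFun h 0) 1
  have h10 := congrFun (congrFun h 1) 0
  have h11 := congrFun (congrFun h 1) 1
  simp only [Matrix.mul_apply, Fin.sum_univ_two, Matrix.one_apply, Fin.isValue, if_true,
    zero_ne_one, one_ne_zero, if_false] at h00 h01 h10 h11
  refine ⟨g⁻¹ 0 0 * x' + g⁻¹ 0 1 * y', g⁻¹ 1 0 * x' + g⁻¹ 1 1 * y', ?_, ?_⟩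
  · linear_combination x' * h00 + y' * h01
  · linear_combination x' * h10 + y' * h11

theorem one_smul' (P : H3) : (1 : GL (Fin 2) ℂ) • P = P := by
  apply eq_of_Q_eq
  intro x y
  have := Q_smul_apply 1 P x y
  simpa using this

theorem mul_smul' (g h : GL (Fin 2) ℂ) (P : H3) : (g * h) • P = g • (h • P) := by
  apply eq_of_Q_eq
  intro x'' y''
  obtain ⟨x', y', hx', hy'⟩ := exists_preimage g x'' y''
  obtain ⟨x, y, hx, hy⟩ := exists_preimage h x' y'
  rw [Q_smul_eq g (h • P) hx' hy', Q_smul_eq h P hx hy]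
  have e : ∀ i j, (g * h) i j = g i 0 * h 0 j + g i 1 * h 1 j := by
    intro i j
    rw [Units.val_mul, Matrix.mul_apply, Fin.sum_univ_two]
  have h1 : (g * h) 0 0 * x + (g * h) 0 1 * y = x'' := by
    rw [e, e]; linear_combination hx' + g 0 0 * hx + g 0 1 * hy
  have h2 : (g * h) 1 0 * x + (g * h) 1 1 * y = y'' := by
    rw [e, e]; linear_combination hy' + g 1 0 * hx + g 1 1 * hy
  rw [Q_smul_eq (g * h) P h1 h2, Units.val_mul, Matrix.det_mul, norm_mul, mul_assoc]

instance : MulAction (GL (Fin 2) ℂ) H3 where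
  one_smul := one_smul'
  mul_smul := mul_smul'

/-! ### Point pair invariant -/

/-- the point pair invariant: `cosh` of the hyperbolic distance -/
def ch (P P' : H3) : ℝ := (normSq (P.z - P'.z) + P.t ^ 2 + P'.t ^ 2) / (2 * P.t * P'.t)

lemma ch_comm (P P' : H3) : ch P P' = ch P' P := by
  rw [ch, ch]
  have : normSq (P.z - P'.z) = normSq (P'.z - P.z) := by
    rw [← normSq_neg, neg_sub]
  rw [this]
  ring

lemma ch_self (P : H3) : ch P P = 1 := by
  have := P.t_ne_zero
  rw [ch, sub_self, normSq_zero]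
  field_simp
  ring

lemma ch_eq (P P' : H3) :
    ch P P' = 1 + (normSq (P.z - P'.z) + (P.t - P'.t) ^ 2) / (2 * P.t * P'.t) := by
  have h1 := P.t_ne_zero
  have h2 := P'.t_ne_zero
  rw [ch]
  field_simp
  ring

lemma one_le_ch (P P' : H3) : 1 ≤ ch P P' := by
  rw [ch_eq]
  have h1 := P.t_pos
  have h2 := P'.t_pos
  have := normSq_nonneg (P.z - P'.z)
  have : 0 ≤ (normSq (P.z - P'.z) + (P.t - P'.t) ^ 2) / (2 * P.t * P'.t) := by positivity
  linarith

lemma ch_eq_one_iff (P P' : H3) : ch P P' = 1 ↔ P = P' := by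
  constructor
  · intro h
    rw [ch_eq] at h
    have h1 := P.t_pos
    have h2 := P'.t_pos
    have h3 : (normSq (P.z - P'.z) + (P.t - P'.t) ^ 2) / (2 * P.t * P'.t) = 0 := by linarith
    rw [div_eq_zero_iff, or_iff_left (by positivity),
      add_eq_zero_iff_of_nonneg (normSq_nonneg _) (sq_nonneg _), normSq_eq_zero,
      pow_eq_zero_iff two_ne_zero] at h3
    exact H3.ext (sub_eq_zero.1 h3.1) (sub_eq_zero.1 h3.2)
  · rintro rfl; exact ch_self P

lemma continuous_ch : Continuous (fun p : H3 × H3 => ch p.1 p.2) := by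
  unfold ch
  refine Continuous.div ?_ ?_ ?_
  · have h1 := continuous_z.comp (continuous_fst (X := H3) (Y := H3))
    have h2 := continuous_z.comp (continuous_snd (X := H3) (Y := H3))
    have h3 := continuous_t.comp (continuous_fst (X := H3) (Y := H3))
    have h4 := continuous_t.comp (continuous_snd (X := H3) (Y := H3))
    exact ((continuous_normSq.comp (h1.sub h2)).add (h3.pow 2)).add (h4.pow 2)
  · have h3 := continuous_t.comp (continuous_fst (X := H3) (Y := H3))
    have h4 := continuous_t.comp (continuous_snd (X := H3) (Y := H3))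
    exact (continuous_const.mul h3).mul h4
  · intro p
    have h1 := p.1.t_pos
    have h2 := p.2.t_pos
    positivity

end H3

end Fermat.LT
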