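import Mathlib
import Fermat.Agent.LT.A.H3

/-!
# Topology of the action of `GL₂(ℂ)` on `H3` (LT, piece A1)
-/

set_option autoImplicit false

open Complex Matrix Topology

open scoped ComplexConjugate

noncomputable section

namespace Fermat.LT.H3

/-! ### Continuity -/

lemma continuous_entry (i j : Fin 2) :
    Continuous (fun g : GL (Fin 2) ℂ => (g : Matrix (Fin 2) (Fin 2) ℂ) i j) :=
  (Units.continuous_val (M := Matrix (Fin 2) (Fin 2) ℂ)).matrix_elem i j

lemma continuous_den : Continuous (fun x : GL (Fin 2) ℂ × H3 => den x.1 x.2) := by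
  have hz : Continuous (fun x : GL (Fin 2) ℂ × H3 => x.2.z) := continuous_z.comp continuous_snd
  have ht : Continuous (fun x : GL (Fin 2) ℂ × H3 => x.2.t) := continuous_t.comp continuous_snd
  have he : ∀ i j, Continuous (fun x : GL (Fin 2) ℂ × H3 => x.1 i j) := fun i j =>
    (continuous_entry i j).comp continuous_fst
  unfold den
  exact (continuous_normSq.comp (((he 1 0).mul hz).add (he 1 1))).add
    ((continuous_normSq.comp (he 1 0)).mul (ht.pow 2))

instance : ContinuousSMul (GL (Fin 2) ℂ) H3 where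
  continuous_smul := by
    have hz : Continuous (fun x : GL (Fin 2) ℂ × H3 => x.2.z) := continuous_z.comp continuous_snd
    have ht : Continuous (fun x : GL (Fin 2) ℂ × H3 => x.2.t) := continuous_t.comp continuous_snd
    have he : ∀ i j, Continuous (fun x : GL (Fin 2) ℂ × H3 => x.1 i j) := fun i j =>
      (continuous_entry i j).comp continuous_fst
    rw [continuous_iff]
    constructor
    · simp only [smul_z]
      refine Continuous.div ?_ (continuous_ofReal.comp continuous_den) fun x => ?_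
      · refine ((((he 0 0).mul hz).add (he 0 1)).mul
          (continuous_conj.comp (((he 1 0).mul hz).add (he 1 1)))).add ?_
        exact ((he 0 0).mul (continuous_conj.comp (he 1 0))).mul
          ((continuous_ofReal.comp ht).pow 2)
      · exact_mod_cast (den_pos x.1 x.2).ne'
    · simp only [smul_t]
      refine Continuous.div ?_ continuous_den fun x => (den_pos x.1 x.2).ne'
      refine Continuous.mul (Continuous.norm ?_) ht
      simp only [Matrix.det_fin_two]
      exact ((he 0 0).mul (he 1 1)).sub ((he 0 1).mul (he 1 0))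

/-- the action of a fixed element, as a homeomorphism -/
def smulHomeo (g : GL (Fin 2) ℂ) : H3 ≃ₜ H3 := Homeomorph.smul g

/-! ### Special elements -/

lemma smul_z_of_upper (g : GL (Fin 2) ℂ) (hg : g 1 0 = 0) (P : H3) :
    (g • P).z = (g 0 0 * P.z + g 0 1) / g 1 1 := by
  have hd : g 1 1 ≠ 0 := (row_ne_zero g).resolve_left (fun h => h hg)
  have hN : den g P = normSq (g 1 1) := by simp [den, hg]
  rw [smul_z, hN, hg, ← mul_conj]
  have hd' : conj (g 1 1) ≠ 0 := by simpa using hd
  simp only [zero_mul, zero_add, map_zero, mul_zero, add_zero]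
  field_simp

lemma det_of_upper (g : GL (Fin 2) ℂ) (hg : g 1 0 = 0) :
    (g : Matrix (Fin 2) (Fin 2) ℂ).det = g 0 0 * g 1 1 := by
  rw [Matrix.det_fin_two, hg]; ring

lemma smul_t_of_upper (g : GL (Fin 2) ℂ) (hg : g 1 0 = 0) (P : H3) :
    (g • P).t = ‖g 0 0‖ / ‖g 1 1‖ * P.t := by
  have hd : g 1 1 ≠ 0 := (row_ne_zero g).resolve_left (fun h => h hg)
  have hN : den g P = ‖g 1 1‖ ^ 2 := by simp [den, hg, normSq_eq_norm_sq]
  rw [smul_t, hN, det_of_upper g hg, norm_mul]
  have hd' : ‖g 1 1‖ ≠ 0 := norm_ne_zero_iff.2 hd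
  field_simp

lemma upper_ne_zero (g : GL (Fin 2) ℂ) (hg : g 1 0 = 0) : g 0 0 ≠ 0 ∧ g 1 1 ≠ 0 := by
  have h := g.det_ne_zero
  rw [det_of_upper g hg] at h
  exact mul_ne_zero_iff.1 h

/-- the Weyl element -/
def w : GL (Fin 2) ℂ := Matrix.GeneralLinearGroup.mkOfDetNeZero !![0, 1; 1, 0] (by
  rw [Matrix.det_fin_two_of]; norm_num)

@[simp] lemma w_00 : w 0 0 = 0 := rfl
@[simp] lemma w_01 : w 0 1 = 1 := rfl
@[simp] lemma w_10 : w 1 0 = 1 := rfl
@[simp] lemma w_11 : w 1 1 = 0 := rfl

lemma norm_det_w : ‖(w : Matrix (Fin 2) (Fin 2) ℂ).det‖ = 1 := by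
  rw [Matrix.det_fin_two]
  simp

/-- `|z|² + t²` -/
def nn (P : H3) : ℝ := normSq P.z + P.t ^ 2

lemma nn_pos (P : H3) : 0 < nn P :=
  add_pos_of_nonneg_of_pos (normSq_nonneg _) (pow_pos P.t_pos 2)

lemma den_w (P : H3) : den w P = nn P := by simp [den, nn]

lemma smul_z_w (P : H3) : (w • P).z = conj P.z / nn P := by
  rw [smul_z, den_w]; simp

lemma smul_t_w (P : H3) : (w • P).t = P.t / nn P := by
  rw [smul_t, den_w, norm_det_w, one_mul]

/-- `GL₂(ℂ)` is generated by the upper triangular matrices and `w`. -/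
theorem gl_induction {p : GL (Fin 2) ℂ → Prop} (hmul : ∀ g h, p g → p h → p (g * h))
    (hB : ∀ g : GL (Fin 2) ℂ, g 1 0 = 0 → p g) (hw : p w) (g : GL (Fin 2) ℂ) : p g := by
  by_cases hc : g 1 0 = 0
  · exact hB g hc
  · have hdet : g 0 0 * g 1 1 - g 0 1 * g 1 0 ≠ 0 := by
      have := g.det_ne_zero
      rwa [Matrix.det_fin_two] at this
    have h1 : (!![(g 0 1 * g 1 0 - g 0 0 * g 1 1) / g 1 0, g 0 0; 0, g 1 0] :
        Matrix (Fin 2) (Fin 2) ℂ).det ≠ 0 := by
      rw [Matrix.det_fin_two_of, mul_zero, sub_zero, div_mul_cancel₀ _ hc]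
      intro h; apply hdet; linear_combination -h
    have h2 : (!![1, g 1 1 / g 1 0; 0, 1] : Matrix (Fin 2) (Fin 2) ℂ).det ≠ 0 := by
      rw [Matrix.det_fin_two_of]; norm_num
    have key : g = Matrix.GeneralLinearGroup.mkOfDetNeZero _ h1 * w *
        Matrix.GeneralLinearGroup.mkOfDetNeZero _ h2 := by
      apply Units.ext
      change (g : Matrix (Fin 2) (Fin 2) ℂ) =
        !![(g 0 1 * g 1 0 - g 0 0 * g 1 1) / g 1 0, g 0 0; 0, g 1 0] * !![0, 1; 1, 0] *
          !![1, g 1 1 / g 1 0; 0, 1]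
      ext i j
      fin_cases i <;> fin_cases j <;>
        simp [Matrix.mul_apply, Fin.sum_univ_two] <;> field_simp
      ring
    rw [key]
    exact hmul _ _ (hmul _ _ (hB _ rfl) hw) (hB _ rfl)

/-- **Invariance** of the point pair invariant. -/
theorem ch_smul (g : GL (Fin 2) ℂ) (P P' : H3) : ch (g • P) (g • P') = ch P P' := by
  revert P P'
  apply gl_induction (p := fun g => ∀ P P' : H3, ch (g • P) (g • P') = ch P P')
  · intro g h hg hh P P'
    rw [mul_smul, mul_smul, hg, hh]
  · intro g hg P P'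
    obtain ⟨ha, hd⟩ := upper_ne_zero g hg
    rw [ch, ch, smul_z_of_upper g hg, smul_z_of_upper g hg, smul_t_of_upper g hg,
      smul_t_of_upper g hg]
    have e : (g 0 0 * P.z + g 0 1) / g 1 1 - (g 0 0 * P'.z + g 0 1) / g 1 1 =
        g 0 0 / g 1 1 * (P.z - P'.z) := by ring
    have ha' : 0 < ‖g 0 0‖ := norm_pos_iff.2 ha
    have hd' : 0 < ‖g 1 1‖ := norm_pos_iff.2 hd
    have ht := P.t_pos
    have ht' := P'.t_pos
    rw [e, normSq_mul, normSq_div, normSq_eq_norm_sq (g 0 0), normSq_eq_norm_sq (g 1 1)]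
    field_simp
  · intro P P'
    have hN := nn_pos P
    have hN' := nn_pos P'
    have ht := P.t_pos
    have ht' := P'.t_pos
    rw [ch, ch, smul_z_w, smul_z_w, smul_t_w, smul_t_w]
    have e : normSq (conj P.z / (nn P : ℂ) - conj P'.z / (nn P' : ℂ)) * (nn P * nn P') =
        normSq (P.z - P'.z) + P.t ^ 2 + P'.t ^ 2 - P.t ^ 2 * nn P' / nn P
          - P'.t ^ 2 * nn P / nn P' := by
      have h1 : (nn P : ℂ) ≠ 0 := by exact_mod_cast hN.ne'
      have h2 : (nn P' : ℂ) ≠ 0 := by exact_mod_cast hN'.ne'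
      apply ofReal_injective
      push_cast
      rw [← mul_conj, ← mul_conj]
      simp only [map_sub, map_div₀, conj_conj, conj_ofReal]
      field_simp
      have e1 : (nn P : ℂ) = P.z * conj P.z + (P.t : ℂ) ^ 2 := by
        rw [nn, mul_conj]; push_cast; rfl
      have e2 : (nn P' : ℂ) = P'.z * conj P'.z + (P'.t : ℂ) ^ 2 := by
        rw [nn, mul_conj]; push_cast; rfl
      rw [e1, e2]
      ring
    rw [div_eq_div_iff (by positivity) (by positivity)]
    have e' : normSq (conj P.z / (nn P : ℂ) - conj P'.z / (nn P' : ℂ)) =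
        (normSq (P.z - P'.z) + P.t ^ 2 + P'.t ^ 2 - P.t ^ 2 * nn P' / nn P
          - P'.t ^ 2 * nn P / nn P') / (nn P * nn P') := by
      rw [eq_div_iff (by positivity)]; exact e
    rw [e']
    field_simp
    ring

/-- Scalars act trivially. -/
theorem smul_eq_of_scalar (g : GL (Fin 2) ℂ) (h10 : g 1 0 = 0) (h01 : g 0 1 = 0)
    (h : g 0 0 = g 1 1) (P : H3) : g • P = P := by
  obtain ⟨ha, hd⟩ := upper_ne_zero g h10
  apply H3.ext
  · rw [smul_z_of_upper g h10, h01, h]
    field_simp
    ring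
  · rw [smul_t_of_upper g h10, h, div_self (norm_ne_zero_iff.2 hd), one_mul]

/-! ### Balls -/

/-- closed balls -/
def ball (P : H3) (R : ℝ) : Set H3 := {P' | ch P P' ≤ R}

lemma mem_ball {P P' : H3} {R : ℝ} : P' ∈ ball P R ↔ ch P P' ≤ R := Iff.rfl

lemma isClosed_ball (P : H3) (R : ℝ) : IsClosed (ball P R) :=
  isClosed_le (continuous_ch.comp (continuous_const.prodMk continuous_id)) continuous_const

lemma smul_mem_ball (g : GL (Fin 2) ℂ) {P P' : H3} {R : ℝ} :
    g • P' ∈ ball (g • P) R ↔ P' ∈ ball P R := by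
  rw [mem_ball, mem_ball, ch_smul]

/-- Closed balls are compact. -/
theorem isCompact_ball (P : H3) (R : ℝ) : IsCompact (ball P R) := by
  rcases lt_or_ge R 1 with hR | hR
  · have : ball P R = ∅ := by
      ext P'
      simp only [mem_ball, Set.mem_empty_iff_false, iff_false, not_le]
      exact hR.trans_le (one_le_ch P P')
    rw [this]; exact isCompact_empty
  have htp := P.t_pos
  have hR0 : 0 < R := by linarith
  have hind : Topology.IsInducing (fun P : H3 => (P.1 : ℂ × ℝ)) := Topology.IsInducing.subtypeVal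
  rw [hind.isCompact_iff]
  -- the image is closed and bounded in `ℂ × ℝ`
  have himg : (fun P : H3 => (P.1 : ℂ × ℝ)) '' ball P R =
      {p : ℂ × ℝ | P.t / (2 * R) ≤ p.2} ∩
        {p : ℂ × ℝ | normSq (P.z - p.1) + P.t ^ 2 + p.2 ^ 2 ≤ 2 * P.t * p.2 * R} := by
    ext p
    simp only [Set.mem_image, Set.mem_inter_iff, Set.mem_ofPred_eq]
    constructor
    · rintro ⟨P', hP', rfl⟩
      have ht' := P'.t_pos
      rw [mem_ball, ch, div_le_iff₀ (by positivity)] at hP'
      have h2 : normSq (P.z - P'.z) + P.t ^ 2 + P'.t ^ 2 ≤ 2 * P.t * P'.t * R := by linarith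
      refine ⟨?_, h2⟩
      have h3 := normSq_nonneg (P.z - P'.z)
      rw [div_le_iff₀ (by positivity)]
      have h4 : P.t * P.t ≤ (P'.t * (2 * R)) * P.t := by nlinarith [sq_nonneg P'.t]
      exact le_of_mul_le_mul_right h4 htp
    · rintro ⟨h1, h2⟩
      have hp : 0 < p.2 := lt_of_lt_of_le (by positivity) h1
      refine ⟨mk p.1 p.2 hp, ?_, rfl⟩
      rw [mem_ball, ch, z_mk, t_mk, div_le_iff₀ (by positivity)]
      linarith
  rw [himg]
  apply Metric.isCompact_of_isClosed_isBounded
  · apply IsClosed.inter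
    · exact isClosed_le continuous_const continuous_snd
    · apply isClosed_le
      · exact ((continuous_normSq.comp (continuous_const.sub continuous_fst)).add
          continuous_const).add (continuous_snd.pow 2)
      · exact (continuous_const.mul continuous_snd).mul continuous_const
  · rw [isBounded_iff_forall_norm_le]
    refine ⟨max (‖P.z‖ + 2 * P.t * R) (2 * P.t * R), ?_⟩
    rintro p ⟨h1, h2⟩
    rw [Set.mem_ofPred_eq] at h1 h2
    have hp : 0 < p.2 := lt_of_lt_of_le (by positivity) h1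
    have h3 := normSq_nonneg (P.z - p.1)
    have h4 : p.2 ≤ 2 * P.t * R := by
      have : p.2 * p.2 ≤ (2 * P.t * R) * p.2 := by nlinarith [sq_nonneg P.t]
      exact le_of_mul_le_mul_right this hp
    have h5 : normSq (P.z - p.1) ≤ (2 * P.t * R) ^ 2 := by
      have : 2 * P.t * p.2 * R ≤ (2 * P.t * R) ^ 2 := by
        have : 0 ≤ 2 * P.t * R := by positivity
        nlinarith
      nlinarith [sq_nonneg P.t, sq_nonneg p.2]
    have h6 : ‖P.z - p.1‖ ≤ 2 * P.t * R := by
      rw [normSq_eq_norm_sq] at h5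
      exact (pow_le_pow_iff_left₀ (norm_nonneg _) (by positivity) two_ne_zero).1 h5
    rw [Prod.norm_def]
    apply max_le_max
    · have : ‖p.1‖ ≤ ‖P.z‖ + ‖P.z - p.1‖ := by
        have := norm_sub_le P.z (P.z - p.1)
        simpa using this
      linarith
    · rw [Real.norm_eq_abs, abs_of_pos hp]; exact h4

end Fermat.LT.H3
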