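import Fermat.Agent.LT.A.Reduce
import Fermat.Agent.LT.A.H3Top
import Fermat.Agent.LT.H.UnitBal

/-!
# LT, piece A: Siegel sets (reduction theory)
-/

open NumberField IsDedekindDomain Matrix MeasureTheory Module
open scoped ComplexConjugate ENNReal

namespace Fermat.LT

variable {F : Type} [Field F] [NumberField F]

/-- Balancing by `m`-th powers of units. -/
theorem unit_balance (A : Arch F) (m : ℕ) (hm : 0 < m) : ∃ c : ℝ, 0 < c ∧ c ≤ 1 ∧
    ∀ t : A.I → ℝ, (∀ i, 0 < t i) → ∃ u : (𝓞 F)ˣ, ∀ i,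
      c * (∏ j, t j) ^ ((Fintype.card A.I : ℝ)⁻¹) ≤ ‖A.emb i (u : F)‖ ^ m * t i := by
  obtain ⟨c, hc, hc1, h⟩ := Fermat.Agent.LT.H.Eis.exists_unit_balance F
  refine ⟨c ^ m, by positivity, pow_le_one₀ hc.le hc1, fun t ht => ?_⟩
  have hm0 : (m : ℝ) ≠ 0 := by positivity
  obtain ⟨u, hu⟩ := h (fun w => (t (A.equiv.symm w)) ^ ((m : ℝ)⁻¹))
    (fun w => Real.rpow_pos_of_pos (ht _) _)
  refine ⟨u, fun i => ?_⟩
  have hne := Arch.nonempty A
  have hr : (0 : ℝ) < Fintype.card A.I := by exact_mod_cast Fintype.card_pos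
  have hmult : ∀ w : InfinitePlace F, w.mult = 2 := by
    intro w
    obtain ⟨j, rfl⟩ := A.equiv.surjective w
    have : (A.pl j).mult = 2 := by
      rw [InfinitePlace.mult, if_neg (InfinitePlace.not_isReal_iff_isComplex.mpr (A.isComplex j))]
    exact this
  have hcard : (finrank ℚ F : ℝ) = 2 * Fintype.card A.I := by
    rw [← InfinitePlace.sum_mult_eq, Finset.sum_congr rfl fun w _ => hmult w, Finset.sum_const,
      Finset.card_univ, ← Fintype.card_congr A.equiv]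
    simp; ring
  have hi := hu (A.equiv i)
  simp only [Equiv.symm_apply_apply] at hi
  have hprod : (∏ w : InfinitePlace F, ((t (A.equiv.symm w)) ^ ((m : ℝ)⁻¹)) ^ w.mult) =
      (∏ j, t j) ^ (2 * (m : ℝ)⁻¹) := by
    rw [Finset.prod_congr rfl fun w _ => by rw [hmult w, ← Real.rpow_natCast, ← Real.rpow_mul (ht _).le]]
    rw [← Real.finsetProd_rpow _ _ (fun j _ => (ht j).le)]
    refine (Fintype.prod_equiv A.equiv _ _ fun j => ?_).symm
    simp [mul_comm]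
  rw [hprod, hcard, ← Real.rpow_mul (Finset.prod_nonneg fun j _ => (ht j).le)] at hi
  have hexp : 2 * (m : ℝ)⁻¹ * (2 * (Fintype.card A.I : ℝ))⁻¹ = (Fintype.card A.I : ℝ)⁻¹ * (m : ℝ)⁻¹ := by
    field_simp
  rw [hexp] at hi
  have hP : 0 < ∏ j, t j := Finset.prod_pos fun j _ => ht j
  have h2 := pow_le_pow_left₀ (by positivity) hi m
  rw [mul_pow, mul_pow, ← Real.rpow_natCast (_ ^ _) m, ← Real.rpow_mul hP.le,
    ← Real.rpow_natCast ((t i) ^ _) m, ← Real.rpow_mul (ht i).le, mul_assoc,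
    inv_mul_cancel₀ hm0, mul_one, Real.rpow_one] at h2
  have h3 : (A.equiv i) (u : F) = ‖A.emb i (u : F)‖ := A.pl_apply i u
  rw [h3] at h2
  exact h2

section actions

variable {A : Arch F}

omit [NumberField F] in
theorem un_val (b : F) : (un b).1 = !![1, b; 0, 1] := rfl

omit [NumberField F] in
theorem dg_val (a : Fˣ) : (dg a).1 = !![(a : F), 0; 0, 1] := rfl

theorem un_smul_z (b : F) (x : XI A) (i : A.I) : ((un b • x) i).z = (x i).z + A.emb i b := by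
  rw [XI_smul_apply]
  have e : ∀ a c, (Matrix.GeneralLinearGroup.map (n := Fin 2) (A.emb i) (un b)) a c
        = A.emb i ((un b).1 a c) := fun a c => rfl
  rw [H3.smul_z_of_upper _ (by rw [e]; simp [un_val]), e, e, e]
  simp [un_val]

theorem un_smul_t (b : F) (x : XI A) (i : A.I) : ((un b • x) i).t = (x i).t := by
  rw [XI_smul_apply]
  have e : ∀ a c, (Matrix.GeneralLinearGroup.map (n := Fin 2) (A.emb i) (un b)) a c
        = A.emb i ((un b).1 a c) := fun a c => rfl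
  rw [H3.smul_t_of_upper _ (by rw [e]; simp [un_val]), e, e]
  simp [un_val]

theorem dg_smul_z (a : Fˣ) (x : XI A) (i : A.I) : ((dg a • x) i).z = A.emb i a * (x i).z := by
  rw [XI_smul_apply]
  have e : ∀ b c, (Matrix.GeneralLinearGroup.map (n := Fin 2) (A.emb i) (dg a)) b c
        = A.emb i ((dg a).1 b c) := fun b c => rfl
  rw [H3.smul_z_of_upper _ (by rw [e]; simp [dg_val]), e, e, e]
  simp [dg_val]

theorem dg_smul_t (a : Fˣ) (x : XI A) (i : A.I) : ((dg a • x) i).t = ‖A.emb i a‖ * (x i).t := by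
  rw [XI_smul_apply]
  have e : ∀ b c, (Matrix.GeneralLinearGroup.map (n := Fin 2) (A.emb i) (dg a)) b c
        = A.emb i ((dg a).1 b c) := fun b c => rfl
  rw [H3.smul_t_of_upper _ (by rw [e]; simp [dg_val]), e, e]
  simp [dg_val]

/-- the archimedean height at `∞` -/
theorem hinf_e1 (x : XI A) : hinf e1 x = ∏ i, (x i).t ^ 2 := by
  rw [hinf]
  refine Finset.prod_congr rfl fun i _ => ?_
  have h0 : A.emb i ((e1 : Fin 2 → F) 0) = 1 := by simp [e1]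
  have h1 : A.emb i ((e1 : Fin 2 → F) 1) = 0 := by simp [e1]
  rw [h0, h1, H3.Q_one_zero]
  simp

omit [NumberField F] in
theorem e1_ne : (e1 : Fin 2 → F) ≠ 0 := by
  intro h
  have := congrFun h 0
  simp [e1] at this

omit [NumberField F] in
theorem un_mulVec_e1 (b : F) : (un b).1 *ᵥ (e1 : Fin 2 → F) = e1 := by
  ext j; fin_cases j <;> simp [un_val, e1, Matrix.mulVec, dotProduct, Fin.sum_univ_two]

omit [NumberField F] in
theorem dg_mulVec_e1 (a : Fˣ) : (dg a).1 *ᵥ (e1 : Fin 2 → F) = (a : F) • e1 := by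
  ext j; fin_cases j <;> simp [dg_val, e1, Matrix.mulVec, dotProduct, Fin.sum_univ_two]

variable {D : Datum F}

theorem ht_e1_un (b : F) (x : X D) : ht e1 (un b • x) = ht e1 x := by
  have := ht_equiv (un b) e1_ne x
  rwa [un_mulVec_e1] at this

theorem ht_e1_dg (a : Fˣ) (x : X D) : ht e1 (dg a • x) = ht e1 x := by
  have := ht_equiv (dg a) e1_ne x
  rwa [dg_mulVec_e1, ht_smul a.ne_zero e1_ne] at this

omit [NumberField F] in
/-- `GL₂(F)` is transitive on nonzero vectors -/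
theorem exists_mulVec_eq_e1 {v : Fin 2 → F} (hv : v ≠ 0) : ∃ g : G2 F, g.1 *ᵥ v = e1 := by
  by_cases h0 : v 0 = 0
  · have h1 : v 1 ≠ 0 := by
      intro h1; apply hv; ext j; fin_cases j
      exacts [h0, h1]
    refine ⟨Matrix.GeneralLinearGroup.mkOfDetNeZero !![0, (v 1)⁻¹; 1, 0] (by simp [h1]), ?_⟩
    ext j; fin_cases j <;>
      simp [e1, Matrix.GeneralLinearGroup.mkOfDetNeZero, Matrix.mulVec, dotProduct,
        Fin.sum_univ_two, h0, h1]
  · refine ⟨Matrix.GeneralLinearGroup.mkOfDetNeZero !![(v 0)⁻¹, 0; - v 1, v 0] (by simp [h0]), ?_⟩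
    ext j; fin_cases j <;>
      simp [e1, Matrix.GeneralLinearGroup.mkOfDetNeZero, Matrix.mulVec, dotProduct,
        Fin.sum_univ_two, h0]
    ring

end actions

/-- every vector of `ℂ^I` can be moved to a bounded set by the lattice `𝓞 F`. -/
theorem exists_bounded (A : Arch F) : ∃ B : ℝ, 0 < B ∧ ∀ u : A.I → ℂ, ∃ b : 𝓞 F, ∀ i,
    ‖u i + A.emb i (b : F)‖ ≤ B := by
  refine ⟨∑ j, ‖latB A j‖ + 1, by positivity, fun u => ?_⟩
  have h1 := ZSpan.norm_fract_le (K := ℝ) (latB A) u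
  obtain ⟨b, hb⟩ := (mem_span_latB A).mp (Submodule.neg_mem _ (ZSpan.floor (latB A) u).2)
  refine ⟨b, fun i => ?_⟩
  have h2 : u i + A.emb i (b : F) = (ZSpan.fract (latB A) u) i := by
    rw [ZSpan.fract_apply, Pi.sub_apply, sub_eq_add_neg]
    have : A.emb i (b : F) = (embI A (b : F)) i := rfl
    rw [this, hb]; rfl
  rw [h2]
  exact ((norm_le_pi_norm _ i).trans h1).trans (by linarith)

/-- **Siegel's theorem** at a given cusp: a point with `ht v x ≥ c₀` can be moved into a Siegel set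
at `∞` by an element moving the line of `v` to `∞`. -/
theorem siegel_cusp (D : Datum F)
    (hB1 : ∃ S : Finset (Y D.toLevel), ∀ y : Y D.toLevel, ∃ (a : Fˣ) (b : F),
      (un b * dg a) • y ∈ S)
    (hB2 : ∀ y : Y D.toLevel, ∃ c : 𝓞 F, c ≠ 0 ∧ ∀ b : 𝓞 F, un ((c * b : 𝓞 F) : F) • y = y)
    (hB3 : ∀ y : Y D.toLevel, ∃ m : ℕ, 0 < m ∧ ∀ u : (𝓞 F)ˣ,
      dg (Units.map (algebraMap (𝓞 F) F : 𝓞 F →* F) u ^ m) • y = y) :
    ∃ (Y₀ : Finset (Y D.toLevel)) (C : ℝ), 1 ≤ C ∧ ∀ c₀ : ℝ, 0 < c₀ → ∃ c : ℝ, 0 < c ∧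
      ∀ x : X D, ∀ v : Fin 2 → F, v ≠ 0 → c₀ ≤ ht v x → ∃ g : G2 F,
        (∃ a : F, a ≠ 0 ∧ g.1 *ᵥ v = a • e1) ∧ (g • x).2 ∈ Y₀ ∧
        (∀ i, ‖((g • x).1 i).z‖ ≤ C) ∧
        (∀ i j, ((g • x).1 i).t ≤ C * ((g • x).1 j).t) ∧ (∀ i, c ≤ ((g • x).1 i).t) := by
  classical
  obtain ⟨S, hS⟩ := hB1
  choose cy hcy hcy' using hB2
  choose my hmy hmy' using hB3
  have hne := Arch.nonempty D.toArch
  set r : ℕ := Fintype.card D.I with hr
  have hr0 : 0 < r := Fintype.card_pos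
  -- common translation modulus and exponent
  set c1 : 𝓞 F := ∏ y ∈ S, cy y with hc1
  have hc1' : c1 ≠ 0 := Finset.prod_ne_zero_iff.mpr fun y _ => hcy y
  have htr : ∀ y ∈ S, ∀ b : 𝓞 F, un ((c1 * b : 𝓞 F) : F) • y = y := by
    intro y hy b
    have : c1 * b = cy y * ((∏ z ∈ S.erase y, cy z) * b) := by
      rw [← mul_assoc, Finset.mul_prod_erase S cy hy]
    rw [this]; exact hcy' y _
  set m1 : ℕ := ∏ y ∈ S, my y with hm1
  have hm1' : 0 < m1 := Finset.prod_pos fun y _ => hmy y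
  have hun : ∀ y ∈ S, ∀ u : (𝓞 F)ˣ,
      dg (Units.map (algebraMap (𝓞 F) F : 𝓞 F →* F) u ^ m1) • y = y := by
    intro y hy u
    have : m1 = my y * (∏ z ∈ S.erase y, my z) := by
      rw [hm1, Finset.mul_prod_erase S my hy]
    rw [this, mul_comm, pow_mul, ← map_pow]
    exact hmy' y _
  obtain ⟨cb, hcb, hcb1, hbal⟩ := unit_balance D.toArch m1 hm1'
  obtain ⟨B, hB, hbd⟩ := exists_bounded D.toArch
  -- bound for the finite height at ∞ on S
  obtain ⟨C1, hC1, hC1'⟩ : ∃ C1 : ℝ, 0 < C1 ∧ ∀ y ∈ S, hfin (e1 : Fin 2 → F) y ≤ C1 := by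
    refine ⟨∑ y ∈ S, hfin (e1 : Fin 2 → F) y + 1, ?_, fun y hy => ?_⟩
    · have := Finset.sum_nonneg fun y (_ : y ∈ S) => (hfin_pos (e1_ne (F := F)) y).le
      linarith
    · have := Finset.single_le_sum (fun y (_ : y ∈ S) => (hfin_pos (e1_ne (F := F)) y).le) hy
      linarith
  -- bound for |emb c1|
  obtain ⟨M, hM, hM'⟩ : ∃ M : ℝ, 0 < M ∧ ∀ i, ‖D.emb i (c1 : F)‖ ≤ M := by
    refine ⟨∑ i, ‖D.emb i (c1 : F)‖ + 1, by positivity, fun i => ?_⟩
    have := Finset.single_le_sum (fun i (_ : i ∈ Finset.univ) => norm_nonneg (D.emb i (c1 : F)))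
      (Finset.mem_univ i)
    linarith
  refine ⟨S, max 1 (max (M * B) ((cb⁻¹) ^ r)), le_max_left _ _, fun c₀ hc₀ => ?_⟩
  refine ⟨cb * (√(c₀ / C1)) ^ ((r : ℝ)⁻¹), by positivity, fun x v hv hx => ?_⟩
  -- step 1
  obtain ⟨g1, hg1⟩ := exists_mulVec_eq_e1 hv
  have hx1 : c₀ ≤ ht e1 (g1 • x) := by
    have := ht_equiv g1 hv x
    rw [hg1] at this
    rw [this]; exact hx
  -- step 2
  obtain ⟨a, b, hab⟩ := hS (g1 • x).2
  set g2 : G2 F := un b * dg a with hg2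
  set x2 : X D := g2 • (g1 • x) with hx2
  have hx2c : c₀ ≤ ht e1 x2 := by
    rw [hx2, hg2, mul_smul, ht_e1_un, ht_e1_dg]; exact hx1
  have hx2S : x2.2 ∈ S := hab
  -- step 3
  obtain ⟨u, hu⟩ := hbal (fun i => (x2.1 i).t) (fun i => (x2.1 i).t_pos)
  set um : Fˣ := Units.map (algebraMap (𝓞 F) F : 𝓞 F →* F) u ^ m1 with hum
  set x3 : X D := dg um • x2 with hx3
  have hx3y : x3.2 = x2.2 := hun _ hx2S u
  have hx3t : ∀ i, (x3.1 i).t = ‖D.emb i (u : F)‖ ^ m1 * (x2.1 i).t := by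
    intro i
    have : x3.1 i = (dg um • x2.1) i := rfl
    rw [this, dg_smul_t, hum, Units.val_pow_eq_pow_val, map_pow, norm_pow]
    rfl
  have hx3c : c₀ ≤ ht e1 x3 := by rw [hx3, ht_e1_dg]; exact hx2c
  have hnormu : ∏ i, ‖D.emb i (u : F)‖ = 1 := by
    have h1 := prod_formula D.toArch (x := (u : F)) (by simp)
    have h2 : ∏ᶠ w : Pl F, av w ((u : 𝓞 F) : F) = 1 := by
      refine finprod_eq_one_of_forall_eq_one fun w => ?_
      apply le_antisymm (av_int_le w _)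
      have h3 := av_int_le w ((u⁻¹ : (𝓞 F)ˣ) : 𝓞 F)
      have h4 : av w ((u : 𝓞 F) : F) * av w (((u⁻¹ : (𝓞 F)ˣ) : 𝓞 F) : F) = 1 := by
        rw [← map_mul, ← map_mul, Units.mul_inv, map_one, map_one]
      have h5 := (av w).nonneg ((u : 𝓞 F) : F)
      nlinarith
    rw [h2, mul_one, Finset.prod_pow] at h1
    have h3 : 0 ≤ ∏ i, ‖D.emb i (u : F)‖ := Finset.prod_nonneg fun i _ => norm_nonneg _
    exact (pow_eq_one_iff_of_nonneg h3 two_ne_zero).mp h1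
  have hprodt : ∏ i, (x3.1 i).t = ∏ i, (x2.1 i).t := by
    rw [Finset.prod_congr rfl fun i _ => hx3t i, Finset.prod_mul_distrib, Finset.prod_pow, hnormu,
      one_pow, one_mul]
  set P : ℝ := ∏ i, (x2.1 i).t with hP
  have hP0 : 0 < P := Finset.prod_pos fun i _ => (x2.1 i).t_pos
  have hPc : √(c₀ / C1) ≤ P := by
    have h1 : ht e1 x2 = P ^ 2 * hfin e1 x2.2 := by
      rw [ht, hinf_e1, Finset.prod_pow]
    rw [h1] at hx2c
    have h2 := hC1' _ hx2S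
    have h3 := hfin_pos (e1_ne (F := F)) x2.2
    have h4 : c₀ ≤ P ^ 2 * C1 := hx2c.trans (mul_le_mul_of_nonneg_left h2 (sq_nonneg _))
    rw [Real.sqrt_le_left hP0.le, div_le_iff₀ hC1]
    exact h4
  have hlow : ∀ i, cb * P ^ ((r : ℝ)⁻¹) ≤ (x3.1 i).t := by
    intro i; rw [hx3t i]; exact hu i
  have hPr : 0 < P ^ ((r : ℝ)⁻¹) := Real.rpow_pos_of_pos hP0 _
  have hPrr : (P ^ ((r : ℝ)⁻¹)) ^ r = P := by
    rw [← Real.rpow_natCast, ← Real.rpow_mul hP0.le, inv_mul_cancel₀ (by positivity), Real.rpow_one]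
  have hup : ∀ i, (x3.1 i).t ≤ (cb⁻¹) ^ (r - 1) * P ^ ((r : ℝ)⁻¹) := by
    intro i
    have hP' : P = (x3.1 i).t * ∏ j ∈ Finset.univ.erase i, (x3.1 j).t := by
      rw [← hprodt, Finset.mul_prod_erase _ (fun j => (x3.1 j).t) (Finset.mem_univ i)]
    have h1 : (x3.1 i).t * (cb * P ^ ((r : ℝ)⁻¹)) ^ (r - 1) ≤ P := by
      conv_rhs => rw [hP']
      apply mul_le_mul_of_nonneg_left _ (x3.1 i).t_pos.le
      have hcard : (Finset.univ.erase i).card = r - 1 := by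
        rw [Finset.card_erase_of_mem (Finset.mem_univ i), Finset.card_univ]
      rw [← hcard, ← Finset.prod_const]
      exact Finset.prod_le_prod (fun j _ => by positivity) fun j _ => hlow j
    have h2 : P = (P ^ ((r : ℝ)⁻¹)) ^ (r - 1) * P ^ ((r : ℝ)⁻¹) := by
      rw [← pow_succ, Nat.sub_add_cancel hr0, hPrr]
    rw [mul_pow] at h1
    have h3 : (x3.1 i).t * cb ^ (r - 1) ≤ P ^ ((r : ℝ)⁻¹) := by
      have h4 : ((x3.1 i).t * cb ^ (r - 1)) * (P ^ ((r : ℝ)⁻¹)) ^ (r - 1) ≤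
          P ^ ((r : ℝ)⁻¹) * (P ^ ((r : ℝ)⁻¹)) ^ (r - 1) := by
        calc _ = (x3.1 i).t * (cb ^ (r - 1) * (P ^ ((r : ℝ)⁻¹)) ^ (r - 1)) := by ring
          _ ≤ P := h1
          _ = _ := by rw [mul_comm]; exact h2
      exact le_of_mul_le_mul_right h4 (by positivity)
    rw [inv_pow, mul_comm, ← div_eq_mul_inv, le_div_iff₀ (by positivity)]
    exact h3
  -- step 4
  obtain ⟨b', hb'⟩ := hbd (fun i => (x3.1 i).z / D.emb i (c1 : F))
  set b3 : F := ((c1 * b' : 𝓞 F) : F) with hb3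
  have hc1F : ∀ i, D.emb i (c1 : F) ≠ 0 := fun i =>
    (map_ne_zero _).mpr (by simpa using hc1')
  set g : G2 F := un b3 * dg um * g2 * g1 with hg
  have hgx : g • x = un b3 • x3 := by
    rw [hg, hx3, hx2, mul_smul, mul_smul, mul_smul]
  have hgt : ∀ i, ((g • x).1 i).t = (x3.1 i).t := by
    intro i; rw [hgx]; exact un_smul_t b3 x3.1 i
  have hcb' : 0 < (cb⁻¹) ^ r := by positivity
  refine ⟨g, ⟨(um : F) * a, ?_, ?_⟩, ?_, ?_, ?_, ?_⟩
  · exact mul_ne_zero um.ne_zero a.ne_zero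
  · rw [hg, Units.val_mul, Units.val_mul, Units.val_mul, hg2, Units.val_mul,
      ← Matrix.mulVec_mulVec, hg1, ← Matrix.mulVec_mulVec, ← Matrix.mulVec_mulVec,
      ← Matrix.mulVec_mulVec, dg_mulVec_e1, Matrix.mulVec_smul, Matrix.mulVec_smul,
      Matrix.mulVec_smul, un_mulVec_e1, dg_mulVec_e1, Matrix.mulVec_smul, un_mulVec_e1, smul_smul,
      mul_comm]
  · have : (g • x).2 = un b3 • x3.2 := by rw [hgx]; rfl
    rw [this, hx3y, hb3, htr _ hx2S]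
    exact hx2S
  · intro i
    refine le_trans ?_ ((le_max_left (M * B) ((cb⁻¹) ^ r)).trans (le_max_right _ _))
    have h1 : ((g • x).1 i).z = (x3.1 i).z + D.emb i b3 := by
      rw [hgx]; exact un_smul_z b3 x3.1 i
    have h2 : (x3.1 i).z + D.emb i b3 =
        D.emb i (c1 : F) * ((x3.1 i).z / D.emb i (c1 : F) + D.emb i (b' : F)) := by
      have := hc1F i
      have e : b3 = (c1 : F) * (b' : F) := map_mul _ _ _
      rw [e, map_mul]
      field_simp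
    rw [h1, h2, norm_mul]
    exact mul_le_mul (hM' i) (hb' i) (norm_nonneg _) hM.le
  · intro i j
    rw [hgt, hgt]
    have h1 := hup i
    have h2 := hlow j
    have h3 : (x3.1 i).t ≤ (cb⁻¹) ^ r * (x3.1 j).t := by
      calc (x3.1 i).t ≤ (cb⁻¹) ^ (r - 1) * P ^ ((r : ℝ)⁻¹) := h1
        _ = (cb⁻¹) ^ (r - 1) * cb⁻¹ * (cb * P ^ ((r : ℝ)⁻¹)) := by field_simp
        _ = (cb⁻¹) ^ r * (cb * P ^ ((r : ℝ)⁻¹)) := by
          rw [← pow_succ, Nat.sub_add_cancel hr0]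
        _ ≤ _ := mul_le_mul_of_nonneg_left h2 hcb'.le
    refine h3.trans (mul_le_mul_of_nonneg_right ?_ (x3.1 j).t_pos.le)
    exact (le_max_right _ _).trans (le_max_right _ _)
  · intro i
    rw [hgt]
    refine le_trans ?_ (hlow i)
    apply mul_le_mul_of_nonneg_left _ hcb.le
    exact Real.rpow_le_rpow (Real.sqrt_nonneg _) hPc (by positivity)

/-- The Siegel set. -/
def siegelSet (D : Datum F) (Y₀ : Finset (Y D.toLevel)) (C c : ℝ) : Set (X D) :=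
  {x | x.2 ∈ Y₀ ∧ (∀ i, ‖(x.1 i).z‖ ≤ C) ∧ (∀ i j, (x.1 i).t ≤ C * (x.1 j).t) ∧
    (∀ i, c ≤ (x.1 i).t)}

/-- **Siegel's theorem.** -/
theorem siegel_of (D : Datum F)
    (hB1 : ∃ S : Finset (Y D.toLevel), ∀ y : Y D.toLevel, ∃ (a : Fˣ) (b : F),
      (un b * dg a) • y ∈ S)
    (hB2 : ∀ y : Y D.toLevel, ∃ c : 𝓞 F, c ≠ 0 ∧ ∀ b : 𝓞 F, un ((c * b : 𝓞 F) : F) • y = y)
    (hB3 : ∀ y : Y D.toLevel, ∃ m : ℕ, 0 < m ∧ ∀ u : (𝓞 F)ˣ,
      dg (Units.map (algebraMap (𝓞 F) F : 𝓞 F →* F) u ^ m) • y = y) :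
    ∃ (Y₀ : Finset (Y D.toLevel)) (C c : ℝ), 1 ≤ C ∧ 0 < c ∧
      ∀ x : X D, ∃ γ : PG F, γ • x ∈ siegelSet D Y₀ C c := by
  obtain ⟨Y₀, C, hC, h⟩ := siegel_cusp D hB1 hB2 hB3
  obtain ⟨S, hS⟩ := hB1
  obtain ⟨c₀, hc₀, hc₀'⟩ := exists_ht_ge D ⟨S, fun y => by
    obtain ⟨a, b, hab⟩ := hS y; exact ⟨_, hab⟩⟩
  obtain ⟨c, hc, hc'⟩ := h c₀ hc₀
  refine ⟨Y₀, C, c, hC, hc, fun x => ?_⟩
  obtain ⟨v, hv, hvx⟩ := hc₀' x
  obtain ⟨g, -, hg⟩ := hc' x v hv hvx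
  exact ⟨pmk g, hg⟩

end Fermat.LT
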