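import Fermat.Agent.LT.A.Borel
import Fermat.Agent.LT.A.Siegel

/-!
# LT, piece A: stabilisers in `B(F)`; Siegel's theorem (final form)
-/

open NumberField IsDedekindDomain Matrix
open scoped WithZero nonZeroDivisors

namespace Fermat.LT

variable {F : Type} [Field F] [NumberField F]

theorem dg_mem_congGL (w : Pl F) (n : ℕ) {a : Fˣ} (ha : av w ((a : F) - 1) ≤ (qv w)⁻¹ ^ n)
    (ha1 : av w (a : F) = 1) : dg a ∈ congGL w n :=
  ⟨dg_mem_intGL w ha1, by rw [nm_dg_sub]; exact ha⟩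

/-- a nonzero integer divisible by high powers of finitely many primes -/
theorem exists_small (T : Finset (Pl F)) (e : Pl F → ℕ) : ∃ c : 𝓞 F, c ≠ 0 ∧
    ∀ w ∈ T, av w (c : F) ≤ (qv w)⁻¹ ^ e w := by
  classical
  have hne : (∏ w ∈ T, w.asIdeal ^ e w) ≠ 0 := by
    rw [Finset.prod_ne_zero_iff]
    intro w _
    exact pow_ne_zero _ w.ne_bot
  obtain ⟨c, hc, hc0⟩ := Submodule.exists_mem_ne_zero_of_ne_bot (show (∏ w ∈ T, w.asIdeal ^ e w) ≠ ⊥ from hne)
  refine ⟨c, hc0, fun w hw => ?_⟩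
  rw [← mem_pow_iff]
  have h1 : ∏ w ∈ T, w.asIdeal ^ e w ≤ w.asIdeal ^ e w := by
    rw [← Finset.mul_prod_erase T (fun w : Pl F => w.asIdeal ^ e w) hw]
    intro z hz
    exact (Ideal.mul_le_inf hz).1
  exact h1 hc

/-- exponents: for a place `w` and `r > 0` there is `e` with `q^{-e} ≤ r`. -/
theorem exists_exp (w : Pl F) {r : ℝ} (hr : 0 < r) : ∃ e : ℕ, (qv w)⁻¹ ^ e ≤ r := by
  obtain ⟨e, he⟩ := exists_pow_lt_of_lt_one hr (inv_lt_one_of_one_lt₀ (one_lt_qv w))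
  exact ⟨e, he.le⟩

/-- local data of a point of `Y` -/
theorem exists_local_data {U : Level F} (y : Y U) : ∃ (T : Finset (Pl F)) (g : Pl F → G2 F)
    (e : Pl F → ℕ), (∀ w, (g w : Yl U w) = y w) ∧ (∀ w ∉ T, g w = 1 ∧ U.n w = 0) ∧
    ∀ w, nm w ((g w)⁻¹).1 * nm w (g w).1 * (qv w)⁻¹ ^ e w ≤ (qv w)⁻¹ ^ U.n w := by
  classical
  set T : Finset (Pl F) := y.fin.toFinset ∪ U.n_fin.toFinset with hT
  have hg : ∀ w : Pl F, ∃ g : G2 F, (g : Yl U w) = y w ∧ (w ∉ T → g = 1) := by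
    intro w
    by_cases hw : w ∈ T
    · obtain ⟨g, hg⟩ := QuotientGroup.mk_surjective (y w)
      exact ⟨g, hg, fun h => absurd hw h⟩
    · refine ⟨1, ?_, fun _ => rfl⟩
      by_contra h
      exact hw (Finset.mem_union_left _ ((Set.Finite.mem_toFinset _).mpr fun h' => h h'.symm))
  choose g hg hg1 using hg
  have he : ∀ w : Pl F, ∃ e : ℕ,
      nm w ((g w)⁻¹).1 * nm w (g w).1 * (qv w)⁻¹ ^ e ≤ (qv w)⁻¹ ^ U.n w := by
    intro w
    have hp : 0 < nm w ((g w)⁻¹).1 * nm w (g w).1 := mul_pos (nm_pos w _) (nm_pos w _)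
    have hq : 0 < (qv w)⁻¹ ^ U.n w := pow_pos (inv_pos.mpr (qv_pos w)) _
    obtain ⟨e, he⟩ := exists_exp w (div_pos hq hp)
    exact ⟨e, by rwa [le_div_iff₀ hp, mul_comm] at he⟩
  choose e he using he
  refine ⟨T, g, e, hg, fun w hw => ⟨hg1 w hw, ?_⟩, he⟩
  by_contra h
  exact hw (Finset.mem_union_right _ ((Set.Finite.mem_toFinset _).mpr h))

/-- translations fixing `y` -/
theorem trans_fix {U : Level F} (y : Y U) : ∃ c : 𝓞 F, c ≠ 0 ∧
    ∀ b : 𝓞 F, un ((c * b : 𝓞 F) : F) • y = y := by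
  obtain ⟨T, g, e, hg, hT, he⟩ := exists_local_data y
  obtain ⟨c, hc0, hc⟩ := exists_small T e
  refine ⟨c, hc0, fun b => Y.ext' fun w => ?_⟩
  rw [G2_smul_apply, ← hg w]
  change ((un ((c * b : 𝓞 F) : F) * g w : G2 F) : Yl U w) = (g w : Yl U w)
  symm
  rw [QuotientGroup.eq, ← mul_assoc]
  apply U.cong_le w
  by_cases hw : w ∈ T
  · have hcb : av w ((c * b : 𝓞 F) : F) ≤ (qv w)⁻¹ ^ e w := by
      have : ((c * b : 𝓞 F) : F) = (c : F) * (b : F) := map_mul _ _ _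
      rw [this, map_mul]
      calc av w (c : F) * av w (b : F) ≤ (qv w)⁻¹ ^ e w * 1 :=
            mul_le_mul (hc w hw) (av_int_le w b) ((av w).nonneg _)
              (pow_nonneg (inv_nonneg.mpr (qv_pos w).le) _)
        _ = _ := mul_one _
    apply conj_mem_congGL w _ (g w) _ ((qv w)⁻¹ ^ e w) (he w)
    · rw [nm_un_sub]; exact hcb
    · rw [← un_neg, nm_un_sub, (av w).map_neg]; exact hcb
  · obtain ⟨h1, h2⟩ := hT w hw
    rw [h1, h2, inv_one, one_mul, mul_one]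
    apply un_mem_congGL
    rw [pow_zero]; exact av_int_le w _

/-- `bY y` has bounded denominators. -/
theorem bY_bounded {U : Level F} (y : Y U) : ∃ n : 𝓞 F, n ≠ 0 ∧
    ∀ b ∈ bY y, ∃ d : 𝓞 F, (d : F) = n * b := by
  obtain ⟨T, g, e, hg, hT, -⟩ := exists_local_data y
  have he : ∀ w : Pl F, ∃ e : ℕ, (qv w)⁻¹ ^ e ≤ (nm w (g w).1 * nm w ((g w)⁻¹).1)⁻¹ :=
    fun w => exists_exp w (inv_pos.mpr (mul_pos (nm_pos w _) (nm_pos w _)))
  choose e' he' using he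
  obtain ⟨n, hn0, hn⟩ := exists_small T e'
  refine ⟨n, hn0, fun b hb => exists_int_of_av_le fun w => ?_⟩
  have h1 : un b • y = y := hb
  have h2 : ((un b * g w : G2 F) : Yl U w) = (g w : Yl U w) := by
    have := congrArg (fun z : Y U => z w) h1
    simp only [G2_smul_apply, ← hg w] at this
    exact this
  have h3 : (g w)⁻¹ * un b * g w ∈ stdH w := by
    have := QuotientGroup.eq.mp h2.symm
    rw [← mul_assoc] at this
    exact U.le_std w this
  -- norm of the conjugate is one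
  have h4 : nm w ((g w)⁻¹ * un b * g w).1 = 1 := by
    have h5 := av_det_of_mem w h3
    have h6 : ((g w)⁻¹ * un b * g w).1.det = 1 := by
      have h7 : ((g w)⁻¹).1.det * (g w).1.det = 1 := by
        rw [← Matrix.det_mul, ← Units.val_mul, inv_mul_cancel, Units.val_one, det_one]
      have h8 : (un b).1.det = 1 := by
        rw [Matrix.det_fin_two]; simp [un, Matrix.GeneralLinearGroup.mkOfDetNeZero]
      rw [Units.val_mul, Units.val_mul, Matrix.det_mul, Matrix.det_mul, h8, mul_one, h7]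
    rw [h6, map_one] at h5
    exact ((pow_eq_one_iff_of_nonneg (nm_nonneg w _) two_ne_zero).mp h5.symm)
  have h5 : av w b ≤ nm w (g w).1 * nm w ((g w)⁻¹).1 := by
    have h6 : un b = g w * ((g w)⁻¹ * un b * g w) * (g w)⁻¹ := by group
    have h7 : av w b ≤ nm w (un b).1 := by
      have := av_le_nm w (un b).1 0 1
      simpa [un, Matrix.GeneralLinearGroup.mkOfDetNeZero] using this
    refine h7.trans ?_
    rw [h6, Units.val_mul, Units.val_mul]
    refine (nm_mul_le w _ _).trans ?_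
    refine mul_le_mul_of_nonneg_right ?_ (nm_nonneg w _)
    refine (nm_mul_le w _ _).trans ?_
    rw [h4, mul_one]
  rw [map_mul]
  by_cases hw : w ∈ T
  · have hp : 0 < nm w (g w).1 * nm w ((g w)⁻¹).1 := mul_pos (nm_pos w _) (nm_pos w _)
    calc av w (n : F) * av w b ≤ (nm w (g w).1 * nm w ((g w)⁻¹).1)⁻¹ *
          (nm w (g w).1 * nm w ((g w)⁻¹).1) :=
          mul_le_mul ((hn w hw).trans (he' w)) h5 ((av w).nonneg _) (inv_nonneg.mpr hp.le)
      _ = 1 := inv_mul_cancel₀ hp.ne'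
  · rw [(hT w hw).1] at h5
    simp only [inv_one, Units.val_one, nm_one, mul_one] at h5
    exact mul_le_one₀ (av_int_le w _) ((av w).nonneg _) h5

/-- a power of every unit fixes `y` -/
theorem unit_fix {U : Level F} (y : Y U) : ∃ m : ℕ, 0 < m ∧ ∀ u : (𝓞 F)ˣ,
    dg (Units.map (algebraMap (𝓞 F) F : 𝓞 F →* F) u ^ m) • y = y := by
  classical
  obtain ⟨T, g, e, hg, hT, he⟩ := exists_local_data y
  have hfin : ∀ w : Pl F, Finite (𝓞 F ⧸ w.asIdeal ^ e w)ˣ := fun w => by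
    have : Finite (𝓞 F ⧸ w.asIdeal ^ e w) :=
      Ideal.finiteQuotientOfFreeOfNeBot _ (pow_ne_zero _ w.ne_bot)
    infer_instance
  refine ⟨∏ w ∈ T, Nat.card (𝓞 F ⧸ w.asIdeal ^ e w)ˣ,
    Finset.prod_pos fun w _ => Nat.card_pos, fun u => Y.ext' fun w => ?_⟩
  set m := ∏ w ∈ T, Nat.card (𝓞 F ⧸ w.asIdeal ^ e w)ˣ with hm
  set v : Fˣ := Units.map (algebraMap (𝓞 F) F : 𝓞 F →* F) u ^ m with hv
  have hav : ∀ w, av w (v : F) = 1 := by
    intro w
    have hu1 : av w ((u : 𝓞 F) : F) = 1 := by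
      apply le_antisymm (av_int_le w _)
      have h3 := av_int_le w ((u⁻¹ : (𝓞 F)ˣ) : 𝓞 F)
      have h4 : av w ((u : 𝓞 F) : F) * av w (((u⁻¹ : (𝓞 F)ˣ) : 𝓞 F) : F) = 1 := by
        rw [← map_mul, ← map_mul, Units.mul_inv, map_one, map_one]
      have h5 := (av w).nonneg ((u : 𝓞 F) : F)
      nlinarith
    rw [hv, Units.val_pow_eq_pow_val, map_pow]
    change av w ((u : 𝓞 F) : F) ^ m = 1
    rw [hu1, one_pow]
  rw [G2_smul_apply, ← hg w]
  change ((dg v * g w : G2 F) : Yl U w) = (g w : Yl U w)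
  symm
  rw [QuotientGroup.eq, ← mul_assoc]
  by_cases hw : w ∈ T
  · apply U.cong_le w
    have hcong : av w ((v : F) - 1) ≤ (qv w)⁻¹ ^ e w := by
      have h1 : (v : F) = ((u ^ m : (𝓞 F)ˣ) : 𝓞 F) := by
        rw [hv, ← map_pow]; rfl
      have h2 : (v : F) - 1 = ((((u ^ m : (𝓞 F)ˣ) : 𝓞 F) - 1 : 𝓞 F) : F) := by
        rw [h1]
        exact (map_sub (algebraMap (𝓞 F) F) _ 1).trans (by rw [map_one]) |>.symm
      rw [h2, ← mem_pow_iff, ← Ideal.Quotient.eq, map_one]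
      have h3 : (Units.map (Ideal.Quotient.mk (w.asIdeal ^ e w)).toMonoidHom u) ^ m = 1 := by
        rw [hm, ← Finset.mul_prod_erase T _ hw, pow_mul, pow_card_eq_one', one_pow]
      have h4 := congrArg Units.val h3
      rw [Units.val_pow_eq_pow_val] at h4
      rw [Units.val_pow_eq_pow_val, map_pow]
      exact h4
    have hinv : av w (((v⁻¹ : Fˣ) : F) - 1) ≤ (qv w)⁻¹ ^ e w := by
      have h1 : ((v⁻¹ : Fˣ) : F) - 1 = -((v⁻¹ : Fˣ) : F) * ((v : F) - 1) := by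
        rw [Units.val_inv_eq_inv_val]
        have := v.ne_zero
        field_simp
        ring
      rw [h1, map_mul, (av w).map_neg, Units.val_inv_eq_inv_val, map_inv₀, hav w, inv_one, one_mul]
      exact hcong
    apply conj_mem_congGL w _ (g w) _ ((qv w)⁻¹ ^ e w) (he w)
    · rw [nm_dg_sub]; exact hcong
    · rw [dg_inv, nm_dg_sub]; exact hinv
  · obtain ⟨h1, h2⟩ := hT w hw
    rw [h1, inv_one, one_mul, mul_one, U.H_eq h2]
    exact intGL_le_stdH w (dg_mem_intGL w (hav w))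

/-- **Siegel's theorem at a cusp** (final form). -/
theorem siegel_cusp' (D : Datum F) :
    ∃ (Y₀ : Finset (Y D.toLevel)) (C : ℝ), 1 ≤ C ∧ ∀ c₀ : ℝ, 0 < c₀ → ∃ c : ℝ, 0 < c ∧
      ∀ x : X D, ∀ v : Fin 2 → F, v ≠ 0 → c₀ ≤ ht v x → ∃ g : G2 F,
        (∃ a : F, a ≠ 0 ∧ g.1 *ᵥ v = a • e1) ∧ g • x ∈ siegelSet D Y₀ C c :=
  siegel_cusp D (borel_finite _) trans_fix unit_fix

/-- **Siegel's theorem** (final form). -/
theorem siegel (D : Datum F) : ∃ (Y₀ : Finset (Y D.toLevel)) (C c : ℝ), 1 ≤ C ∧ 0 < c ∧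
    ∀ x : X D, ∃ γ : PG F, γ • x ∈ siegelSet D Y₀ C c :=
  siegel_of D (borel_finite _) trans_fix unit_fix

/-- every point has a large height -/
theorem exists_ht_ge' (D : Datum F) :
    ∃ c : ℝ, 0 < c ∧ ∀ x : X D, ∃ v : Fin 2 → F, v ≠ 0 ∧ c ≤ ht v x := by
  obtain ⟨S, hS⟩ := borel_finite D.toLevel
  exact exists_ht_ge D ⟨S, fun y => by obtain ⟨a, b, hab⟩ := hS y; exact ⟨_, hab⟩⟩

end Fermat.LT
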