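import Fermat.Agent.LT.A.Proper

/-!
# LT, piece A: topology and measure on `Y` and `X`

Countability of `F`, `G2 F`, `PG F`, `Pl F`, `Y U`; Borel structure, σ-finiteness, invariance of the
measure of `X D` under `G2 F` and `PG F`; proper discontinuity; almost-everywhere freeness.
-/

open NumberField IsDedekindDomain Matrix MeasureTheory Topology

namespace Fermat.LT

variable {F : Type} [Field F] [NumberField F]

section countable

variable (F) in
theorem countable_field : Countable F := Finsupp.Countable.of_moduleFinite (R := ℚ)

instance instCountableG2 : Countable (G2 F) := by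
  have := countable_field F
  have h : Countable (Matrix (Fin 2) (Fin 2) F) := inferInstanceAs (Countable (Fin 2 → Fin 2 → F))
  exact Function.Injective.countable (f := fun g : G2 F => g.1) fun a b h => Units.ext h

instance instCountablePG : Countable (PG F) :=
  Function.Surjective.countable (f := pmk (F := F)) Matrix.ProjGenLinGroup.mk_surjective

instance instCountablePl : Countable (Pl F) := by
  have := countable_field F
  have h1 : Countable (𝓞 F) :=
    Function.Injective.countable (f := fun x : 𝓞 F => (x : F)) fun a b h => RingOfIntegers.ext h
  have h2 : Countable (Ideal (𝓞 F)) := by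
    apply Function.Surjective.countable
      (f := fun s : Finset (𝓞 F) => Ideal.span (s : Set (𝓞 F)))
    intro I
    obtain ⟨s, hs⟩ := (isNoetherianRing_iff_ideal_fg (𝓞 F)).1 inferInstance I
    exact ⟨s, hs⟩
  exact Function.Injective.countable (f := fun w : Pl F => w.asIdeal)
    fun a b h => HeightOneSpectrum.ext h

instance instCountableYl (U : Level F) (w : Pl F) : Countable (Yl U w) :=
  Function.Surjective.countable (f := fun g : G2 F => (g : Yl U w)) QuotientGroup.mk_surjective

instance instCountableY (U : Level F) : Countable (Y U) := by
  classical
  let f : Y U → Finset (Σ w : Pl F, Yl U w) := fun y =>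
    y.fin.toFinset.image fun w => ⟨w, y w⟩
  apply Function.Injective.countable (f := f)
  have key : ∀ y y' : Y U, f y = f y' → ∀ w, y w ≠ ((1 : G2 F) : Yl U w) → y w = y' w := by
    intro y y' h w hw
    have h1 : (⟨w, y w⟩ : Σ w : Pl F, Yl U w) ∈ f y :=
      Finset.mem_image.2 ⟨w, by simpa using hw, rfl⟩
    rw [h] at h1
    obtain ⟨w', _, h2⟩ := Finset.mem_image.1 h1
    obtain ⟨rfl, h3⟩ := Sigma.mk.inj h2
    exact (eq_of_heq h3).symm
  intro y y' h
  apply Y.ext'
  intro w
  by_cases h1 : y w = ((1 : G2 F) : Yl U w)
  · by_cases h2 : y' w = ((1 : G2 F) : Yl U w)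
    · rw [h1, h2]
    · exact (key y' y h.symm w h2).symm
  · exact key y y' h w h1

end countable

section Y

variable {U : Level F}

instance : BorelSpace (Y U) := ⟨by
  rw [borel_eq_top_of_discrete]; rfl⟩

instance : SFinite (volume : Measure (Y U)) := inferInstanceAs (SFinite (Measure.count : Measure (Y U)))

instance : SigmaFinite (volume : Measure (Y U)) :=
  inferInstanceAs (SigmaFinite (Measure.count : Measure (Y U)))

instance : IsFiniteMeasureOnCompacts (volume : Measure (Y U)) where
  lt_top_of_isCompact := by
    intro K hK
    have : K.Finite := isCompact_iff_finite.1 hK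
    exact Measure.count_apply_lt_top.2 this

instance : IsLocallyFiniteMeasure (volume : Measure (Y U)) :=
  isLocallyFiniteMeasure_of_isFiniteMeasureOnCompacts

instance : (volume : Measure (Y U)).IsOpenPosMeasure where
  open_pos := by
    intro K _ hne h
    exact hne.ne_empty (Measure.count_eq_zero_iff.1 h)

theorem Y_volume_singleton (y : Y U) : (volume : Measure (Y U)) {y} = 1 :=
  Measure.count_singleton y

/-- any bijection of `Y` preserves the measure -/
theorem Y_measurePreserving {U' : Level F} (e : Y U ≃ Y U') :
    MeasurePreserving e (volume : Measure (Y U)) volume := by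
  have hm : Measurable e := measurable_from_top
  refine ⟨hm, ?_⟩
  ext s hs
  rw [Measure.map_apply hm hs]
  have h1 : e ⁻¹' s = e.symm '' s := by rw [Equiv.image_symm_eq_preimage]
  rw [h1]
  exact Measure.count_injective_image e.symm.injective s

instance : ContinuousConstSMul (G2 F) (Y U) := ⟨fun _ => continuous_of_discreteTopology⟩
instance : ContinuousConstSMul (PG F) (Y U) := ⟨fun _ => continuous_of_discreteTopology⟩
instance : ContinuousConstSMul (GA F) (Y U) := ⟨fun _ => continuous_of_discreteTopology⟩

theorem Y_measurePreserving_smul {G : Type*} [Group G] [MulAction G (Y U)] (g : G) :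
    MeasurePreserving (fun y : Y U => g • y) (volume : Measure (Y U)) volume :=
  Y_measurePreserving (MulAction.toPerm g)

instance {G : Type*} [Group G] [MulAction G (Y U)] :
    SMulInvariantMeasure G (Y U) volume where
  measure_preimage_smul g _ hs :=
    (Y_measurePreserving_smul g).measure_preimage hs.nullMeasurableSet

end Y

section X

variable {D : Datum F}

theorem X_volume : (volume : Measure (X D)) = (volume : Measure (XI D.toArch)).prod volume := rfl

instance : SigmaFinite (volume : Measure (X D)) :=
  inferInstanceAs (SigmaFinite ((volume : Measure (XI D.toArch)).prod (volume : Measure (Y D.toLevel))))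

instance : IsFiniteMeasureOnCompacts (volume : Measure (X D)) :=
  inferInstanceAs (IsFiniteMeasureOnCompacts
    ((volume : Measure (XI D.toArch)).prod (volume : Measure (Y D.toLevel))))

instance : IsLocallyFiniteMeasure (volume : Measure (X D)) :=
  isLocallyFiniteMeasure_of_isFiniteMeasureOnCompacts

instance : (volume : Measure (X D)).IsOpenPosMeasure :=
  inferInstanceAs
    ((volume : Measure (XI D.toArch)).prod (volume : Measure (Y D.toLevel))).IsOpenPosMeasure

theorem X_measurePreserving_smul (g : G2 F) :
    MeasurePreserving (fun x : X D => g • x) volume volume :=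
  (XI.measurePreserving_smul (A := D.toArch) g).prod (Y_measurePreserving_smul (U := D.toLevel) g)

instance : SMulInvariantMeasure (G2 F) (X D) volume where
  measure_preimage_smul g _ hs :=
    (X_measurePreserving_smul g).measure_preimage hs.nullMeasurableSet

instance : SMulInvariantMeasure (PG F) (X D) volume where
  measure_preimage_smul g _ hs := by
    obtain ⟨g, rfl⟩ := Matrix.ProjGenLinGroup.mk_surjective g
    exact (X_measurePreserving_smul g).measure_preimage hs.nullMeasurableSet

instance : ProperlyDiscontinuousSMul (PG F) (X D) where
  finite_disjoint_inter_image := by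
    intro K L hK hL
    refine (proper hK hL).subset ?_
    rintro g ⟨_, ⟨x, hx, rfl⟩, h2⟩
    exact ⟨x, hx, h2⟩

example : ContinuousConstSMul (PG F) (X D) := inferInstance
example : MeasurableConstSMul (PG F) (X D) := inferInstance
example : BorelSpace (X D) := inferInstance
example : LocallyCompactSpace (X D) := inferInstance
example : SecondCountableTopology (X D) := inferInstance
example : T2Space (X D) := inferInstance

/-- the fixed points of a nontrivial element form a null set -/
theorem X_volume_fixed {g : PG F} (hg : g ≠ 1) : volume {x : X D | g • x = x} = 0 := by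
  have hsub : {x : X D | g • x = x} ⊆ {x : XI D.toArch | g • x = x} ×ˢ Set.univ := by
    intro x hx
    exact ⟨congrArg Prod.fst (show g • x = x from hx), trivial⟩
  refine measure_mono_null hsub ?_
  rw [X_volume, Measure.prod_prod, XI.volume_fixed hg, zero_mul]

/-- almost everywhere freeness -/
theorem ae_free : ∀ᵐ x : X D, ∀ g : PG F, g • x = x → g = 1 := by
  rw [ae_all_iff]
  intro g
  by_cases hg : g = 1
  · exact Filter.Eventually.of_forall fun _ _ => hg
  · have := X_volume_fixed (D := D) hg
    rw [ae_iff]
    refine measure_mono_null ?_ this
    intro x hx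
    by_contra h
    exact hx fun h' => absurd h' h

end X

end Fermat.LT
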