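import Fermat.Agent.LT.A.Trunc
import Fermat.Agent.LT.B.Quot

/-!
# LT, piece A: finite covolume

* `integrableOn_cbox`: `(∏ t_i²)^s` is integrable over a cuspidal box for `s < 1`;
* Siegel sets have finite volume, `hmax ^ s` is integrable over them for `s < 1`;
* `finite_return`: a point has only finitely many translates in a Siegel set;
* `exists_isWeight_X`: weights exist; `PGL₂(F)\X` has finite volume.
-/

open NumberField IsDedekindDomain Matrix MeasureTheory Topology
open scoped ENNReal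

namespace Fermat.LT

variable {F : Type} [Field F] [NumberField F]

section H3

theorem H3.measurable_z : Measurable H3.z := H3.continuous_z.measurable
theorem H3.measurable_t : Measurable H3.t := H3.continuous_t.measurable

/-- cuspidal box in `H3` -/
def H3.cb (C c : ℝ) : Set H3 := {P | ‖P.z‖ ≤ C ∧ c ≤ P.t}

theorem H3.isClosed_cb (C c : ℝ) : IsClosed (H3.cb C c) :=
  (isClosed_le H3.continuous_z.norm continuous_const).inter
    (isClosed_le continuous_const H3.continuous_t)

theorem H3.integrable_cb (C : ℝ) {c : ℝ} (hc : 0 < c) {s : ℝ} (hs : s < 1) :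
    Integrable ((H3.cb C c).indicator fun P : H3 => P.t ^ (2 * s)) := by
  set f : ℂ × ℝ → ℝ := fun p => (Metric.closedBall (0 : ℂ) C).indicator (fun _ => (1 : ℝ)) p.1 *
    (Set.Ici c).indicator (fun t => t ^ (2 * s)) p.2 with hf
  have h1 : ((H3.cb C c).indicator fun P : H3 => P.t ^ (2 * s)) =
      fun P : H3 => f (P.z, P.t) := by
    funext P
    simp only [hf, Set.indicator_apply, Set.mem_Ici]
    by_cases h : ‖P.z‖ ≤ C <;> by_cases h' : c ≤ P.t <;>
      simp [H3.cb, h, h']
  rw [h1, H3.integrable_iff_set]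
  have h2 : Integrable (fun p : ℂ × ℝ =>
      (Metric.closedBall (0 : ℂ) C).indicator (fun _ => (1 : ℝ)) p.1 *
        (Set.Ici c).indicator (fun t => t ^ (2 * s - 3)) p.2)
      ((volume : Measure ℂ).prod (volume : Measure ℝ)) := by
    apply Integrable.mul_prod
    · rw [integrable_indicator_iff Metric.isClosed_closedBall.measurableSet]
      exact integrableOn_const (by
        exact (isCompact_closedBall (0 : ℂ) C).measure_lt_top.ne)
    · rw [integrable_indicator_iff measurableSet_Ici, integrableOn_Ici_iff_integrableOn_Ioi]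
      exact integrableOn_Ioi_rpow_of_lt (by linarith) hc
  refine (h2.integrableOn (s := H3.set)).congr_fun ?_ H3.measurableSet_set
  intro p hp
  have hp' : 0 < p.2 := hp
  simp only [hf, Set.indicator_apply, Set.mem_Ici, smul_eq_mul]
  by_cases h : p.1 ∈ Metric.closedBall (0 : ℂ) C <;> by_cases h' : c ≤ p.2
  · simp only [h', if_true]
    have e : p.2 ^ (2 * s - 3) = (p.2 ^ 3)⁻¹ * p.2 ^ (2 * s) := by
      rw [Real.rpow_sub hp', div_eq_mul_inv, mul_comm]
      norm_num
    rw [inv_pow, e]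
    ring
  · simp [h']
  · simp only [Set.indicator_of_notMem h, zero_mul, mul_zero]
  · simp [h']

end H3

section X

variable {D : Datum F}

/-- cuspidal box in `X D` -/
def cbox (D : Datum F) (Y₀ : Finset (Y D.toLevel)) (C c : ℝ) : Set (X D) :=
  {x | x.2 ∈ Y₀ ∧ ∀ i, x.1 i ∈ H3.cb C c}

theorem cbox_eq (Y₀ : Finset (Y D.toLevel)) (C c : ℝ) : cbox D Y₀ C c =
    ({x : XI D.toArch | ∀ i, x i ∈ H3.cb C c}) ×ˢ (Y₀ : Set (Y D.toLevel)) := by
  ext x
  exact ⟨fun h => ⟨h.2, h.1⟩, fun h => ⟨h.2, h.1⟩⟩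

theorem isClosed_cbox (Y₀ : Finset (Y D.toLevel)) (C c : ℝ) : IsClosed (cbox D Y₀ C c) := by
  rw [cbox_eq]
  refine IsClosed.prod ?_ (Finset.finite_toSet Y₀).isClosed
  have : {x : XI D.toArch | ∀ i, x i ∈ H3.cb C c} = ⋂ i : D.I, (fun x : XI D.toArch => x i) ⁻¹' H3.cb C c := by
    ext x; simp
  rw [this]
  exact isClosed_iInter fun i => (H3.isClosed_cb C c).preimage (continuous_apply i)

theorem siegelSet_subset_cbox (Y₀ : Finset (Y D.toLevel)) (C c : ℝ) :
    siegelSet D Y₀ C c ⊆ cbox D Y₀ C c := by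
  rintro x ⟨h1, h2, _, h4⟩
  exact ⟨h1, fun i => ⟨h2 i, h4 i⟩⟩

theorem isClosed_siegelSet (Y₀ : Finset (Y D.toLevel)) (C c : ℝ) :
    IsClosed (siegelSet D Y₀ C c) := by
  have hcont : ∀ i : D.I, Continuous fun x : X D => x.1 i := fun i =>
    (continuous_apply i).comp continuous_fst
  have ht : ∀ i : D.I, Continuous fun x : X D => (x.1 i).t := fun i =>
    H3.continuous_t.comp (hcont i)
  have h1 : siegelSet D Y₀ C c = cbox D Y₀ C c ∩
      ⋂ i : D.I, ⋂ j : D.I, {x : X D | (x.1 i).t ≤ C * (x.1 j).t} := by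
    ext x
    constructor
    · rintro ⟨h1, h2, h3, h4⟩
      refine ⟨⟨h1, fun i => ⟨h2 i, h4 i⟩⟩, ?_⟩
      simp only [Set.mem_iInter]
      exact h3
    · rintro ⟨⟨h1, h2⟩, h3⟩
      simp only [Set.mem_iInter] at h3
      exact ⟨h1, fun i => (h2 i).1, h3, fun i => (h2 i).2⟩
  rw [h1]
  exact (isClosed_cbox Y₀ C c).inter (isClosed_iInter fun i => isClosed_iInter fun j =>
    isClosed_le (ht i) (continuous_const.mul (ht j)))

theorem measurableSet_siegelSet (Y₀ : Finset (Y D.toLevel)) (C c : ℝ) :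
    MeasurableSet (siegelSet D Y₀ C c) := (isClosed_siegelSet Y₀ C c).measurableSet

/-- `(∏ t_i²)^s` is integrable over a cuspidal box for `s < 1`. -/
theorem integrableOn_cbox (Y₀ : Finset (Y D.toLevel)) (C : ℝ) {c : ℝ} (hc : 0 < c) {s : ℝ}
    (hs : s < 1) :
    IntegrableOn (fun x : X D => (∏ i, (x.1 i).t ^ 2) ^ s) (cbox D Y₀ C c) := by
  classical
  rw [← integrable_indicator_iff (isClosed_cbox Y₀ C c).measurableSet]
  have h1 : Integrable (fun x : XI D.toArch =>
      ∏ i, (H3.cb C c).indicator (fun P : H3 => P.t ^ (2 * s)) (x i)) volume :=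
    Integrable.fintype_prod (μ := fun _ : D.I => (volume : Measure H3))
      (f := fun _ : D.I => (H3.cb C c).indicator (fun P : H3 => P.t ^ (2 * s)))
      (fun _ => H3.integrable_cb C hc hs)
  have h2 : Integrable ((Y₀ : Set (Y D.toLevel)).indicator fun _ => (1 : ℝ)) volume := by
    rw [integrable_indicator_iff (Finset.measurableSet Y₀)]
    refine integrableOn_const ?_
    exact (Y₀.finite_toSet.isCompact.measure_lt_top).ne
  have h3 := h1.mul_prod h2
  rw [← X_volume] at h3
  refine h3.congr (Filter.Eventually.of_forall fun x => ?_)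
  simp only
  by_cases h : x ∈ cbox D Y₀ C c
  · rw [Set.indicator_of_mem h, Set.indicator_of_mem (show x.2 ∈ (Y₀ : Set _) from h.1), mul_one,
      ← Real.finsetProd_rpow _ _ (fun j _ => sq_nonneg _)]
    refine Finset.prod_congr rfl fun i _ => ?_
    rw [Set.indicator_of_mem (h.2 i), ← Real.rpow_natCast, ← Real.rpow_mul (x.1 i).t_pos.le]
    norm_num
  · rw [Set.indicator_of_notMem h]
    by_cases h' : x.2 ∈ (Y₀ : Set (Y D.toLevel))
    · have h4 : ∃ i, x.1 i ∉ H3.cb C c := by
        by_contra hc'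
        push Not at hc'
        exact h ⟨h', hc'⟩
      obtain ⟨i, hi⟩ := h4
      rw [Finset.prod_eq_zero (Finset.mem_univ i) (Set.indicator_of_notMem hi _), zero_mul]
    · rw [Set.indicator_of_notMem h', mul_zero]

theorem volume_cbox_lt_top (Y₀ : Finset (Y D.toLevel)) (C : ℝ) {c : ℝ} (hc : 0 < c) :
    volume (cbox D Y₀ C c) < ∞ := by
  have h := integrableOn_cbox (D := D) Y₀ C hc (s := 0) zero_lt_one
  simp only [Real.rpow_zero] at h
  rw [integrableOn_const_iff] at h
  simpa using h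

theorem volume_siegelSet_lt_top (Y₀ : Finset (Y D.toLevel)) (C : ℝ) {c : ℝ} (hc : 0 < c) :
    volume (siegelSet D Y₀ C c) < ∞ :=
  (measure_mono (siegelSet_subset_cbox Y₀ C c)).trans_lt (volume_cbox_lt_top Y₀ C hc)

theorem integrableOn_siegelSet (Y₀ : Finset (Y D.toLevel)) (C : ℝ) {c : ℝ} (hc : 0 < c) {s : ℝ}
    (hs : s < 1) :
    IntegrableOn (fun x : X D => (∏ i, (x.1 i).t ^ 2) ^ s) (siegelSet D Y₀ C c) :=
  (integrableOn_cbox Y₀ C hc hs).mono_set (siegelSet_subset_cbox Y₀ C c)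

/-- `hmax ^ s` is integrable over Siegel sets for `s < 1` -/
theorem integrableOn_hmax_rpow (Y₀ : Finset (Y D.toLevel)) (C : ℝ) {c : ℝ} (hc : 0 < c) {s : ℝ}
    (hs : s < 1) : IntegrableOn (fun x : X D => hmax x ^ s) (siegelSet D Y₀ C c) := by
  obtain ⟨m, M, hm, hM, h⟩ := hmax_siegelSet (D := D) Y₀ C hc
  refine Integrable.mono' ((integrableOn_siegelSet (D := D) Y₀ C hc hs).const_mul (max (M ^ s) (m ^ s)))
    (measurable_hmax.pow_const s).aestronglyMeasurable ?_
  rw [ae_restrict_iff' (measurableSet_siegelSet Y₀ C c)]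
  refine Filter.Eventually.of_forall fun x hx => ?_
  obtain ⟨h1, h2⟩ := h x hx
  have hp : 0 < ∏ i, (x.1 i).t ^ 2 := Finset.prod_pos fun i _ => pow_pos (x.1 i).t_pos 2
  rw [Real.norm_eq_abs, abs_of_pos (Real.rpow_pos_of_pos (hmax_pos x) s)]
  rcases le_total 0 s with h0 | h0
  · calc hmax x ^ s ≤ (M * ∏ i, (x.1 i).t ^ 2) ^ s :=
          Real.rpow_le_rpow (hmax_pos x).le h2 h0
      _ = M ^ s * (∏ i, (x.1 i).t ^ 2) ^ s := Real.mul_rpow hM.le hp.le
      _ ≤ _ := mul_le_mul_of_nonneg_right (le_max_left _ _) (Real.rpow_pos_of_pos hp s).le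
  · calc hmax x ^ s ≤ (m * ∏ i, (x.1 i).t ^ 2) ^ s :=
          Real.rpow_le_rpow_of_nonpos (by positivity) h1 h0
      _ = m ^ s * (∏ i, (x.1 i).t ^ 2) ^ s := Real.mul_rpow hm.le hp.le
      _ ≤ _ := mul_le_mul_of_nonneg_right (le_max_right _ _) (Real.rpow_pos_of_pos hp s).le

/-- A point (even: the points of a compact set) has only finitely many translates in a Siegel
set. -/
theorem finite_return {K : Set (X D)} (hK : IsCompact K) (Y₀ : Finset (Y D.toLevel)) (C : ℝ) {c : ℝ}
    (hc : 0 < c) : {γ : PG F | ∃ x ∈ K, γ • x ∈ siegelSet D Y₀ C c}.Finite := by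
  obtain ⟨B, hB, hKB⟩ := exists_ht_le_of_isCompact hK
  obtain ⟨K', hK', hsub⟩ := siegelSet_subset_compact (D := D) Y₀ C hc B
  refine (proper hK hK').subset ?_
  rintro γ ⟨x, hx, hγ⟩
  refine ⟨x, hx, hsub ⟨hγ, ?_⟩⟩
  obtain ⟨g, rfl⟩ := Matrix.ProjGenLinGroup.mk_surjective γ
  change ht e1 (g • x) ≤ B
  rw [ht_smul_eq g e1_ne]
  exact hKB x hx _ (inv_mulVec_ne e1_ne g)

end X

section weight

open Fermat.Agent.LT.B

variable {D : Datum F}

/-- Weights for the action of `PGL₂(F)` on `X` exist. -/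
theorem exists_isWeight_X (D : Datum F) : ∃ w : X D → ℝ≥0∞, IsWeight (PG F) w := by
  have hs : SigmaCompactSpace (X D) := inferInstance
  refine exists_isWeight (U := compactCovering (X D))
    (fun i => (isCompact_compactCovering (X D) i).measurableSet) (fun x => ?_) fun i x => ?_
  · have : x ∈ ⋃ i, compactCovering (X D) i := by rw [iUnion_compactCovering]; trivial
    obtain ⟨i, hi⟩ := Set.mem_iUnion.1 this
    exact ⟨i, 1, by rwa [one_smul]⟩
  · refine (proper (isCompact_singleton (x := x)) (isCompact_compactCovering (X D) i)).subset ?_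
    intro γ hγ
    exact ⟨x, rfl, hγ⟩

/-- integrals over the quotient are bounded by integrals over a covering set -/
theorem isWeight_lintegral_le_of_cover {Γ X : Type*} [Group Γ] [MulAction Γ X] [MeasurableSpace X]
    [Countable Γ] [MeasurableConstSMul Γ X] {μ : Measure X} [SMulInvariantMeasure Γ X μ]
    {w : X → ℝ≥0∞} (hw : IsWeight Γ w) {S : Set X} (hS : MeasurableSet S)
    (hcov : ∀ x, ∃ γ : Γ, γ • x ∈ S) {f : X → ℝ≥0∞} (hf : Measurable f)
    (hinv : ∀ (γ : Γ) x, f (γ • x) = f x) : ∫⁻ x, w x * f x ∂μ ≤ ∫⁻ x in S, f x ∂μ := by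
  rw [← lintegral_indicator hS, ← hw.lintegral_unfold (hf.indicator hS).aemeasurable]
  apply lintegral_mono
  intro x
  simp only
  refine mul_le_mul_of_nonneg_left ?_ zero_le
  obtain ⟨γ, hγ⟩ := hcov x
  refine le_trans ?_ (ENNReal.le_tsum γ)
  rw [Set.indicator_of_mem hγ, hinv]

/-- **Integrability of powers of the height on the quotient**: `∫_{Γ\X} hmax^s < ∞` for `s < 1`. -/
theorem lintegral_hmax_rpow_lt_top {w : X D → ℝ≥0∞}
    (hw : IsWeight (PG F) w) {s : ℝ} (hs : s < 1) :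
    ∫⁻ x, w x * ENNReal.ofReal (hmax x ^ s) < ∞ := by
  obtain ⟨Y₀, C, c, -, hc, h⟩ := siegel D
  refine (isWeight_lintegral_le_of_cover hw (measurableSet_siegelSet Y₀ C c) h
    (measurable_hmax.pow_const s).ennreal_ofReal fun γ x => by rw [hmax_pg_smul]).trans_lt ?_
  have h1 := (integrableOn_hmax_rpow (D := D) Y₀ C hc hs).2
  rw [hasFiniteIntegral_iff_ofReal (Filter.Eventually.of_forall fun x =>
    (Real.rpow_pos_of_pos (hmax_pos x) s).le)] at h1
  exact h1

/-- **Finite covolume.** -/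
theorem covolume_lt_top {w : X D → ℝ≥0∞} (hw : IsWeight (PG F) w) :
    ∫⁻ x, w x < ∞ := by
  have := lintegral_hmax_rpow_lt_top hw (s := 0) zero_lt_one
  simpa using this

theorem isFiniteMeasure_qMeas_X {w : X D → ℝ≥0∞}
    (hw : IsWeight (PG F) w) : IsFiniteMeasure (qMeas (PG F) (volume : Measure (X D)) w) := by
  obtain ⟨Y₀, C, c, -, hc, h⟩ := siegel D
  exact isFiniteMeasure_qMeas hw (measurableSet_siegelSet Y₀ C c) h
    (volume_siegelSet_lt_top Y₀ C hc).ne

end weight

end Fermat.LT
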