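import Fermat.Agent.LT.A.Compare
import Fermat.Agent.LT.B.TestKer

/-!
# LT, piece A: product kernels are finite test kernels; heights and kernels
-/

open NumberField IsDedekindDomain Matrix

namespace Fermat.LT

variable {F : Type} [Field F] [NumberField F]

/-- The product kernel of a family of local kernels is a finite test kernel. -/
theorem LKer.isFinTest {U : Level F} (k : LKer U) : Fermat.Agent.LT.B.IsFinTest k.ker where
  inv := k.ker_smul_PG
  fin := k.fin_right
  fin' := k.fin_left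
  bdd := k.exists_norm_le

/-- Heights of points related by a kernel with archimedean support `ch ≤ R` are comparable. -/
theorem LKer.exists_ht_le {D : Datum F} (k : LKer D.toLevel) (R : ℝ) :
    ∃ C : ℝ, 1 ≤ C ∧ ∀ (x x' : X D), (∀ i, H3.ch (x.1 i) (x'.1 i) ≤ R) → k.ker x.2 x'.2 ≠ 0 →
      ∀ v : Fin 2 → F, v ≠ 0 → ht v x' ≤ C * ht v x ∧ ht v x ≤ C * ht v x' := by
  obtain ⟨C, hC, h⟩ := k.exists_dY_le
  refine ⟨((2 * max R 1) ^ 2) ^ Fintype.card D.I * C, ?_, ?_⟩
  · have h1 : (1 : ℝ) ≤ (2 * max R 1) ^ 2 := by nlinarith [le_max_right R 1]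
    calc (1 : ℝ) = 1 * 1 := by ring
      _ ≤ _ := mul_le_mul (one_le_pow₀ h1) hC zero_le_one (by positivity)
  · intro x x' hR hk v hv
    have hR' : ∀ i, H3.ch (x.1 i) (x'.1 i) ≤ max R 1 := fun i => (hR i).trans (le_max_left _ _)
    refine ⟨ht_le_of_bounds hv x x' hR' (h _ _ hk), ?_⟩
    refine ht_le_of_bounds hv x' x (fun i => ?_) ?_
    · rw [H3.ch_comm]; exact hR' i
    · rw [dY_comm]; exact h _ _ hk

end Fermat.LT
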