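import Fermat.Agent.LT.A.Stab
import Fermat.Agent.LT.A.XMeas

/-!
# LT, piece A: truncation

* `continuous_ht`: heights are continuous;
* `siegelSet_subset_compact`: the part of a Siegel set where `ht e1 ≤ T` is relatively compact;
* `exists_compact_of_ht_le`: the truncated space is compact modulo `PGL₂(F)`;
* `finite_lines`: on a compact set only finitely many lines have height `≥ c`;
* `hmax x = sup_v ht v x`: attained, continuous, invariant, bounded below.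
-/

open NumberField IsDedekindDomain Matrix MeasureTheory Topology
open scoped ENNReal

namespace Fermat.LT

variable {F : Type} [Field F] [NumberField F]

section continuity

theorem H3.continuous_Q (x y : ℂ) : Continuous fun P : H3 => P.Q x y := by
  unfold H3.Q
  refine Continuous.div ?_ H3.continuous_t fun P => P.t_ne_zero
  exact (Complex.continuous_normSq.comp (continuous_const.sub (H3.continuous_z.mul
    continuous_const))).add ((H3.continuous_t.pow 2).mul continuous_const)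

theorem Q_emb_pos {A : Arch F} {v : Fin 2 → F} (hv : v ≠ 0) (x : XI A) (i : A.I) :
    0 < (x i).Q (A.emb i (v 0)) (A.emb i (v 1)) := by
  apply H3.Q_pos
  by_contra hc
  simp only [ne_eq, map_eq_zero, not_or, not_not] at hc
  apply hv
  ext j; fin_cases j
  exacts [hc.1, hc.2]

theorem continuous_hinf {A : Arch F} {v : Fin 2 → F} (hv : v ≠ 0) :
    Continuous (hinf v : XI A → ℝ) := by
  unfold hinf
  refine continuous_finsetProd _ fun i _ => ?_
  refine Continuous.inv₀ ?_ fun x => ?_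
  · exact ((H3.continuous_Q _ _).comp (continuous_apply i)).pow 2
  · have := Q_emb_pos hv x i
    positivity

variable {D : Datum F}

theorem continuous_ht {v : Fin 2 → F} (hv : v ≠ 0) : Continuous (ht v : X D → ℝ) := by
  unfold ht
  refine ((continuous_hinf hv).comp continuous_fst).mul ?_
  have : Continuous (hfin v : Y D.toLevel → ℝ) := continuous_of_discreteTopology
  exact this.comp continuous_snd

theorem measurable_ht {v : Fin 2 → F} (hv : v ≠ 0) : Measurable (ht v : X D → ℝ) :=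
  (continuous_ht hv).measurable

end continuity

section compact

theorem H3.isCompact_box (C a b : ℝ) (ha : 0 < a) :
    IsCompact {P : H3 | ‖P.z‖ ≤ C ∧ a ≤ P.t ∧ P.t ≤ b} := by
  have hind : Topology.IsInducing (fun P : H3 => (P.1 : ℂ × ℝ)) := Topology.IsInducing.subtypeVal
  rw [hind.isCompact_iff]
  have himg : (fun P : H3 => (P.1 : ℂ × ℝ)) '' {P : H3 | ‖P.z‖ ≤ C ∧ a ≤ P.t ∧ P.t ≤ b} =
      Metric.closedBall 0 C ×ˢ Set.Icc a b := by
    ext p
    simp only [Set.mem_image, Set.mem_prod, mem_closedBall_zero_iff, Set.mem_Icc]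
    constructor
    · rintro ⟨P, hP, rfl⟩; exact hP
    · rintro ⟨h1, h2, h3⟩
      exact ⟨H3.mk p.1 p.2 (lt_of_lt_of_le ha h2), ⟨h1, h2, h3⟩, rfl⟩
  rw [himg]
  exact (isCompact_closedBall 0 C).prod isCompact_Icc

/-- a box in `X D` -/
def box (D : Datum F) (Y₀ : Finset (Y D.toLevel)) (C a b : ℝ) : Set (X D) :=
  {x | x.2 ∈ Y₀ ∧ ∀ i, ‖(x.1 i).z‖ ≤ C ∧ a ≤ (x.1 i).t ∧ (x.1 i).t ≤ b}

theorem isCompact_box (D : Datum F) (Y₀ : Finset (Y D.toLevel)) (C a b : ℝ) (ha : 0 < a) :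
    IsCompact (box D Y₀ C a b) := by
  have h1 : IsCompact (Set.univ.pi fun _ : D.I => {P : H3 | ‖P.z‖ ≤ C ∧ a ≤ P.t ∧ P.t ≤ b}) :=
    isCompact_univ_pi fun _ => H3.isCompact_box C a b ha
  have h2 : IsCompact ((Y₀ : Set (Y D.toLevel))) := Y₀.finite_toSet.isCompact
  have h3 : box D Y₀ C a b =
      (Set.univ.pi fun _ : D.I => {P : H3 | ‖P.z‖ ≤ C ∧ a ≤ P.t ∧ P.t ≤ b} : Set (XI D.toArch)) ×ˢ
        (Y₀ : Set (Y D.toLevel)) := by
    ext x
    constructor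
    · rintro ⟨h, h'⟩; exact ⟨fun i _ => h' i, h⟩
    · rintro ⟨h, h'⟩; exact ⟨h', fun i => h i trivial⟩
  rw [h3]
  exact IsCompact.prod h1 h2

end compact

section siegel

variable {D : Datum F}

theorem exists_hfin_lower {U : Level F} (Y₀ : Finset (Y U)) {v : Fin 2 → F} (hv : v ≠ 0) :
    ∃ m : ℝ, 0 < m ∧ ∀ y ∈ Y₀, m ≤ hfin v y := by
  rcases Y₀.eq_empty_or_nonempty with rfl | hne
  · exact ⟨1, one_pos, by simp⟩
  · obtain ⟨y0, _, hmin⟩ := Y₀.exists_min_image (fun y => hfin v y) hne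
    exact ⟨hfin v y0, hfin_pos hv y0, hmin⟩

theorem exists_hfin_upper {U : Level F} (Y₀ : Finset (Y U)) {v : Fin 2 → F} (hv : v ≠ 0) :
    ∃ m : ℝ, 0 < m ∧ ∀ y ∈ Y₀, hfin v y ≤ m := by
  rcases Y₀.eq_empty_or_nonempty with rfl | hne
  · exact ⟨1, one_pos, by simp⟩
  · obtain ⟨y0, _, hmax⟩ := Y₀.exists_max_image (fun y => hfin v y) hne
    exact ⟨hfin v y0, hfin_pos hv y0, hmax⟩

/-- in the region `t_j ≥ c` the product of the heights dominates each height -/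
theorem sq_mul_pow_le_prod {A : Arch F} (x : XI A) {c : ℝ} (hc : 0 < c)
    (h : ∀ i, c ≤ (x i).t) (i : A.I) :
    (x i).t ^ 2 * (c ^ 2) ^ (Fintype.card A.I - 1) ≤ ∏ j, (x j).t ^ 2 := by
  rw [← Finset.mul_prod_erase _ (fun j => (x j).t ^ 2) (Finset.mem_univ i)]
  apply mul_le_mul_of_nonneg_left _ (sq_nonneg _)
  have hcard : (Finset.univ.erase i).card = Fintype.card A.I - 1 := by
    rw [Finset.card_erase_of_mem (Finset.mem_univ i), Finset.card_univ]
  rw [← hcard, ← Finset.prod_const]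
  exact Finset.prod_le_prod (fun j _ => by positivity) fun j _ => pow_le_pow_left₀ hc.le (h j) 2

/-- The part of a Siegel set where `ht e1 ≤ T` is relatively compact. -/
theorem siegelSet_subset_box (Y₀ : Finset (Y D.toLevel)) (C : ℝ) {c : ℝ} (hc : 0 < c) (T : ℝ) :
    ∃ b : ℝ, siegelSet D Y₀ C c ∩ {x | ht e1 x ≤ T} ⊆ box D Y₀ C c b := by
  obtain ⟨m, hm, hmY⟩ := exists_hfin_lower Y₀ (e1_ne (F := F))
  set P : ℝ := (c ^ 2) ^ (Fintype.card D.I - 1) with hP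
  have hP0 : 0 < P := by positivity
  refine ⟨1 + T / (m * P), ?_⟩
  rintro x ⟨⟨h1, h2, h3, h4⟩, h5⟩
  refine ⟨h1, fun i => ⟨h2 i, h4 i, ?_⟩⟩
  have h6 := sq_mul_pow_le_prod x.1 hc h4 i
  have h7 : ht e1 x = (∏ j, (x.1 j).t ^ 2) * hfin e1 x.2 := by rw [ht, hinf_e1]
  have h8 : (∏ j, (x.1 j).t ^ 2) * m ≤ T := by
    refine le_trans ?_ h5
    rw [h7]
    exact mul_le_mul_of_nonneg_left (hmY _ h1) (Finset.prod_nonneg fun j _ => sq_nonneg _)
  have h9 : (x.1 i).t ^ 2 ≤ T / (m * P) := by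
    rw [le_div_iff₀ (by positivity)]
    calc (x.1 i).t ^ 2 * (m * P) = ((x.1 i).t ^ 2 * P) * m := by ring
      _ ≤ (∏ j, (x.1 j).t ^ 2) * m := mul_le_mul_of_nonneg_right h6 hm.le
      _ ≤ T := h8
  nlinarith [sq_nonneg ((x.1 i).t - 1)]

theorem siegelSet_subset_compact (Y₀ : Finset (Y D.toLevel)) (C : ℝ) {c : ℝ} (hc : 0 < c) (T : ℝ) :
    ∃ K : Set (X D), IsCompact K ∧ siegelSet D Y₀ C c ∩ {x | ht e1 x ≤ T} ⊆ K := by
  obtain ⟨b, hb⟩ := siegelSet_subset_box (D := D) Y₀ C hc T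
  exact ⟨_, isCompact_box D Y₀ C c b hc, hb⟩

theorem ht_smul_eq (g : G2 F) {v : Fin 2 → F} (hv : v ≠ 0) (x : X D) :
    ht v (g • x) = ht ((g⁻¹).1 *ᵥ v) x := by
  have h := ht_equiv g (inv_mulVec_ne hv g) x
  rwa [Matrix.mulVec_mulVec, ← Units.val_mul, mul_inv_cancel, Units.val_one, one_mulVec] at h

/-- The truncated space is compact modulo `PGL₂(F)`. -/
theorem exists_compact_of_ht_le (D : Datum F) (T : ℝ) :
    ∃ K : Set (X D), IsCompact K ∧ ∀ x : X D, (∀ v : Fin 2 → F, v ≠ 0 → ht v x ≤ T) →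
      ∃ γ : PG F, γ • x ∈ K := by
  obtain ⟨Y₀, C, c, -, hc, h⟩ := siegel D
  obtain ⟨K, hK, hsub⟩ := siegelSet_subset_compact (D := D) Y₀ C hc T
  refine ⟨K, hK, fun x hx => ?_⟩
  obtain ⟨γ, hγ⟩ := h x
  refine ⟨γ, hsub ⟨hγ, ?_⟩⟩
  obtain ⟨g, rfl⟩ := Matrix.ProjGenLinGroup.mk_surjective γ
  change ht e1 (g • x) ≤ T
  rw [ht_smul_eq g e1_ne]
  exact hx _ (inv_mulVec_ne e1_ne g)

end siegel

section bound

variable {D : Datum F}

omit [NumberField F] in
theorem exists_smul_of_dt_eq_zero {v v' : Fin 2 → F} (hv : v ≠ 0) (hv' : v' ≠ 0)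
    (h : dt v v' = 0) : ∃ a : F, a ≠ 0 ∧ v = a • v' := by
  rw [dt, sub_eq_zero] at h
  by_cases h0 : v' 0 = 0
  · have h1 : v' 1 ≠ 0 := by
      intro h1; apply hv'; ext j; fin_cases j
      exacts [h0, h1]
    rw [h0, mul_zero] at h
    have h2 : v 0 = 0 := (mul_eq_zero.1 h).resolve_right h1
    have h3 : v 1 ≠ 0 := by
      intro h3; apply hv; ext j; fin_cases j
      exacts [h2, h3]
    refine ⟨v 1 / v' 1, div_ne_zero h3 h1, ?_⟩
    ext j; fin_cases j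
    · simp [h0, h2]
    · simp [h1]
  · have h3 : v 0 ≠ 0 := by
      intro h3
      rw [h3, zero_mul] at h
      have h4 : v 1 = 0 := (mul_eq_zero.1 h.symm).resolve_right h0
      apply hv; ext j; fin_cases j
      exacts [h3, h4]
    refine ⟨v 0 / v' 0, div_ne_zero h3 h0, ?_⟩
    ext j; fin_cases j
    · simp [h0]
    · simp only [Fin.mk_one, Fin.isValue, Pi.smul_apply, smul_eq_mul]
      rw [div_mul_eq_mul_div, eq_div_iff h0, h]

/-- two vectors with product of heights `> 1` are proportional -/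
theorem exists_smul_of_one_lt {v v' : Fin 2 → F} (hv : v ≠ 0) (hv' : v' ≠ 0) {x : X D}
    (h : 1 < ht v x * ht v' x) : ∃ a : F, a ≠ 0 ∧ v = a • v' := by
  apply exists_smul_of_dt_eq_zero hv hv'
  by_contra hd
  exact absurd (ht_mul_ht_le hd x) (not_le.2 h)

theorem exists_ht_le (x : X D) : ∃ B : ℝ, 1 ≤ B ∧ ∀ v : Fin 2 → F, v ≠ 0 → ht v x ≤ B := by
  by_cases h : ∃ v₀ : Fin 2 → F, v₀ ≠ 0 ∧ 1 < ht v₀ x
  · obtain ⟨v₀, hv₀, h1⟩ := h
    refine ⟨ht v₀ x, h1.le, fun v hv => ?_⟩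
    by_contra hc
    rw [not_le] at hc
    have h2 : 1 < ht v x * ht v₀ x := by nlinarith
    obtain ⟨a, ha, rfl⟩ := exists_smul_of_one_lt hv hv₀ h2
    rw [ht_smul ha hv₀] at hc
    exact lt_irrefl _ hc
  · push Not at h
    exact ⟨1, le_rfl, h⟩

/-- heights are comparable on compact sets -/
theorem exists_ht_compare {K : Set (X D)} (hK : IsCompact K) :
    ∃ M : ℝ, 0 < M ∧ ∀ x ∈ K, ∀ x' ∈ K, x.2 = x'.2 → ∀ v : Fin 2 → F, v ≠ 0 →
      ht v x ≤ M * ht v x' := by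
  have hcont : ∀ i : D.I, Continuous fun x : X D => x.1 i := fun i =>
    (continuous_apply i).comp continuous_fst
  have h1 : ∀ i : D.I, ∃ M : ℝ, 0 < M ∧ ∀ x ∈ K, ∀ x' ∈ K, ∀ a b : ℂ,
      (x'.1 i).Q a b ≤ M * (x.1 i).Q a b := by
    intro i
    obtain ⟨m, M, hm, hM, h⟩ := H3.exists_Q_bounds (hK.image (hcont i))
    refine ⟨M / m, by positivity, fun x hx x' hx' a b => ?_⟩
    have e1 := (h _ (Set.mem_image_of_mem _ hx') a b).2
    have e2 := (h _ (Set.mem_image_of_mem _ hx) a b).1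
    refine e1.trans ?_
    calc M * (Complex.normSq a + Complex.normSq b)
        = M / m * (m * (Complex.normSq a + Complex.normSq b)) := by field_simp
      _ ≤ _ := mul_le_mul_of_nonneg_left e2 (by positivity)
  choose M hM h using h1
  refine ⟨∏ i, (M i) ^ 2, Finset.prod_pos fun i _ => pow_pos (hM i) 2, ?_⟩
  intro x hx x' hx' hxx v hv
  have h2 : hinf v x.1 ≤ (∏ i, (M i) ^ 2) * hinf v x'.1 := by
    rw [hinf, hinf, ← Finset.prod_mul_distrib]
    apply Finset.prod_le_prod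
    · intro i _; positivity
    · intro i _
      have p1 := Q_emb_pos hv x.1 i
      have p2 := Q_emb_pos hv x'.1 i
      have p3 := hM i
      have e := h i x hx x' hx' (D.emb i (v 0)) (D.emb i (v 1))
      rw [← div_eq_mul_inv, inv_le_comm₀ (by positivity) (by positivity), inv_div,
        div_le_iff₀ (by positivity), ← mul_pow, mul_comm]
      exact pow_le_pow_left₀ p2.le e 2
  rw [ht, ht, ← hxx, ← mul_assoc]
  exact mul_le_mul_of_nonneg_right h2 (hfin_pos hv _).le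

theorem exists_ht_le_of_isCompact {K : Set (X D)} (hK : IsCompact K) :
    ∃ B : ℝ, 1 ≤ B ∧ ∀ x ∈ K, ∀ v : Fin 2 → F, v ≠ 0 → ht v x ≤ B := by
  obtain ⟨M, hM, hcmp⟩ := exists_ht_compare hK
  have hfin : (Prod.snd '' K).Finite := isCompact_iff_finite.1 (hK.image continuous_snd)
  have h1 : ∀ y : Y D.toLevel, ∃ B : ℝ, 1 ≤ B ∧ ∀ x ∈ K, x.2 = y → ∀ v : Fin 2 → F, v ≠ 0 →
      ht v x ≤ B := by
    intro y
    by_cases hy : ∃ x' ∈ K, x'.2 = y
    · obtain ⟨x', hx', rfl⟩ := hy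
      obtain ⟨B, hB, h⟩ := exists_ht_le x'
      refine ⟨max 1 (M * B), le_max_left _ _, fun x hx hxx v hv => ?_⟩
      refine ((hcmp x hx x' hx' hxx v hv).trans ?_).trans (le_max_right _ _)
      exact mul_le_mul_of_nonneg_left (h v hv) hM.le
    · exact ⟨1, le_rfl, fun x hx hxx => absurd ⟨x, hx, hxx⟩ hy⟩
  choose B hB h using h1
  refine ⟨1 + ∑ y ∈ hfin.toFinset, B y, ?_, fun x hx v hv => ?_⟩
  · have : 0 ≤ ∑ y ∈ hfin.toFinset, B y :=
      Finset.sum_nonneg fun y _ => zero_le_one.trans (hB y)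
    linarith
  · have h2 : B x.2 ≤ ∑ y ∈ hfin.toFinset, B y :=
      Finset.single_le_sum (f := B) (fun y _ => zero_le_one.trans (hB y))
        (by rw [Set.Finite.mem_toFinset]; exact Set.mem_image_of_mem _ hx)
    have h3 := h x.2 x hx rfl v hv
    linarith

/-- **Finiteness**: on a compact set only finitely many lines have height `≥ c`. -/
theorem finite_lines {K : Set (X D)} (hK : IsCompact K) {c : ℝ}
    (hc : 0 < c) : ∃ S : Finset (Fin 2 → F), (∀ v ∈ S, v ≠ 0) ∧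
      ∀ x ∈ K, ∀ v : Fin 2 → F, v ≠ 0 → c ≤ ht v x → ∃ v' ∈ S, ∃ a : F, a ≠ 0 ∧ v = a • v' := by
  classical
  obtain ⟨B, hB, hKB⟩ := exists_ht_le_of_isCompact hK
  obtain ⟨Y₀, C, -, h⟩ := siegel_cusp' D
  obtain ⟨c', hc', hcusp⟩ := h c hc
  obtain ⟨K', hK', hsub⟩ := siegelSet_subset_compact (D := D) Y₀ C hc' B
  have hfin := proper hK hK'
  have hrep : ∀ p : PG F, ∃ g : G2 F, pmk g = p := Matrix.ProjGenLinGroup.mk_surjective
  choose r hr using hrep
  refine ⟨hfin.toFinset.image fun p => ((r p)⁻¹).1 *ᵥ e1, ?_, ?_⟩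
  · intro v hv
    obtain ⟨p, _, rfl⟩ := Finset.mem_image.1 hv
    exact inv_mulVec_ne e1_ne _
  · intro x hx v hv hcv
    obtain ⟨g, ⟨a, ha, hga⟩, h1, h2, h3, h4⟩ := hcusp x v hv hcv
    have hv' : v = a • ((g⁻¹).1 *ᵥ e1) := by
      rw [← Matrix.mulVec_smul, ← hga, Matrix.mulVec_mulVec, ← Units.val_mul, inv_mul_cancel,
        Units.val_one, one_mulVec]
    have hmem : pmk g ∈ {p : PG F | ∃ x ∈ K, p • x ∈ K'} := by
      refine ⟨x, hx, hsub ⟨⟨h1, h2, h3, h4⟩, ?_⟩⟩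
      change ht e1 (g • x) ≤ B
      rw [ht_smul_eq g e1_ne, ← ht_smul ha (inv_mulVec_ne e1_ne g), ← hv']
      exact hKB x hx v hv
    refine ⟨((r (pmk g))⁻¹).1 *ᵥ e1, Finset.mem_image.2 ⟨pmk g, by simpa using hmem, rfl⟩, ?_⟩
    -- `r (pmk g) = g * scalar`
    have h5 := hr (pmk g)
    obtain ⟨c₀, hc₀⟩ : ∃ c₀ : Fˣ, r (pmk g) = g * sc c₀ := by
      have h6 : g⁻¹ * r (pmk g) ∈ scal F := QuotientGroup.eq.1 h5.symm
      obtain ⟨c₀, hc₀⟩ := (mem_scal_iff _).1 h6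
      refine ⟨c₀, ?_⟩
      have : g⁻¹ * r (pmk g) = sc c₀ := Units.ext hc₀
      rw [← this, mul_inv_cancel_left]
    refine ⟨a * c₀, mul_ne_zero ha c₀.ne_zero, ?_⟩
    rw [hv', hc₀, _root_.mul_inv_rev, sc_inv, sc_mul_val, Matrix.smul_mulVec, smul_smul, mul_assoc,
      Units.val_inv_eq_inv_val, mul_inv_cancel₀ c₀.ne_zero, mul_one]

end bound

section hmax

variable {D : Datum F}

instance : Nonempty {v : Fin 2 → F // v ≠ 0} := ⟨⟨e1, e1_ne⟩⟩

/-- the maximal height -/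
noncomputable def hmax (x : X D) : ℝ := ⨆ v : {v : Fin 2 → F // v ≠ 0}, ht v.1 x

theorem bddAbove_range_ht (x : X D) :
    BddAbove (Set.range fun v : {v : Fin 2 → F // v ≠ 0} => ht v.1 x) := by
  obtain ⟨B, _, h⟩ := exists_ht_le x
  refine ⟨B, ?_⟩
  rintro _ ⟨v, rfl⟩
  exact h v.1 v.2

theorem ht_le_hmax {v : Fin 2 → F} (hv : v ≠ 0) (x : X D) : ht v x ≤ hmax x :=
  le_ciSup (bddAbove_range_ht x) ⟨v, hv⟩

theorem hmax_le_iff {x : X D} {T : ℝ} : hmax x ≤ T ↔ ∀ v : Fin 2 → F, v ≠ 0 → ht v x ≤ T := by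
  rw [hmax, ciSup_le_iff (bddAbove_range_ht x)]
  exact ⟨fun h v hv => h ⟨v, hv⟩, fun h v => h v.1 v.2⟩

theorem lt_hmax_iff {x : X D} {T : ℝ} : T < hmax x ↔ ∃ v : Fin 2 → F, v ≠ 0 ∧ T < ht v x := by
  rw [← not_le, hmax_le_iff]
  push Not
  rfl

theorem hmax_pos (x : X D) : 0 < hmax x := (ht_pos e1_ne x).trans_le (ht_le_hmax e1_ne x)

theorem hmax_smul (g : G2 F) (x : X D) : hmax (g • x) = hmax x := by
  apply le_antisymm
  · rw [hmax_le_iff]
    intro v hv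
    rw [ht_smul_eq g hv]
    exact ht_le_hmax (inv_mulVec_ne hv g) x
  · rw [hmax_le_iff]
    intro v hv
    rw [← ht_equiv g hv]
    exact ht_le_hmax (mulVec_ne hv g) _

theorem hmax_pg_smul (g : PG F) (x : X D) : hmax (g • x) = hmax x := by
  obtain ⟨g, rfl⟩ := Matrix.ProjGenLinGroup.mk_surjective g
  exact hmax_smul g x

theorem isClosed_hmax_le (T : ℝ) : IsClosed {x : X D | hmax x ≤ T} := by
  have : {x : X D | hmax x ≤ T} = ⋂ v : {v : Fin 2 → F // v ≠ 0}, {x | ht v.1 x ≤ T} := by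
    ext x
    simp only [Set.mem_ofPred_eq, Set.mem_iInter, hmax_le_iff]
    exact ⟨fun h v => h v.1 v.2, fun h v hv => h ⟨v, hv⟩⟩
  rw [this]
  exact isClosed_iInter fun v => isClosed_le (continuous_ht v.2) continuous_const

theorem measurableSet_hmax_le (T : ℝ) : MeasurableSet {x : X D | hmax x ≤ T} :=
  (isClosed_hmax_le T).measurableSet

theorem measurable_hmax : Measurable (hmax : X D → ℝ) :=
  measurable_of_Iic fun T => measurableSet_hmax_le T

/-- The maximal height is attained, uniformly by a finite set of vectors on compact sets. -/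
theorem exists_finset_hmax {K : Set (X D)} (hK : IsCompact K) :
    ∃ S : Finset (Fin 2 → F), S.Nonempty ∧ (∀ v ∈ S, v ≠ 0) ∧
      ∀ x ∈ K, ∃ v ∈ S, ht v x = hmax x := by
  classical
  obtain ⟨c, hc, hex⟩ := exists_ht_ge' D
  obtain ⟨S, hS0, hS⟩ := finite_lines hK hc
  refine ⟨insert e1 S, Finset.insert_nonempty _ _, ?_, ?_⟩
  · intro v hv
    rcases Finset.mem_insert.1 hv with rfl | hv
    · exact e1_ne
    · exact hS0 v hv
  · intro x hx
    obtain ⟨v₀, hv₀, hcv₀⟩ := hex x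
    obtain ⟨v₁, hv₁S, _⟩ := hS x hx v₀ hv₀ hcv₀
    obtain ⟨v₂, hv₂S, hmax₂⟩ := S.exists_max_image (fun v => ht v x) ⟨v₁, hv₁S⟩
    refine ⟨v₂, Finset.mem_insert_of_mem hv₂S, ?_⟩
    apply le_antisymm (ht_le_hmax (hS0 _ hv₂S) x)
    rw [hmax_le_iff]
    intro v hv
    have key : ∀ w : Fin 2 → F, w ≠ 0 → c ≤ ht w x → ht w x ≤ ht v₂ x := by
      intro w hw hcw
      obtain ⟨w', hw'S, a, ha, rfl⟩ := hS x hx w hw hcw
      rw [ht_smul ha (hS0 _ hw'S)]
      exact hmax₂ w' hw'S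
    rcases le_total c (ht v x) with h | h
    · exact key v hv h
    · exact h.trans (hcv₀.trans (key v₀ hv₀ hcv₀))

theorem exists_ht_eq_hmax (x : X D) :
    ∃ v : Fin 2 → F, v ≠ 0 ∧ ht v x = hmax x := by
  obtain ⟨S, _, hS, h⟩ := exists_finset_hmax (isCompact_singleton (x := x))
  obtain ⟨v, hv, hvx⟩ := h x rfl
  exact ⟨v, hS v hv, hvx⟩

theorem exists_le_hmax (D : Datum F) : ∃ c : ℝ, 0 < c ∧ ∀ x : X D, c ≤ hmax x := by
  obtain ⟨c, hc, hex⟩ := exists_ht_ge' D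
  refine ⟨c, hc, fun x => ?_⟩
  obtain ⟨v, hv, hcv⟩ := hex x
  exact hcv.trans (ht_le_hmax hv x)

theorem continuous_hmax : Continuous (hmax : X D → ℝ) := by
  rw [continuous_iff_continuousAt]
  intro x
  obtain ⟨K, hK, hxK⟩ := exists_compact_mem_nhds x
  obtain ⟨S, hSne, hS0, hS⟩ := exists_finset_hmax hK
  have h1 : Continuous fun x : X D => S.attach.sup' (by simpa using hSne) fun v => ht v.1 x :=
    Continuous.finset_sup'_apply _ fun v _ => continuous_ht (hS0 _ v.2)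
  refine h1.continuousAt.congr ?_
  filter_upwards [hxK] with y hy
  apply le_antisymm
  · rw [Finset.sup'_le_iff]
    intro v _
    exact ht_le_hmax (hS0 _ v.2) y
  · obtain ⟨v, hv, hvy⟩ := hS y hy
    rw [← hvy]
    exact Finset.le_sup' (fun v : {v // v ∈ S} => ht v.1 y) (Finset.mem_attach S ⟨v, hv⟩)

/-- for `T ≥ 1` at most one line has height `> T`. -/
theorem exists_smul_of_lt {T : ℝ} (hT : 1 ≤ T) {x : X D} {v v' : Fin 2 → F} (hv : v ≠ 0)
    (hv' : v' ≠ 0) (h : T < ht v x) (h' : T < ht v' x) : ∃ a : F, a ≠ 0 ∧ v = a • v' :=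
  exists_smul_of_one_lt hv hv' (by nlinarith)

/-- for `T ≥ 1`, if `ht v x > T`, then `hmax x = ht v x` -/
theorem hmax_eq_of_lt {T : ℝ} (hT : 1 ≤ T) {x : X D} {v : Fin 2 → F} (hv : v ≠ 0)
    (h : T < ht v x) : hmax x = ht v x := by
  apply le_antisymm _ (ht_le_hmax hv x)
  rw [hmax_le_iff]
  intro w hw
  by_contra hc
  rw [not_le] at hc
  obtain ⟨a, ha, rfl⟩ := exists_smul_of_lt hT hw hv (h.trans hc) h
  rw [ht_smul ha hv] at hc
  exact lt_irrefl _ hc

/-- `ht e1 (g • x)` only depends on the Borel coset of `g` -/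
theorem ht_e1_upper {b : G2 F} (hb : b 1 0 = 0) (x : X D) : ht e1 (b • x) = ht e1 x := by
  have h0 : b 0 0 ≠ 0 := by
    intro h0
    have hd : b.1.det ≠ 0 := b.det_ne_zero
    rw [Matrix.det_fin_two] at hd
    apply hd
    change b 0 0 * b 1 1 - b 0 1 * b 1 0 = 0
    rw [h0, hb]; ring
  have h1 : b.1 *ᵥ (e1 : Fin 2 → F) = (b 0 0) • e1 := by
    ext j; fin_cases j
    · simp [e1, Matrix.mulVec, dotProduct, Fin.sum_univ_two]
    · have : b.1 1 0 = 0 := hb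
      simp [e1, Matrix.mulVec, dotProduct, Fin.sum_univ_two, this]
  have h2 := ht_equiv b (e1_ne (F := F)) x
  rw [h1, ht_smul h0 e1_ne] at h2
  exact h2

/-- for `T ≥ 1`, the elements `g` with `ht e1 (g x) > T` form at most one coset of the Borel
subgroup -/
theorem upper_of_lt_ht {T : ℝ} (hT : 1 ≤ T) {x : X D} {g g' : G2 F} (h : T < ht e1 (g • x))
    (h' : T < ht e1 (g' • x)) : (g' * g⁻¹) 1 0 = 0 := by
  rw [ht_smul_eq _ e1_ne] at h h'
  obtain ⟨a, ha, hv⟩ := exists_smul_of_lt hT (inv_mulVec_ne e1_ne g) (inv_mulVec_ne e1_ne g') h h'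
  have h1 : (g' * g⁻¹).1 *ᵥ (e1 : Fin 2 → F) = a • e1 := by
    rw [Units.val_mul, ← Matrix.mulVec_mulVec, hv, Matrix.mulVec_smul, Matrix.mulVec_mulVec,
      ← Units.val_mul, mul_inv_cancel, Units.val_one, one_mulVec]
  have h2 := congrFun h1 1
  simp only [e1, Matrix.mulVec, dotProduct, Fin.sum_univ_two, Pi.smul_apply] at h2
  simpa using h2

theorem lt_hmax_iff' {x : X D} {T : ℝ} : T < hmax x ↔ ∃ g : G2 F, T < ht e1 (g • x) := by
  rw [lt_hmax_iff]
  constructor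
  · rintro ⟨v, hv, h⟩
    obtain ⟨g, hg⟩ := exists_mulVec_eq_e1 hv
    refine ⟨g, ?_⟩
    rw [← hg, ht_equiv g hv]; exact h
  · rintro ⟨g, h⟩
    rw [ht_smul_eq _ e1_ne] at h
    exact ⟨_, inv_mulVec_ne e1_ne g, h⟩

end hmax

section siegelmax

variable {D : Datum F}

/-- On a Siegel set the maximal height is comparable to the height at `∞`, and to `∏ t_i²`. -/
theorem hmax_siegelSet (Y₀ : Finset (Y D.toLevel)) (C : ℝ) {c : ℝ} (hc : 0 < c) :
    ∃ m M : ℝ, 0 < m ∧ 0 < M ∧ ∀ x ∈ siegelSet D Y₀ C c,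
      m * ∏ i, (x.1 i).t ^ 2 ≤ hmax x ∧ hmax x ≤ M * ∏ i, (x.1 i).t ^ 2 := by
  obtain ⟨m, hm, hmY⟩ := exists_hfin_lower Y₀ (e1_ne (F := F))
  obtain ⟨M, hM, hMY⟩ := exists_hfin_upper Y₀ (e1_ne (F := F))
  set P : ℝ := ∏ _i : D.I, c ^ 2 with hP
  have hP0 : 0 < P := Finset.prod_pos fun i _ => by positivity
  refine ⟨m, M + (m * P * P)⁻¹, hm, by positivity, ?_⟩
  rintro x ⟨h1, h2, h3, h4⟩
  have e1' : ht e1 x = (∏ i, (x.1 i).t ^ 2) * hfin e1 x.2 := by rw [ht, hinf_e1]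
  have hPx : P ≤ ∏ i, (x.1 i).t ^ 2 :=
    Finset.prod_le_prod (fun _ _ => by positivity) fun i _ => pow_le_pow_left₀ hc.le (h4 i) 2
  set Q : ℝ := ∏ i, (x.1 i).t ^ 2 with hQ
  have hQ0 : 0 < Q := hP0.trans_le hPx
  have hlow : m * Q ≤ ht e1 x := by
    rw [e1', mul_comm]; exact mul_le_mul_of_nonneg_left (hmY _ h1) hQ0.le
  have hup : ht e1 x ≤ M * Q := by
    rw [e1', mul_comm]; exact mul_le_mul_of_nonneg_right (hMY _ h1) hQ0.le
  refine ⟨hlow.trans (ht_le_hmax e1_ne x), ?_⟩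
  rw [hmax_le_iff]
  intro v hv
  have hpos : 0 < (m * P * P)⁻¹ := by positivity
  by_cases hd : dt v e1 = 0
  · obtain ⟨a, ha, rfl⟩ := exists_smul_of_dt_eq_zero hv e1_ne hd
    rw [ht_smul ha e1_ne]
    refine hup.trans (mul_le_mul_of_nonneg_right (by linarith) hQ0.le)
  · have h5 := ht_mul_ht_le hd x
    have h6 := ht_pos hv x
    have h7 : ht v x * (m * P) ≤ 1 := by
      refine le_trans (mul_le_mul_of_nonneg_left ?_ h6.le) h5
      exact (mul_le_mul_of_nonneg_left hPx hm.le).trans hlow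
    have h8 : ht v x ≤ (m * P)⁻¹ := by
      rw [← one_div, le_div_iff₀ (by positivity)]; exact h7
    calc ht v x ≤ (m * P)⁻¹ := h8
      _ = (m * P * P)⁻¹ * P := by field_simp
      _ ≤ (m * P * P)⁻¹ * Q := mul_le_mul_of_nonneg_left hPx hpos.le
      _ ≤ _ := mul_le_mul_of_nonneg_right (by linarith) hQ0.le

end siegelmax

end Fermat.LT
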