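import Fermat.Agent.LT.Defs
import Fermat.Agent.MW.Selmer

/-!
# LT, piece A: valuations, approximation
-/

open NumberField IsDedekindDomain Matrix
open scoped WithZero nonZeroDivisors

namespace Fermat.LT

open Fermat.Agent.MW.Selmer

variable {F : Type} [Field F] [NumberField F]

theorem av_int_eq (w : Pl F) {r : 𝓞 F} (hr : r ≠ 0) :
    av w (r : F) = qv w ^ (-(cnt w (Units.mk0 (r : F) (by simpa using hr)) : ℤ)) := by
  classical
  have h1 : cnt w (Units.mk0 (r : F) (by simpa using hr)) =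
      ((Associates.mk w.asIdeal).count (Associates.mk (Ideal.span {r})).factors : ℤ) := by
    have h2 : FractionalIdeal.spanSingleton (𝓞 F)⁰ ((Units.mk0 (r : F) (by simpa using hr) : Fˣ) : F) =
        ((Ideal.span {r} : Ideal (𝓞 F)) : FractionalIdeal (𝓞 F)⁰ F) := by
      rw [FractionalIdeal.coeIdeal_span_singleton]; rfl
    rw [cnt, h2, FractionalIdeal.count_coe]
    simpa using hr
  rw [h1]
  have h3 : av w (r : F) = (WithZeroMulInt.toNNReal
      (NumberField.HeightOneSpectrum.absNorm_ne_zero w) (w.valuation F (r : F)) : ℝ) := rfl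
  have h4 : w.valuation F (r : F) = w.intValuation r := w.valuation_of_algebraMap r
  rw [h3, h4, w.intValuation_if_neg hr]
  rw [WithZeroMulInt.toNNReal_neg_apply _ (WithZero.exp_ne_zero)]
  rfl

/-- `|x|_w = q_w^{-ord_w x}` -/
theorem av_eq_zpow (w : Pl F) (x : Fˣ) : av w (x : F) = qv w ^ (-(cnt w x)) := by
  obtain ⟨r, s, hs, hx⟩ := IsFractionRing.div_surjective (A := 𝓞 F) (x : F)
  have hs0 : s ≠ 0 := nonZeroDivisors.ne_zero hs
  have hr0 : r ≠ 0 := by
    rintro rfl
    rw [map_zero, zero_div] at hx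
    exact x.ne_zero hx.symm
  have h1 := av_int_eq w hr0
  have h2 := av_int_eq w hs0
  set xr : Fˣ := Units.mk0 (r : F) (by simpa using hr0)
  set xs : Fˣ := Units.mk0 (s : F) (by simpa using hs0)
  have hx' : x = xr * xs⁻¹ := by
    ext
    rw [← hx, Units.val_mul, Units.val_inv_eq_inv_val, div_eq_mul_inv]; rfl
  have hq := (qv_pos w).ne'
  rw [hx', cnt_mul, cnt_inv, Units.val_mul, Units.val_inv_eq_inv_val, map_mul, map_inv₀]
  have e1 : (xr : F) = (r : F) := rfl
  have e2 : (xs : F) = (s : F) := rfl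
  rw [e1, e2, h1, h2, ← _root_.zpow_neg, ← zpow_add₀ hq]
  congr 1; ring

theorem mem_pow_iff (w : Pl F) (r : 𝓞 F) (e : ℕ) :
    r ∈ w.asIdeal ^ e ↔ av w (r : F) ≤ (qv w)⁻¹ ^ e := by
  have h3 : av w (r : F) = (WithZeroMulInt.toNNReal
      (NumberField.HeightOneSpectrum.absNorm_ne_zero w) (w.valuation F (r : F)) : ℝ) := rfl
  have h4 : w.valuation F (r : F) = w.intValuation r := w.valuation_of_algebraMap r
  have h5 : (qv w)⁻¹ ^ e = (WithZeroMulInt.toNNReal
      (NumberField.HeightOneSpectrum.absNorm_ne_zero w) (WithZero.exp (-(e : ℤ))) : ℝ) := by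
    rw [WithZeroMulInt.toNNReal_neg_apply _ (WithZero.exp_ne_zero)]
    have : (WithZero.unzero (WithZero.exp_ne_zero (M := ℤ) (a := (-(e : ℤ))))).toAdd = -(e:ℤ) := rfl
    rw [this]
    push_cast
    rw [_root_.zpow_neg, zpow_natCast, inv_pow]; rfl
  rw [h3, h4, h5, NNReal.coe_le_coe,
    (WithZeroMulInt.toNNReal_strictMono (NumberField.HeightOneSpectrum.one_lt_absNorm_nnreal w)).le_iff_le]
  exact (w.intValuation_le_pow_iff_mem r e).symm

/-- strong approximation for the additive group -/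
theorem strong_approx (T : Finset (Pl F)) (b : Pl F → F) (ε : Pl F → ℝ) (hε : ∀ w, 0 < ε w) :
    ∃ x : F, (∀ w ∈ T, av w (x - b w) ≤ ε w) ∧ ∀ w ∉ T, av w x ≤ 1 := by
  classical
  obtain ⟨⟨N, hN⟩, hNb⟩ := IsLocalization.exist_integer_multiples (𝓞 F)⁰ T b
  have hN0 : N ≠ 0 := nonZeroDivisors.ne_zero hN
  have hNF : (N : F) ≠ 0 := by simpa using hN0
  have hr : ∀ w : Pl F, ∃ r : 𝓞 F, (w ∈ T → (r : F) = N * b w) ∧ (w ∉ T → r = 0) := by
    intro w
    by_cases hw : w ∈ T
    · obtain ⟨r, hr⟩ := hNb w hw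
      refine ⟨r, fun _ => ?_, fun h => absurd hw h⟩
      exact hr.trans (Algebra.smul_def _ _)
    · exact ⟨0, fun h => absurd h hw, fun _ => rfl⟩
  choose r hr1 hr2 using hr
  set T' : Finset (Pl F) := T ∪ (av_finite hNF).toFinset with hT'
  have hNpos : ∀ w : Pl F, 0 < av w (N : F) := fun w => (av w).pos hNF
  have he : ∀ w : Pl F, ∃ e : ℕ, (qv w)⁻¹ ^ e ≤ av w (N : F) * min (ε w) 1 := by
    intro w
    have h1 : 0 < av w (N : F) * min (ε w) 1 := mul_pos (hNpos w) (lt_min (hε w) one_pos)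
    obtain ⟨e, he⟩ := exists_pow_lt_of_lt_one h1 (inv_lt_one_of_one_lt₀ (one_lt_qv w))
    exact ⟨e, he.le⟩
  choose e he using he
  obtain ⟨c, hc⟩ := IsDedekindDomain.exists_forall_sub_mem_ideal (s := T')
    (fun w : Pl F => w.asIdeal) e (fun w _ => w.prime)
    (fun w _ w' _ h h2 => h (HeightOneSpectrum.ext h2)) (fun w => r w)
  have hc' : ∀ w ∈ T', av w ((c : F) - (r w : F)) ≤ av w (N : F) * min (ε w) 1 := by
    intro w hw
    have h1 := (mem_pow_iff w _ _).mp (hc w hw)
    have h2 : ((c - r w : 𝓞 F) : F) = (c : F) - (r w : F) := map_sub _ _ _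
    rw [← h2]
    exact h1.trans (he w)
  refine ⟨(c : F) / N, fun w hw => ?_, fun w hw => ?_⟩
  · have h1 := hc' w (Finset.mem_union_left _ hw)
    rw [hr1 w hw] at h1
    have h2 : (c : F) / N - b w = ((c : F) - N * b w) / N := by field_simp
    rw [h2, map_div₀, div_le_iff₀ (hNpos w), mul_comm (ε w)]
    exact h1.trans (mul_le_mul_of_nonneg_left (min_le_left _ _) (hNpos w).le)
  · rw [map_div₀, div_le_one (hNpos w)]
    by_cases hw2 : w ∈ T'
    · have h1 := hc' w hw2
      rw [hr2 w hw] at h1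
      simp only [map_zero, sub_zero] at h1
      exact h1.trans (mul_le_of_le_one_right (hNpos w).le (min_le_right _ _))
    · have h1 : av w (N : F) = 1 := by
        by_contra h
        exact hw2 (Finset.mem_union_right _ ((Set.Finite.mem_toFinset _).mpr h))
      rw [h1, av_eq_finitePlace, FinitePlace.mk_apply]
      exact NumberField.FinitePlace.norm_le_one F w c

/-- the finitely supported families `(α_w) ∈ ∏ F^*` -/
def IdeleFam (F : Type) [Field F] [NumberField F] : Type :=
  {α : Pl F → Fˣ // {w | av w (α w : F) ≠ 1}.Finite}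

theorem cnt_eq_zero_iff (w : Pl F) (x : Fˣ) : cnt w x = 0 ↔ av w (x : F) = 1 := by
  rw [av_eq_zpow]
  constructor
  · intro h; rw [h]; simp
  · intro h
    have h1 := one_lt_qv w
    by_contra hc
    have := zpow_right_injective₀ (qv_pos w) h1.ne' (h.trans (zpow_zero _).symm)
    simp at this
    exact hc this

/-- fractional ideal of an idele family -/
noncomputable def idealOf (α : IdeleFam F) : FractionalIdeal (𝓞 F)⁰ F :=
  ∏ᶠ w : Pl F, (w.asIdeal : FractionalIdeal (𝓞 F)⁰ F) ^ (cnt w (α.1 w))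

theorem count_idealOf (α : IdeleFam F) (w : Pl F) :
    FractionalIdeal.count F w (idealOf α) = cnt w (α.1 w) := by
  apply FractionalIdeal.count_finprod
  rw [Filter.eventually_cofinite]
  refine α.2.subset fun w hw h => hw ?_
  exact (cnt_eq_zero_iff w _).mpr h

theorem idealOf_ne_zero (α : IdeleFam F) : idealOf α ≠ 0 := by
  rw [idealOf]
  have hfin : (Function.mulSupport fun w : Pl F =>
      (w.asIdeal : FractionalIdeal (𝓞 F)⁰ F) ^ (cnt w (α.1 w))).Finite := by
    refine α.2.subset fun w hw h => hw ?_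
    simp only [(cnt_eq_zero_iff w _).mpr h, zpow_zero]
  rw [finprod_eq_prod _ hfin, Finset.prod_ne_zero_iff]
  intro w _
  apply zpow_ne_zero
  exact FractionalIdeal.coeIdeal_ne_zero.mpr w.ne_bot

/-- class group finiteness: finitely many idele families up to `F^*` and units. -/
theorem exists_class_reps : ∃ R : Set (IdeleFam F), R.Finite ∧ ∀ α : IdeleFam F,
    ∃ β ∈ R, ∃ x : Fˣ, ∀ w, av w (α.1 w : F) = av w (x : F) * av w (β.1 w : F) := by
  classical
  set cl : IdeleFam F → ClassGroup (𝓞 F) := fun α =>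
    ClassGroup.mk F (Units.mk0 (idealOf α) (idealOf_ne_zero α)) with hcl
  have key : ∀ α β : IdeleFam F, cl α = cl β → ∃ x : Fˣ, ∀ w,
      av w (α.1 w : F) = av w (x : F) * av w (β.1 w : F) := by
    intro α β h
    have h1 : ClassGroup.mk F (Units.mk0 (idealOf α) (idealOf_ne_zero α) *
        (Units.mk0 (idealOf β) (idealOf_ne_zero β))⁻¹) = 1 := by
      rw [map_mul, map_inv]
      change cl α * (cl β)⁻¹ = 1
      rw [h, mul_inv_cancel]
    rw [ClassGroup.mk_eq_one_iff, FractionalIdeal.isPrincipal_iff] at h1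
    obtain ⟨x', hx'⟩ := h1
    rw [Units.val_mul, Units.val_inv_eq_inv_val, Units.val_mk0, Units.val_mk0] at hx'
    have h2' : idealOf α = FractionalIdeal.spanSingleton (𝓞 F)⁰ x' * idealOf β := by
      rw [← hx', mul_assoc, inv_mul_cancel₀ (idealOf_ne_zero β), mul_one]
    have hx0 : x' ≠ 0 := by
      rintro rfl
      rw [FractionalIdeal.spanSingleton_zero, zero_mul] at h2'
      exact idealOf_ne_zero α h2'
    set x : Fˣ := Units.mk0 x' hx0 with hxdef
    refine ⟨x, fun w => ?_⟩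
    have h2 : idealOf α = FractionalIdeal.spanSingleton (𝓞 F)⁰ (x : F) * idealOf β := h2'
    have h4 := count_idealOf α w
    rw [h2, FractionalIdeal.count_mul F w (span_ne_zero x) (idealOf_ne_zero β),
      count_idealOf β w] at h4
    have h5 : cnt w (α.1 w) = cnt w x + cnt w (β.1 w) := h4.symm
    rw [av_eq_zpow, av_eq_zpow, av_eq_zpow, h5, neg_add, zpow_add₀ (qv_pos w).ne']
  refine ⟨Set.range (fun c : Set.range cl => c.2.choose), Set.finite_range _, fun α => ?_⟩
  refine ⟨_, ⟨⟨cl α, α, rfl⟩, rfl⟩, key _ _ ?_⟩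
  exact (⟨cl α, α, rfl⟩ : Set.range cl).2.choose_spec.symm

end Fermat.LT
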