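import Fermat.Agent.LT.Defs

/-!
# LT, piece A: the lattice `𝓞 F ⊂ ℂ^I`
-/

open NumberField IsDedekindDomain Matrix MeasureTheory Module
open scoped ComplexConjugate

namespace Fermat.LT

variable {F : Type} [Field F] [NumberField F] (A : Arch F)

/-- the complex place of index `i` -/
noncomputable def Arch.pl (i : A.I) : InfinitePlace F := InfinitePlace.mk (A.emb i)

theorem Arch.isComplex (i : A.I) : (A.pl i).IsComplex := by
  rw [Arch.pl, InfinitePlace.isComplex_mk_iff]; exact A.cx i

theorem Arch.pl_apply (i : A.I) (x : F) : A.pl i x = ‖A.emb i x‖ := InfinitePlace.apply _ _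

/-- index set ≃ infinite places -/
noncomputable def Arch.equiv : A.I ≃ InfinitePlace F := Equiv.ofBijective _ A.bij

include A in
theorem isEmpty_real : IsEmpty {w : InfinitePlace F // w.IsReal} := by
  constructor
  rintro ⟨w, hw⟩
  obtain ⟨i, hi⟩ := A.equiv.surjective w
  have : (A.pl i).IsReal := by
    rw [Arch.pl]; change (A.equiv i).IsReal; rw [hi]; exact hw
  exact (InfinitePlace.not_isReal_iff_isComplex.mpr (A.isComplex i)) this

/-- index set ≃ complex places -/
noncomputable def Arch.equivC : A.I ≃ {w : InfinitePlace F // w.IsComplex} :=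
  Equiv.ofBijective (fun i => ⟨A.pl i, A.isComplex i⟩) (by
    constructor
    · intro i j h
      exact A.bij.1 (congrArg Subtype.val h)
    · rintro ⟨w, hw⟩
      obtain ⟨i, hi⟩ := A.bij.2 w
      exact ⟨i, Subtype.ext hi⟩)

theorem Arch.embedding_eq (i : A.I) : (A.pl i).embedding = A.emb i ∨
    (A.pl i).embedding = ComplexEmbedding.conjugate (A.emb i) := by
  have := InfinitePlace.mk_embedding (A.pl i)
  rcases InfinitePlace.mk_eq_iff.mp this with h | h
  · exact Or.inl h
  · exact Or.inr (by rw [← h]; exact (star_star _).symm)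

open Classical in
/-- correction at the place `i`: identity or complex conjugation -/
noncomputable def Arch.cjL (i : A.I) : ℂ ≃ₗ[ℝ] ℂ :=
  if (A.pl i).embedding = A.emb i then LinearEquiv.refl ℝ ℂ else Complex.conjAe.toLinearEquiv

theorem Arch.cjL_apply (i : A.I) (x : F) : A.cjL i ((A.pl i).embedding x) = A.emb i x := by
  rw [Arch.cjL]
  split_ifs with h
  · rw [h]; rfl
  · rcases A.embedding_eq i with h2 | h2
    · exact absurd h2 h
    · rw [h2]
      change conj (conj (A.emb i x)) = _
      exact Complex.conj_conj _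

/-- the comparison `mixedSpace F ≃ ℂ^I` -/
noncomputable def eqI : mixedEmbedding.mixedSpace F ≃ₗ[ℝ] (A.I → ℂ) where
  toFun x i := A.cjL i (x.2 (A.equivC i))
  map_add' x y := funext fun i => by simp
  map_smul' c x := funext fun i => by
    change A.cjL i (c • x.2 (A.equivC i)) = c • A.cjL i (x.2 (A.equivC i))
    rw [LinearEquiv.map_smul]
  invFun u := ⟨fun w => ((isEmpty_real A).false w).elim,
    fun w => (A.cjL (A.equivC.symm w)).symm (u (A.equivC.symm w))⟩
  left_inv x := by
    refine Prod.ext (funext fun w => ((isEmpty_real A).false w).elim) (funext fun w => ?_)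
    obtain ⟨i, rfl⟩ := A.equivC.surjective w
    simp
  right_inv u := funext fun i => by simp

theorem eqI_mixed (x : F) : eqI A (mixedEmbedding F x) = embI A x := by
  funext i
  change A.cjL i ((mixedEmbedding F x).2 (A.equivC i)) = A.emb i x
  rw [mixedEmbedding.mixedEmbedding_apply_isComplex]
  exact A.cjL_apply i x

/-- An `ℝ`-basis of `ℂ^I` which is a `ℤ`-basis of `𝓞 F`. -/
noncomputable def latB : Basis (Free.ChooseBasisIndex ℤ (𝓞 F)) ℝ (A.I → ℂ) :=
  (mixedEmbedding.latticeBasis F).map (eqI A)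

theorem latB_apply (j : Free.ChooseBasisIndex ℤ (𝓞 F)) :
    latB A j = embI A (integralBasis F j) := by
  rw [latB, Basis.map_apply, mixedEmbedding.latticeBasis_apply, eqI_mixed]

/-- lattice = image of `𝓞 F` -/
theorem mem_span_latB {u : A.I → ℂ} :
    u ∈ Submodule.span ℤ (Set.range (latB A)) ↔ ∃ x : 𝓞 F, embI A (x : F) = u := by
  have h1 : Set.range (latB A) = ((eqI A).toLinearMap.restrictScalars ℤ) ''
      Set.range (mixedEmbedding.latticeBasis F) := by
    rw [← Set.range_comp]
    congr 1
  rw [h1, ← Submodule.map_span, Submodule.mem_map]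
  constructor
  · rintro ⟨y, hy, rfl⟩
    rw [mixedEmbedding.mem_span_latticeBasis] at hy
    obtain ⟨x, hx⟩ := hy
    refine ⟨x, ?_⟩
    rw [← hx]
    exact (eqI_mixed A _).symm
  · rintro ⟨x, rfl⟩
    refine ⟨mixedEmbedding F x, ?_, eqI_mixed A _⟩
    rw [mixedEmbedding.mem_span_latticeBasis]
    exact ⟨x, rfl⟩

theorem embI_injective [Nonempty A.I] : Function.Injective (embI A) := (embI A).injective

/-- two copies: `𝓞 F² ⊂ ℂ^I × ℂ^I` -/
noncomputable def latB2 := (latB A).prod (latB A)

theorem mem_span_latB2 {u : (A.I → ℂ) × (A.I → ℂ)}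
    (hu : u ∈ Submodule.span ℤ (Set.range (latB2 A))) :
    ∃ x y : 𝓞 F, embI A (x : F) = u.1 ∧ embI A (y : F) = u.2 := by
  have h1 : u.1 ∈ Submodule.span ℤ (Set.range (latB A)) := by
    have := Submodule.mem_map_of_mem (f := LinearMap.fst ℤ (A.I → ℂ) (A.I → ℂ)) hu
    rw [Submodule.map_span] at this
    refine Submodule.span_le.mpr ?_ this
    rintro _ ⟨_, ⟨j, rfl⟩, rfl⟩
    rcases j with j | j
    · simp only [latB2, Basis.prod_apply, Function.comp_apply, Sum.elim_inl, LinearMap.coe_inl,
        LinearMap.fst_apply]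
      exact Submodule.subset_span ⟨j, rfl⟩
    · simp [latB2]
  have h2 : u.2 ∈ Submodule.span ℤ (Set.range (latB A)) := by
    have := Submodule.mem_map_of_mem (f := LinearMap.snd ℤ (A.I → ℂ) (A.I → ℂ)) hu
    rw [Submodule.map_span] at this
    refine Submodule.span_le.mpr ?_ this
    rintro _ ⟨_, ⟨j, rfl⟩, rfl⟩
    rcases j with j | j
    · simp [latB2]
    · simp only [latB2, Basis.prod_apply, Function.comp_apply, Sum.elim_inr, LinearMap.coe_inr,
        LinearMap.snd_apply]
      exact Submodule.subset_span ⟨j, rfl⟩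
  obtain ⟨x, hx⟩ := (mem_span_latB A).mp h1
  obtain ⟨y, hy⟩ := (mem_span_latB A).mp h2
  exact ⟨x, y, hx, hy⟩

end Fermat.LT
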