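import Mathlib
import Fermat.Agent.LT.A.H3Top

/-!
# The invariant measure on `H3` (LT, piece A1)
-/

set_option autoImplicit false

open Complex Matrix Topology MeasureTheory

open scoped ComplexConjugate ENNReal

noncomputable section

namespace Fermat.LT.H3

/-- the measure `dz dt / t³` on `ℂ × ℝ` -/
def nu : Measure (ℂ × ℝ) :=
  (volume : Measure (ℂ × ℝ)).withDensity fun p => ENNReal.ofReal (p.2⁻¹ ^ 3)

/-- the inclusion `H3 → ℂ × ℝ` -/
def val (P : H3) : ℂ × ℝ := P.1

lemma val_eq (P : H3) : val P = (P.z, P.t) := rfl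

lemma val_injective : Function.Injective val := Subtype.val_injective

lemma range_val : Set.range val = set := Subtype.range_coe

lemma measurableSet_set : MeasurableSet set := isOpen_set.measurableSet

lemma measurableEmbedding_val : MeasurableEmbedding val :=
  MeasurableEmbedding.subtype_coe measurableSet_set

lemma isOpenEmbedding_val : IsOpenEmbedding val := isOpen_set.isOpenEmbedding_subtypeVal

lemma volume_def : (volume : Measure H3) = nu.comap val := rfl

lemma volume_apply (A : Set H3) : volume A = nu (val '' A) := by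
  rw [volume_def, measurableEmbedding_val.comap_apply]

lemma measurable_density : Measurable fun p : ℂ × ℝ => ENNReal.ofReal (p.2⁻¹ ^ 3) :=
  ENNReal.measurable_ofReal.comp ((measurable_snd.inv).pow_const 3)

lemma nu_apply {S : Set (ℂ × ℝ)} (hS : MeasurableSet S) :
    nu S = ∫⁻ p in S, ENNReal.ofReal (p.2⁻¹ ^ 3) := withDensity_apply _ hS

lemma map_val : (volume : Measure H3).map val = nu.restrict set := by
  rw [volume_def, measurableEmbedding_val.map_comap, range_val]

/-- change of variables criterion -/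
theorem measurePreserving_of_deriv (φ : H3 ≃ₜ H3) (f : ℂ × ℝ → ℂ × ℝ)
    (f' : ℂ × ℝ → (ℂ × ℝ →L[ℝ] ℂ × ℝ)) (hf : ∀ P : H3, f (val P) = val (φ P))
    (hf' : ∀ P : H3, HasFDerivAt f (f' (val P)) (val P))
    (hdet : ∀ P : H3, |(f' (val P)).det| = ((φ P).t / P.t) ^ 3) :
    MeasurePreserving φ (volume : Measure H3) volume := by
  refine ⟨φ.measurable, ?_⟩
  ext A hA
  rw [Measure.map_apply φ.measurable hA, volume_apply, volume_apply]
  set S : Set (ℂ × ℝ) := val '' (φ ⁻¹' A) with hS
  have hSm : MeasurableSet S :=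
    measurableEmbedding_val.measurableSet_image.2 (φ.measurable hA)
  have hAm : MeasurableSet (val '' A) := measurableEmbedding_val.measurableSet_image.2 hA
  have himg : f '' S = val '' A := by
    ext p
    constructor
    · rintro ⟨_, ⟨P, hP, rfl⟩, rfl⟩
      exact ⟨φ P, hP, (hf P).symm⟩
    · rintro ⟨P, hP, rfl⟩
      refine ⟨val (φ.symm P), ⟨φ.symm P, ?_, rfl⟩, ?_⟩
      · simpa using hP
      · rw [hf, φ.apply_symm_apply]
  have hinj : Set.InjOn f S := by
    rintro _ ⟨P, _, rfl⟩ _ ⟨P', _, rfl⟩ h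
    rw [hf, hf] at h
    rw [φ.injective (val_injective h)]
  have : (volume : Measure (ℂ × ℝ)).IsAddHaarMeasure :=
    inferInstanceAs ((volume : Measure ℂ).prod (volume : Measure ℝ)).IsAddHaarMeasure
  rw [nu_apply hSm, nu_apply hAm, ← himg,
    lintegral_image_eq_lintegral_abs_det_fderiv_mul volume hSm
      (f' := f') (fun p hp => by
        obtain ⟨P, _, rfl⟩ := hp
        exact (hf' P).hasFDerivWithinAt) hinj]
  apply setLIntegral_congr_fun hSm
  rintro _ ⟨P, _, rfl⟩
  simp only
  rw [hdet, hf, ← ENNReal.ofReal_mul (by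
    have h1 := P.t_pos
    have h2 := (φ P).t_pos
    positivity)]
  congr 1
  have h1 := P.t_ne_zero
  have h2 := (φ P).t_ne_zero
  change P.t⁻¹ ^ 3 = ((φ P).t / P.t) ^ 3 * (φ P).t⁻¹ ^ 3
  field_simp

lemma det_mul_complex (c : ℂ) :
    LinearMap.det ((ContinuousLinearMap.mul ℝ ℂ c : ℂ →L[ℝ] ℂ) : ℂ →ₗ[ℝ] ℂ) = ‖c‖ ^ 2 := by
  rw [← normSq_eq_norm_sq, ← Algebra.norm_complex_apply, Algebra.norm_apply]
  rfl

theorem measurePreserving_upper (g : GL (Fin 2) ℂ) (hg : g 1 0 = 0) :
    MeasurePreserving (smulHomeo g) (volume : Measure H3) volume := by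
  obtain ⟨ha, hd⟩ := upper_ne_zero g hg
  set c : ℂ := g 0 0 / g 1 1 with hc
  set L : ℂ × ℝ →L[ℝ] ℂ × ℝ :=
    (ContinuousLinearMap.mul ℝ ℂ c).prodMap (‖c‖ • ContinuousLinearMap.id ℝ ℝ) with hL
  apply measurePreserving_of_deriv (smulHomeo g) (fun p => L p + (g 0 1 / g 1 1, 0)) (fun _ => L)
  · intro P
    change _ = val (g • P)
    rw [val_eq, val_eq, smul_z_of_upper g hg, smul_t_of_upper g hg]
    have h1 : L (P.z, P.t) = (c * P.z, ‖c‖ * P.t) := rfl
    rw [h1, Prod.mk_add_mk, add_zero, hc, norm_div]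
    congr 1
    ring
  · intro P
    exact L.hasFDerivAt.add_const _
  · intro P
    change _ = ((g • P).t / P.t) ^ 3
    rw [smul_t_of_upper g hg, mul_div_assoc, div_self P.t_ne_zero, mul_one, ← norm_div, ← hc]
    have : L.det = ‖c‖ ^ 2 * ‖c‖ := by
      rw [ContinuousLinearMap.det]
      have h1 : (L : ℂ × ℝ →ₗ[ℝ] ℂ × ℝ) =
          LinearMap.prodMap ((ContinuousLinearMap.mul ℝ ℂ c : ℂ →L[ℝ] ℂ) : ℂ →ₗ[ℝ] ℂ)
            (‖c‖ • LinearMap.id) := rfl
      rw [h1, LinearMap.det_prodMap, det_mul_complex, LinearMap.det_smul, LinearMap.det_id]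
      simp
    rw [this, abs_of_nonneg (by positivity)]
    ring

/-- conjugation on the first factor -/
def conjMap : ℂ × ℝ →L[ℝ] ℂ × ℝ :=
  (conjCLE : ℂ →L[ℝ] ℂ).prodMap (ContinuousLinearMap.id ℝ ℝ)

lemma det_conjMap : |LinearMap.det (conjMap : ℂ × ℝ →ₗ[ℝ] ℂ × ℝ)| = 1 := by
  have h1 : (conjMap : ℂ × ℝ →ₗ[ℝ] ℂ × ℝ) ∘ₗ (conjMap : ℂ × ℝ →ₗ[ℝ] ℂ × ℝ) = LinearMap.id := by
    apply LinearMap.ext
    intro p
    simp [conjMap]
  have h2 := congrArg LinearMap.det h1
  rw [LinearMap.det_comp, LinearMap.det_id] at h2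
  have h3 := congrArg abs h2
  rw [abs_mul, abs_one] at h3
  nlinarith [abs_nonneg (LinearMap.det (conjMap : ℂ × ℝ →ₗ[ℝ] ℂ × ℝ))]

/-- `|z|² + t²` on `ℂ × ℝ` -/
def sq (p : ℂ × ℝ) : ℝ := ‖p.1‖ ^ 2 + p.2 ^ 2

/-- the derivative of `sq` -/
def dsq (p : ℂ × ℝ) : ℂ × ℝ →L[ℝ] ℝ :=
  (2 : ℝ) • ((innerSL ℝ p.1).comp (ContinuousLinearMap.fst ℝ ℂ ℝ)) +
    (2 * p.2) • ContinuousLinearMap.snd ℝ ℂ ℝ

lemma hasFDerivAt_sq (p : ℂ × ℝ) : HasFDerivAt sq (dsq p) p := by
  unfold sq dsq
  apply HasFDerivAt.add
  · have := (hasFDerivAt_fst (𝕜 := ℝ) (p := p)).norm_sq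
    simpa [two_smul] using this
  · have := (hasFDerivAt_snd (𝕜 := ℝ) (p := p)).pow 2
    simpa using this

lemma dsq_self (p : ℂ × ℝ) : dsq p p = 2 * sq p := by
  simp only [dsq, sq, _root_.add_apply, _root_.smul_apply,
    ContinuousLinearMap.comp_apply, ContinuousLinearMap.coe_fst', ContinuousLinearMap.coe_snd',
    innerSL_apply_apply, real_inner_self_eq_norm_sq, smul_eq_mul]
  ring

theorem measurePreserving_w : MeasurePreserving (smulHomeo w) (volume : Measure H3) volume := by
  have hsq : ∀ P : H3, sq (val P) = nn P := by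
    intro P
    rw [sq, nn, normSq_eq_norm_sq]; rfl
  apply measurePreserving_of_deriv (smulHomeo w) (fun p => (sq p)⁻¹ • conjMap p)
    (fun p => (sq p)⁻¹ • conjMap + (-((sq p) ^ 2)⁻¹ • dsq p).smulRight (conjMap p))
  · intro P
    change _ = val (w • P)
    rw [val_eq (w • P), smul_z_w, smul_t_w, hsq]
    have : conjMap (val P) = (conj P.z, P.t) := rfl
    rw [this, Prod.smul_mk]
    congr 1
    · rw [real_smul]; push_cast; ring
    · rw [smul_eq_mul]; ring
  · intro P
    have h0 : sq (val P) ≠ 0 := by rw [hsq]; exact (nn_pos P).ne'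
    have h1 : HasFDerivAt (fun p => (sq p)⁻¹) (-((sq (val P)) ^ 2)⁻¹ • dsq (val P)) (val P) :=
      (hasDerivAt_inv h0).comp_hasFDerivAt (val P) (hasFDerivAt_sq (val P))
    exact h1.smul (conjMap.hasFDerivAt)
  · intro P
    change _ = ((w • P).t / P.t) ^ 3
    have hN : sq (val P) ≠ 0 := by rw [hsq]; exact (nn_pos P).ne'
    have hNpos : 0 < sq (val P) := by rw [hsq]; exact nn_pos P
    rw [smul_t_w, ← hsq, div_div_cancel_left' P.t_ne_zero]
    set p := val P
    have h1 : (((sq p)⁻¹ • conjMap + (-((sq p) ^ 2)⁻¹ • dsq p).smulRight (conjMap p) :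
        ℂ × ℝ →L[ℝ] ℂ × ℝ) : ℂ × ℝ →ₗ[ℝ] ℂ × ℝ) =
        (conjMap : ℂ × ℝ →ₗ[ℝ] ℂ × ℝ) ∘ₗ ((sq p)⁻¹ •
          LinearMap.transvection (-(sq p)⁻¹ • (dsq p : ℂ × ℝ →ₗ[ℝ] ℝ)) p) := by
      apply LinearMap.ext
      intro h
      simp only [ContinuousLinearMap.coe_coe, _root_.add_apply,
        _root_.smul_apply, ContinuousLinearMap.smulRight_apply,
        LinearMap.comp_apply, LinearMap.smul_apply, LinearMap.transvection.apply, map_add,
        map_smul]
      rw [smul_add, smul_smul]
      congr 2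
      simp only [smul_eq_mul]
      field_simp
    rw [ContinuousLinearMap.det, h1, LinearMap.det_comp, LinearMap.det_smul,
      LinearMap.transvection.det, abs_mul, det_conjMap, one_mul]
    have h2 : 1 + (-(sq p)⁻¹ • (dsq p : ℂ × ℝ →ₗ[ℝ] ℝ)) p = -1 := by
      rw [LinearMap.smul_apply, ContinuousLinearMap.coe_coe, dsq_self, smul_eq_mul]
      field_simp
      ring
    have h3 : Module.finrank ℝ (ℂ × ℝ) = 3 := by
      rw [Module.finrank_prod, Complex.finrank_real_complex, Module.finrank_self]
    rw [h2, h3, abs_mul, abs_neg, abs_one, mul_one, abs_of_nonneg (by positivity)]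

/-- **Invariance** of the hyperbolic volume. -/
theorem measurePreserving_smul' (g : GL (Fin 2) ℂ) :
    MeasurePreserving (fun P : H3 => g • P) (volume : Measure H3) volume := by
  revert g
  apply gl_induction (p := fun g : GL (Fin 2) ℂ =>
    MeasurePreserving (fun P : H3 => g • P) (volume : Measure H3) volume)
  · intro g h hg hh
    have := hg.comp hh
    have e : ((fun P : H3 => g • P) ∘ fun P : H3 => h • P) = fun P : H3 => (g * h) • P := by
      funext P; exact (mul_smul g h P).symm
    rwa [e] at this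
  · intro g hg; exact measurePreserving_upper g hg
  · exact measurePreserving_w

instance : SMulInvariantMeasure (GL (Fin 2) ℂ) H3 volume where
  measure_preimage_smul g _ hs := (measurePreserving_smul' g).measure_preimage hs.nullMeasurableSet

lemma measurable_val : Measurable val := measurable_subtype_coe

instance : IsFiniteMeasureOnCompacts (volume : Measure H3) where
  lt_top_of_isCompact := by
    intro K hK
    rw [volume_apply]
    have hc : IsCompact (val '' K) := hK.image isOpenEmbedding_val.continuous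
    rw [nu_apply hc.measurableSet]
    have h0 : ContinuousOn (fun p : ℂ × ℝ => p.2⁻¹ ^ 3) (val '' K) := by
      apply ContinuousOn.pow
      apply ContinuousOn.inv₀ continuous_snd.continuousOn
      rintro _ ⟨P, _, rfl⟩
      exact P.t_ne_zero
    obtain ⟨C, hC⟩ := hc.exists_bound_of_continuousOn h0
    calc ∫⁻ p in val '' K, ENNReal.ofReal (p.2⁻¹ ^ 3)
        ≤ ∫⁻ _ in val '' K, ENNReal.ofReal C := by
          apply setLIntegral_mono measurable_const
          intro p hp
          exact ENNReal.ofReal_le_ofReal ((le_abs_self _).trans (hC p hp))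
      _ = ENNReal.ofReal C * volume (val '' K) := setLIntegral_const _ _
      _ < ⊤ := ENNReal.mul_lt_top ENNReal.ofReal_lt_top hc.measure_lt_top

instance : IsLocallyFiniteMeasure (volume : Measure H3) :=
  isLocallyFiniteMeasure_of_isFiniteMeasureOnCompacts

instance : SigmaFinite (volume : Measure H3) := inferInstance

lemma volume_eq_zero_iff {A : Set H3} (hA : MeasurableSet A) :
    volume A = 0 ↔ (volume : Measure (ℂ × ℝ)) (val '' A) = 0 := by
  have hAm : MeasurableSet (val '' A) := measurableEmbedding_val.measurableSet_image.2 hA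
  rw [volume_apply, nu, withDensity_apply_eq_zero measurable_density]
  have : {p : ℂ × ℝ | ENNReal.ofReal (p.2⁻¹ ^ 3) ≠ 0} ∩ val '' A = val '' A := by
    apply Set.inter_eq_right.2
    rintro _ ⟨P, _, rfl⟩
    simp only [Set.mem_ofPred_eq, ne_eq, ENNReal.ofReal_eq_zero, not_le]
    exact pow_pos (inv_pos.2 P.t_pos) 3
  rw [this]

instance : (volume : Measure H3).IsOpenPosMeasure where
  open_pos := by
    intro U hU hne h
    rw [volume_eq_zero_iff hU.measurableSet] at h
    have h1 : IsOpen (val '' U) := isOpenEmbedding_val.isOpenMap U hU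
    exact (h1.measure_pos volume (hne.image _)).ne' h

/-- the fixed points of a non-scalar matrix form a null set -/
theorem volume_fixed (g : GL (Fin 2) ℂ) (hg : ¬ (g 0 1 = 0 ∧ g 1 0 = 0 ∧ g 0 0 = g 1 1)) :
    volume {P : H3 | g • P = P} = 0 := by
  have hcl : IsClosed {P : H3 | g • P = P} :=
    isClosed_eq (smulHomeo g).continuous continuous_id
  rw [volume_eq_zero_iff hcl.measurableSet]
  by_cases hc : g 1 0 = 0
  · -- a vertical line
    obtain ⟨ha, hd⟩ := upper_ne_zero g hc
    by_cases had : g 0 0 = g 1 1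
    · have : {P : H3 | g • P = P} = ∅ := by
        ext P
        simp only [Set.mem_ofPred_eq, Set.mem_empty_iff_false, iff_false]
        intro h
        have h1 := congrArg H3.z h
        rw [smul_z_of_upper g hc, div_eq_iff hd, had] at h1
        apply hg
        refine ⟨?_, hc, had⟩
        linear_combination h1
      rw [this]; simp
    · have hsub : val '' {P : H3 | g • P = P} ⊆ {g 0 1 / (g 1 1 - g 0 0)} ×ˢ Set.univ := by
        rintro _ ⟨P, hP, rfl⟩
        simp only [Set.mem_prod, Set.mem_univ, and_true, Set.mem_singleton_iff]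
        have h1 := congrArg H3.z hP
        rw [smul_z_of_upper g hc, div_eq_iff hd] at h1
        change P.z = _
        rw [eq_div_iff (sub_ne_zero.2 (Ne.symm had))]
        linear_combination -h1
      refine measure_mono_null hsub ?_
      have : (volume : Measure (ℂ × ℝ)) = (volume : Measure ℂ).prod (volume : Measure ℝ) := rfl
      rw [this, Measure.prod_prod]
      simp
  · -- a hemisphere
    set N : ℝ := ‖g.det.1‖ with hN
    set T : Set (ℂ × ℝ) := {p | normSq (g 1 0 * p.1 + g 1 1) + normSq (g 1 0) * p.2 ^ 2 = N}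
      with hT
    have hsub : val '' {P : H3 | g • P = P} ⊆ T := by
      rintro _ ⟨P, hP, rfl⟩
      have h1 := congrArg H3.t hP
      rw [smul_t, div_eq_iff (den_pos g P).ne'] at h1
      rw [hT, Set.mem_ofPred_eq]
      change normSq (g 1 0 * P.z + g 1 1) + normSq (g 1 0) * P.t ^ 2 = N
      have h2 : den g P = N := by
        have := P.t_ne_zero
        apply mul_left_cancel₀ this
        rw [← h1, hN]
        exact mul_comm _ _
      rw [← h2]; rfl
    refine measure_mono_null hsub ?_
    have hTm : MeasurableSet T := by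
      have : IsClosed T := by
        apply isClosed_eq _ continuous_const
        fun_prop
      exact this.measurableSet
    have : (volume : Measure (ℂ × ℝ)) = (volume : Measure ℂ).prod (volume : Measure ℝ) := rfl
    rw [this, Measure.measure_prod_null hTm]
    refine Filter.Eventually.of_forall fun z => ?_
    apply Set.Finite.measure_zero
    have hc2 : normSq (g 1 0) ≠ 0 := fun h => hc (normSq_eq_zero.1 h)
    set u : ℝ := (N - normSq (g 1 0 * z + g 1 1)) / normSq (g 1 0) with hu
    apply (Set.toFinite {Real.sqrt u, - Real.sqrt u}).subset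
    intro t ht
    have h3 : normSq (g 1 0 * z + g 1 1) + normSq (g 1 0) * t ^ 2 = N := ht
    have h4 : t ^ 2 = u := by
      rw [hu, eq_div_iff hc2]; linarith
    simp only [Set.mem_insert_iff, Set.mem_singleton_iff]
    have h5 : Real.sqrt u = |t| := by rw [← h4, Real.sqrt_sq_eq_abs]
    rw [h5]
    rcases abs_choice t with h | h <;> rw [h] <;> simp

/-- The integral over `H3` in coordinates (Lebesgue version). -/
theorem lintegral_eq_set (f : ℂ × ℝ → ℝ≥0∞) (hf : Measurable f) :
    ∫⁻ P : H3, f (P.z, P.t) = ∫⁻ p in set, ENNReal.ofReal (p.2⁻¹ ^ 3) * f p := by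
  have h1 : ∫⁻ P : H3, f (P.z, P.t) = ∫⁻ P : H3, f (val P) := rfl
  rw [h1, ← measurableEmbedding_val.lintegral_map, map_val, nu,
    restrict_withDensity measurableSet_set, lintegral_withDensity_eq_lintegral_mul _
      measurable_density hf]
  rfl

theorem lintegral_eq (f : ℂ × ℝ → ℝ≥0∞) (hf : Measurable f) :
    ∫⁻ P : H3, f (P.z, P.t) =
      ∫⁻ t in Set.Ioi (0 : ℝ), ENNReal.ofReal (t⁻¹ ^ 3) * ∫⁻ z : ℂ, f (z, t) := by
  rw [lintegral_eq_set f hf]
  have hset : set = Set.univ ×ˢ Set.Ioi (0 : ℝ) := by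
    ext p; simp [set]
  have hv : (volume : Measure (ℂ × ℝ)) = (volume : Measure ℂ).prod (volume : Measure ℝ) := rfl
  rw [hset, hv, ← Measure.prod_restrict, Measure.restrict_univ,
    lintegral_prod_symm (fun p : ℂ × ℝ => ENNReal.ofReal (p.2⁻¹ ^ 3) * f p)
      (measurable_density.mul hf).aemeasurable]
  apply lintegral_congr
  intro t
  have : Measurable fun z : ℂ => f (z, t) := hf.comp (measurable_id.prodMk measurable_const)
  rw [← lintegral_const_mul _ this]

/-- The integral over `H3` in coordinates (Bochner version). -/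
theorem integral_eq_set {E : Type*} [NormedAddCommGroup E] [NormedSpace ℝ E]
    (f : ℂ × ℝ → E) :
    ∫ P : H3, f (P.z, P.t) = ∫ p in set, (p.2⁻¹ ^ 3) • f p := by
  have h1 : ∫ P : H3, f (P.z, P.t) = ∫ P : H3, f (val P) := rfl
  rw [h1, ← measurableEmbedding_val.integral_map, map_val, nu,
    restrict_withDensity measurableSet_set,
    integral_withDensity_eq_integral_toReal_smul measurable_density
      (Filter.Eventually.of_forall fun _ => ENNReal.ofReal_lt_top)]
  apply setIntegral_congr_fun measurableSet_set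
  intro p hp
  simp only
  rw [ENNReal.toReal_ofReal (by
    have : 0 < p.2 := hp
    positivity)]

theorem integrable_iff_set {E : Type*} [NormedAddCommGroup E] [NormedSpace ℝ E]
    (f : ℂ × ℝ → E) :
    Integrable (fun P : H3 => f (P.z, P.t)) ↔
      IntegrableOn (fun p => (p.2⁻¹ ^ 3) • f p) set := by
  have h1 : (fun P : H3 => f (P.z, P.t)) = f ∘ val := rfl
  rw [h1, ← measurableEmbedding_val.integrable_map_iff, map_val, nu,
    restrict_withDensity measurableSet_set,
    integrable_withDensity_iff_integrable_smul' measurable_density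
      (Filter.Eventually.of_forall fun _ => ENNReal.ofReal_lt_top)]
  apply integrableOn_congr_fun _ measurableSet_set
  intro p hp
  simp only
  rw [ENNReal.toReal_ofReal (by
    have : 0 < p.2 := hp
    positivity)]

theorem integral_eq {E : Type*} [NormedAddCommGroup E] [NormedSpace ℝ E]
    (f : ℂ × ℝ → E) (hf : Integrable (fun P : H3 => f (P.z, P.t))) :
    ∫ P : H3, f (P.z, P.t) = ∫ t in Set.Ioi (0 : ℝ), (t⁻¹ ^ 3) • ∫ z : ℂ, f (z, t) := by
  rw [integral_eq_set f]
  rw [integrable_iff_set] at hf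
  have hset : set = Set.univ ×ˢ Set.Ioi (0 : ℝ) := by
    ext p; simp [set]
  have hv : (volume : Measure (ℂ × ℝ)) = (volume : Measure ℂ).prod (volume : Measure ℝ) := rfl
  rw [IntegrableOn, hset, hv, ← Measure.prod_restrict, Measure.restrict_univ] at hf
  rw [hset, hv, ← Measure.prod_restrict, Measure.restrict_univ, integral_prod_symm _ hf]
  apply integral_congr_ae
  refine Filter.Eventually.of_forall fun t => ?_
  simp only
  rw [integral_smul]

end Fermat.LT.H3
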