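import Fermat.Agent.LT.Defs
import Fermat.Agent.LT.A.H3Meas

/-!
# LT, piece A: archimedean lemmas

* `H3.exists_norm_bound` / `XI.exists_norm_bound`: if `g` maps a point of the compact set `C` to the
  compact set `C'` then `|g_{ab}|² ≤ B |det g|` (input of proper discontinuity);
* the product measure on `XI A` is invariant, finite on compacts, positive on opens;
* the actions on `XI A` are continuous;
* fixed points of a nontrivial element of `PG F` on `XI A` form a null set.
-/

open NumberField IsDedekindDomain Matrix MeasureTheory Topology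

namespace Fermat.LT

namespace H3

open Complex

/-- the forms of the points of a compact set are uniformly comparable to the standard form -/
theorem exists_Q_bounds {C : Set H3} (hC : IsCompact C) : ∃ m M : ℝ, 0 < m ∧ 0 < M ∧
    ∀ P ∈ C, ∀ x y : ℂ, m * (normSq x + normSq y) ≤ P.Q x y ∧
      P.Q x y ≤ M * (normSq x + normSq y) := by
  rcases C.eq_empty_or_nonempty with rfl | hne
  · exact ⟨1, 1, one_pos, one_pos, by simp⟩
  obtain ⟨P₀, hP₀, h₀⟩ := hC.exists_isMinOn hne continuous_t.continuousOn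
  obtain ⟨P₁, hP₁, h₁⟩ := hC.exists_isMaxOn hne continuous_t.continuousOn
  obtain ⟨R, hR⟩ := hC.exists_bound_of_continuousOn continuous_z.continuousOn
  have ht0 := P₀.t_pos
  have ht1 := P₁.t_pos
  set t₀ := P₀.t with ht0d
  set t₁ := P₁.t with ht1d
  have hb : ∀ P ∈ C, t₀ ≤ P.t ∧ P.t ≤ t₁ ∧ normSq P.z ≤ R ^ 2 := by
    intro P hP
    refine ⟨h₀ hP, h₁ hP, ?_⟩
    rw [normSq_eq_norm_sq]
    exact pow_le_pow_left₀ (norm_nonneg _) (hR P hP) 2
  set K : ℝ := max 2 ((2 * R ^ 2 + 1) / t₀ ^ 2) with hK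
  have hK2 : 2 ≤ K := le_max_left _ _
  have hK3 : (2 * R ^ 2 + 1) / t₀ ^ 2 ≤ K := le_max_right _ _
  have hKpos : 0 < K := by linarith
  have tri : ∀ a b : ℂ, normSq (a + b) ≤ 2 * normSq a + 2 * normSq b := by
    intro a b
    simp only [normSq_apply, add_re, add_im]
    nlinarith [sq_nonneg (a.re - b.re), sq_nonneg (a.im - b.im)]
  refine ⟨1 / (K * t₁), (2 + (2 * R ^ 2 + t₁ ^ 2)) / t₀, by positivity, by positivity, ?_⟩
  intro P hP x y
  obtain ⟨b1, b2, b3⟩ := hb P hP
  have htP := P.t_pos
  have hx := normSq_nonneg x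
  have hy := normSq_nonneg y
  have hR2 : 0 ≤ R ^ 2 := sq_nonneg R
  constructor
  · have e1 : normSq x ≤ 2 * normSq (x - P.z * y) + 2 * (R ^ 2 * normSq y) := by
      have := tri (x - P.z * y) (P.z * y)
      rw [sub_add_cancel, normSq_mul] at this
      nlinarith
    have e2 : (2 * R ^ 2 + 1) * normSq y ≤ K * (P.t ^ 2 * normSq y) := by
      rw [div_le_iff₀ (by positivity)] at hK3
      have : t₀ ^ 2 ≤ P.t ^ 2 := pow_le_pow_left₀ ht0.le b1 2
      nlinarith [mul_le_mul_of_nonneg_left this hKpos.le]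
    have e3 : normSq x + normSq y ≤ K * (normSq (x - P.z * y) + P.t ^ 2 * normSq y) := by
      nlinarith [normSq_nonneg (x - P.z * y)]
    have e4 : (normSq (x - P.z * y) + P.t ^ 2 * normSq y) = P.t * P.Q x y := by
      rw [Q]; field_simp
    rw [div_mul_eq_mul_div, one_mul, div_le_iff₀ (by positivity)]
    rw [e4] at e3
    have e5 : K * (P.t * P.Q x y) ≤ K * (t₁ * P.Q x y) :=
      mul_le_mul_of_nonneg_left (mul_le_mul_of_nonneg_right b2 (P.Q_nonneg x y)) hKpos.le
    linarith
  · rw [Q, div_le_iff₀ htP]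
    have e1 : normSq (x - P.z * y) ≤ 2 * normSq x + 2 * (R ^ 2 * normSq y) := by
      have := tri x (-(P.z * y))
      rw [← sub_eq_add_neg, normSq_neg, normSq_mul] at this
      nlinarith
    have e2 : P.t ^ 2 * normSq y ≤ t₁ ^ 2 * normSq y :=
      mul_le_mul_of_nonneg_right (pow_le_pow_left₀ htP.le b2 2) hy
    have e3 : normSq (x - P.z * y) + P.t ^ 2 * normSq y ≤
        (2 + (2 * R ^ 2 + t₁ ^ 2)) * (normSq x + normSq y) := by
      nlinarith [sq_nonneg t₁, mul_nonneg hR2 hx, mul_nonneg (sq_nonneg t₁) hx]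
    refine e3.trans ?_
    have e4 : (2 + (2 * R ^ 2 + t₁ ^ 2)) * (normSq x + normSq y) =
        (2 + (2 * R ^ 2 + t₁ ^ 2)) / t₀ * (normSq x + normSq y) * t₀ := by
      field_simp
    rw [e4]
    exact mul_le_mul_of_nonneg_left b1 (by positivity)

/-- archimedean input of proper discontinuity -/
theorem exists_norm_bound {C C' : Set H3} (hC : IsCompact C) (hC' : IsCompact C') :
    ∃ B : ℝ, 0 < B ∧ ∀ (g : GL (Fin 2) ℂ), ∀ P ∈ C, g • P ∈ C' → ∀ a b,
      ‖g a b‖ ^ 2 ≤ B * ‖(g : Matrix (Fin 2) (Fin 2) ℂ).det‖ := by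
  obtain ⟨m, M, hm, hM, h⟩ := exists_Q_bounds hC
  obtain ⟨m', M', hm', hM', h'⟩ := exists_Q_bounds hC'
  refine ⟨M / m', by positivity, ?_⟩
  intro g P hP hgP a b
  have key : ∀ x y : ℂ, normSq x + normSq y ≤ 1 →
      normSq (g 0 0 * x + g 0 1 * y) + normSq (g 1 0 * x + g 1 1 * y) ≤
        M / m' * ‖(g : Matrix (Fin 2) (Fin 2) ℂ).det‖ := by
    intro x y hxy
    have e1 := (h' _ hgP (g 0 0 * x + g 0 1 * y) (g 1 0 * x + g 1 1 * y)).1
    rw [Q_smul_apply] at e1
    have e2 := (h _ hP x y).2
    have e3 : ‖(g : Matrix (Fin 2) (Fin 2) ℂ).det‖ * P.Q x y ≤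
        ‖(g : Matrix (Fin 2) (Fin 2) ℂ).det‖ * M := by
      apply mul_le_mul_of_nonneg_left _ (norm_nonneg _)
      refine e2.trans ?_
      nlinarith
    have e4 := e1.trans e3
    rw [← le_div_iff₀' hm'] at e4
    refine e4.trans (le_of_eq ?_)
    ring
  have k1 := key 1 0 (by simp)
  have k2 := key 0 1 (by simp)
  simp only [mul_one, mul_zero, add_zero, zero_add] at k1 k2
  have n1 := normSq_nonneg (g 0 0)
  have n2 := normSq_nonneg (g 0 1)
  have n3 := normSq_nonneg (g 1 0)
  have n4 := normSq_nonneg (g 1 1)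
  rw [← normSq_eq_norm_sq]
  fin_cases a <;> fin_cases b <;> simp only [Fin.zero_eta, Fin.mk_one, Fin.isValue] <;> linarith

end H3

section XI

variable {F : Type} [Field F] [NumberField F] {A : Arch F}

theorem map_emb_apply (i : A.I) (g : G2 F) (a b : Fin 2) :
    (Matrix.GeneralLinearGroup.map (n := Fin 2) (A.emb i) g) a b = A.emb i (g a b) := rfl

theorem det_map_emb (i : A.I) (g : G2 F) :
    ((Matrix.GeneralLinearGroup.map (n := Fin 2) (A.emb i) g : G2 ℂ) :
      Matrix (Fin 2) (Fin 2) ℂ).det = A.emb i (g : Matrix (Fin 2) (Fin 2) F).det := by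
  rw [Matrix.det_fin_two, Matrix.det_fin_two]
  simp only [map_emb_apply, map_sub, map_mul]

/-- archimedean input of proper discontinuity, for `XI` -/
theorem XI.exists_norm_bound {C C' : Set (XI A)} (hC : IsCompact C) (hC' : IsCompact C') :
    ∃ B : ℝ, 0 < B ∧ ∀ (g : G2 F), ∀ x ∈ C, g • x ∈ C' → ∀ i a b,
      ‖A.emb i (g a b)‖ ^ 2 ≤ B * ‖A.emb i (g : Matrix (Fin 2) (Fin 2) F).det‖ := by
  have hcont : ∀ i : A.I, Continuous fun x : XI A => x i := fun i => continuous_apply i
  have h1 : ∀ i : A.I, ∃ B : ℝ, 0 < B ∧ ∀ (g : G2 F), ∀ x ∈ C, g • x ∈ C' → ∀ a b,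
      ‖A.emb i (g a b)‖ ^ 2 ≤ B * ‖A.emb i (g : Matrix (Fin 2) (Fin 2) F).det‖ := by
    intro i
    obtain ⟨B, hB, h⟩ := H3.exists_norm_bound (hC.image (hcont i)) (hC'.image (hcont i))
    refine ⟨B, hB, ?_⟩
    intro g x hx hgx a b
    have := h (Matrix.GeneralLinearGroup.map (n := Fin 2) (A.emb i) g) (x i)
      (Set.mem_image_of_mem _ hx) ⟨g • x, hgx, rfl⟩ a b
    rwa [det_map_emb] at this
  choose B hB h using h1
  refine ⟨1 + ∑ i, B i, ?_, ?_⟩
  · have : 0 ≤ ∑ i, B i := Finset.sum_nonneg fun i _ => (hB i).le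
    linarith
  · intro g x hx hgx i a b
    refine (h i g x hx hgx a b).trans ?_
    apply mul_le_mul_of_nonneg_right _ (norm_nonneg _)
    have : B i ≤ ∑ i, B i := Finset.single_le_sum (f := B) (fun i _ => (hB i).le) (Finset.mem_univ i)
    linarith

noncomputable instance : IsFiniteMeasureOnCompacts (volume : Measure (XI A)) where
  lt_top_of_isCompact := by
    intro K hK
    have hcont : ∀ i : A.I, Continuous fun x : XI A => x i := fun i => continuous_apply i
    have hsub : K ⊆ Set.univ.pi fun i : A.I => (fun x : XI A => x i) '' K := by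
      intro x hx i _
      exact Set.mem_image_of_mem _ hx
    refine (measure_mono hsub).trans_lt ?_
    have : (volume : Measure (XI A)) = Measure.pi fun _ : A.I => (volume : Measure H3) := rfl
    rw [this]
    erw [Measure.pi_pi]
    exact ENNReal.prod_lt_top fun i _ => (hK.image (hcont i)).measure_lt_top

instance : IsLocallyFiniteMeasure (volume : Measure (XI A)) :=
  isLocallyFiniteMeasure_of_isFiniteMeasureOnCompacts

instance : SigmaFinite (volume : Measure (XI A)) :=
  inferInstanceAs (SigmaFinite (Measure.pi fun _ : A.I => (volume : Measure H3)))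

instance : (volume : Measure (XI A)).IsOpenPosMeasure :=
  inferInstanceAs (Measure.pi fun _ : A.I => (volume : Measure H3)).IsOpenPosMeasure

instance : ContinuousConstSMul (G2 F) (XI A) where
  continuous_const_smul g := by
    apply continuous_pi
    intro i
    exact (continuous_const_smul (Matrix.GeneralLinearGroup.map (n := Fin 2) (A.emb i) g)).comp
      (continuous_apply i)

instance : ContinuousConstSMul (PG F) (XI A) where
  continuous_const_smul g := by
    obtain ⟨g, rfl⟩ := Matrix.ProjGenLinGroup.mk_surjective g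
    exact continuous_const_smul (T := XI A) g

theorem XI.measurePreserving_smul (g : G2 F) :
    MeasurePreserving (fun x : XI A => g • x) volume volume :=
  measurePreserving_pi (fun _ : A.I => (volume : Measure H3)) (fun _ => volume)
    fun i => H3.measurePreserving_smul' (Matrix.GeneralLinearGroup.map (n := Fin 2) (A.emb i) g)

instance : SMulInvariantMeasure (G2 F) (XI A) volume where
  measure_preimage_smul g _ hs :=
    (XI.measurePreserving_smul g).measure_preimage hs.nullMeasurableSet

instance : SMulInvariantMeasure (PG F) (XI A) volume where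
  measure_preimage_smul g _ hs := by
    obtain ⟨g, rfl⟩ := Matrix.ProjGenLinGroup.mk_surjective g
    exact (XI.measurePreserving_smul g).measure_preimage hs.nullMeasurableSet

theorem Arch.nonempty_I (A : Arch F) : Nonempty A.I := by
  obtain ⟨v⟩ := (inferInstance : Nonempty (InfinitePlace F))
  obtain ⟨i, _⟩ := A.bij.2 v
  exact ⟨i⟩

/-- the fixed points of a nontrivial element of `PGL₂(F)` form a null set -/
theorem XI.volume_fixed {g : PG F} (hg : g ≠ 1) : volume {x : XI A | g • x = x} = 0 := by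
  obtain ⟨g, rfl⟩ := Matrix.ProjGenLinGroup.mk_surjective g
  obtain ⟨i⟩ := A.nonempty_I
  set gi := Matrix.GeneralLinearGroup.map (n := Fin 2) (A.emb i) g with hgi
  have hgi2 : ¬ (gi 0 1 = 0 ∧ gi 1 0 = 0 ∧ gi 0 0 = gi 1 1) := by
    rintro ⟨h1, h2, h3⟩
    rw [hgi, map_emb_apply, map_eq_zero] at h1 h2
    rw [hgi, map_emb_apply, map_emb_apply] at h3
    have h3' := (A.emb i).injective h3
    apply hg
    have hne : g 0 0 ≠ 0 := by
      intro h0
      have hdet : (g : Matrix (Fin 2) (Fin 2) F).det ≠ 0 := g.det_ne_zero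
      apply hdet
      rw [Matrix.det_fin_two, h0, h1]; ring
    have hc : g ∈ Subgroup.center (G2 F) := by
      refine (mem_scal_iff g).mpr ⟨Units.mk0 _ hne, ?_⟩
      ext a b
      fin_cases a <;> fin_cases b
      · simp [Matrix.scalar_apply]
      · simpa [Matrix.scalar_apply] using h1
      · simpa [Matrix.scalar_apply] using h2
      · simpa [Matrix.scalar_apply] using h3'.symm
    exact (QuotientGroup.eq_one_iff g).2 hc
  have h0 := H3.volume_fixed gi hgi2
  have hsub : {x : XI A | Matrix.ProjGenLinGroup.mk g • x = x} ⊆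
      Function.eval i ⁻¹' {P : H3 | gi • P = P} := by
    intro x hx
    exact congrFun (show Matrix.ProjGenLinGroup.mk g • x = x from hx) i
  refine measure_mono_null hsub ?_
  exact Measure.pi_eval_preimage_null (fun _ : A.I => (volume : Measure H3)) h0

end XI

end Fermat.LT
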