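import Fermat.Agent.LT.A.Borel

/-!
# LT, piece A: heights with respect to `e1, e2`, the diagonal torus, and field extensions
-/

open NumberField IsDedekindDomain Matrix

namespace Fermat.LT

section
variable {F : Type} [Field F]

/-- the vector `(0,1)` (cusp `0`) -/
def e2 : Fin 2 → F := ![0, 1]

theorem e2_ne : (e2 : Fin 2 → F) ≠ 0 := by
  intro h
  have := congrFun h 1
  simp [e2] at this

/-- `diag(α, δ)` -/
def dd (α δ : Fˣ) : G2 F := Matrix.GeneralLinearGroup.mkOfDetNeZero !![(α : F), 0; 0, (δ : F)]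
  (by simp)

theorem dd_val (α δ : Fˣ) : (dd α δ).1 = !![(α : F), 0; 0, (δ : F)] := rfl

theorem dd_mulVec_e1 (α δ : Fˣ) : (dd α δ).1 *ᵥ (e1 : Fin 2 → F) = (α : F) • e1 := by
  ext j; fin_cases j <;> simp [dd_val, e1]

theorem dd_mulVec_e2 (α δ : Fˣ) : (dd α δ).1 *ᵥ (e2 : Fin 2 → F) = (δ : F) • e2 := by
  ext j; fin_cases j <;> simp [dd_val, e2]

theorem dd_det (α δ : Fˣ) : (dd α δ).1.det = α * δ := by
  rw [dd_val, Matrix.det_fin_two_of]; ring

theorem dg_eq_dd (a : Fˣ) : dg a = dd a 1 := by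
  ext i j; fin_cases i <;> fin_cases j <;> rfl

end

variable {F : Type} [Field F] [NumberField F] {U : Level F}

/-- `h_∞` under the diagonal torus. -/
theorem hY_e1_dd (w : Pl F) (α δ : Fˣ) (y : Yl U w) :
    hY w e1 (dd α δ • y) = av w (α : F) * (av w (δ : F))⁻¹ * hY w e1 y := by
  have h1 := hY_equiv w (dd α δ) (e1 : Fin 2 → F) y
  rw [dd_mulVec_e1, hY_smul, dd_det, map_mul] at h1
  have hα := (av w).pos α.ne_zero
  have hδ := (av w).pos δ.ne_zero
  calc hY w e1 (dd α δ • y) = av w (α : F) ^ 2 * ((av w (α : F) ^ 2)⁻¹ * hY w e1 (dd α δ • y)) := by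
        field_simp
    _ = _ := by rw [h1]; field_simp

theorem hY_e2_dd (w : Pl F) (α δ : Fˣ) (y : Yl U w) :
    hY w e2 (dd α δ • y) = av w (δ : F) * (av w (α : F))⁻¹ * hY w e2 y := by
  have h1 := hY_equiv w (dd α δ) (e2 : Fin 2 → F) y
  rw [dd_mulVec_e2, hY_smul, dd_det, map_mul] at h1
  have hα := (av w).pos α.ne_zero
  have hδ := (av w).pos δ.ne_zero
  calc hY w e2 (dd α δ • y) = av w (δ : F) ^ 2 * ((av w (δ : F) ^ 2)⁻¹ * hY w e2 (dd α δ • y)) := by
        field_simp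
    _ = _ := by rw [h1]; field_simp

/-- `h_∞ h_0` is invariant under the diagonal torus -/
theorem hY_mul_dd (w : Pl F) (α δ : Fˣ) (y : Yl U w) :
    hY w e1 (dd α δ • y) * hY w e2 (dd α δ • y) = hY w e1 y * hY w e2 y := by
  rw [hY_e1_dd, hY_e2_dd]
  have hα := (av w).pos α.ne_zero
  have hδ := (av w).pos δ.ne_zero
  field_simp

theorem nv_mulVec_intGL (w : Pl F) {k : G2 F} (hk : k ∈ intGL w) (v : Fin 2 → F) :
    nv w (k.1 *ᵥ v) = nv w v := by
  have h1 := nv_mulVec_of_mem w (intGL_le_stdH w hk) v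
  have h2 : nm w k.1 = 1 := by
    apply le_antisymm hk.1
    have h3 := nm_mul_inv_ge w k
    have h4 := hk.2
    have h5 := nm_nonneg w k.1
    nlinarith
  rw [h1, h2, one_mul]

theorem av_det_of_mem_intGL (w : Pl F) {k : G2 F} (hk : k ∈ intGL w) : av w k.1.det = 1 := by
  have h1 := av_det_of_mem w (intGL_le_stdH w hk)
  have h2 : nm w k.1 = 1 := by
    apply le_antisymm hk.1
    have h3 := nm_mul_inv_ge w k
    have h4 := hk.2
    have h5 := nm_nonneg w k.1
    nlinarith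
  rw [h1, h2, one_pow]

theorem hloc_e1_iwasawa (w : Pl F) (a : Fˣ) (b : F) {k : G2 F} (hk : k ∈ intGL w) :
    hloc w e1 (un b * dg a * k) = av w (a : F) := by
  have ha := (av w).pos a.ne_zero
  have h1 : ((un b * dg a * k)⁻¹).1 *ᵥ (e1 : Fin 2 → F) =
      ((a : F)⁻¹) • ((k⁻¹).1 *ᵥ e1) := by
    have : (un b * dg a * k)⁻¹ = k⁻¹ * (dg a⁻¹ * un (-b)) := by
      rw [un_neg, ← dg_inv]; group
    rw [this, Units.val_mul, ← Matrix.mulVec_mulVec, Units.val_mul, ← Matrix.mulVec_mulVec]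
    have e1' : (un (-b)).1 *ᵥ (e1 : Fin 2 → F) = e1 := by
      ext j; fin_cases j <;> simp [un, e1, Matrix.GeneralLinearGroup.mkOfDetNeZero]
    have e2' : (dg a⁻¹).1 *ᵥ (e1 : Fin 2 → F) = (a : F)⁻¹ • e1 := by
      ext j; fin_cases j <;> simp [dg, e1, Matrix.GeneralLinearGroup.mkOfDetNeZero]
    rw [e1', e2', Matrix.mulVec_smul]
  have h2 : nv w (e1 : Fin 2 → F) = 1 := by simp [nv, e1]
  have h3 : (un b * dg a * k).1.det = a * k.1.det := by
    rw [Units.val_mul, Units.val_mul, Matrix.det_mul, Matrix.det_mul]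
    simp [un, dg, Matrix.GeneralLinearGroup.mkOfDetNeZero]
  rw [hloc, h1, nv_smul, nv_mulVec_intGL w (inv_mem hk), h2, h3, map_mul, av_det_of_mem_intGL w hk,
    map_inv₀]
  field_simp

theorem hloc_e2_iwasawa (w : Pl F) (a : Fˣ) (b : F) {k : G2 F} (hk : k ∈ intGL w) :
    hloc w e2 (un b * dg a * k) = (av w (a : F))⁻¹ * ((max (av w (b / a)) 1) ^ 2)⁻¹ := by
  have ha := (av w).pos a.ne_zero
  have h1 : ((un b * dg a * k)⁻¹).1 *ᵥ (e2 : Fin 2 → F) = (k⁻¹).1 *ᵥ ![-(b / a), 1] := by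
    have : (un b * dg a * k)⁻¹ = k⁻¹ * (dg a⁻¹ * un (-b)) := by
      rw [un_neg, ← dg_inv]; group
    rw [this, Units.val_mul, ← Matrix.mulVec_mulVec, Units.val_mul, ← Matrix.mulVec_mulVec]
    congr 1
    have hu : (un (-b)).1 *ᵥ (e2 : Fin 2 → F) = ![-b, 1] := by
      have : (un (-b)).1 = !![1, -b; 0, 1] := rfl
      rw [this]
      ext j; fin_cases j <;> simp [e2]
    have hd : (dg a⁻¹).1 *ᵥ ![-b, 1] = ![-(b / (a : F)), 1] := by
      have : (dg a⁻¹).1 = !![((a⁻¹ : Fˣ) : F), 0; 0, 1] := rfl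
      rw [this]
      ext j; fin_cases j
      · simp; field_simp
      · simp
    rw [hu, hd]
  have h2 : nv w ![-(b / (a : F)), 1] = max (av w (b / a)) 1 := by
    simp [nv, (av w).map_neg]
  have h3 : (un b * dg a * k).1.det = a * k.1.det := by
    rw [Units.val_mul, Units.val_mul, Matrix.det_mul, Matrix.det_mul]
    simp [un, dg, Matrix.GeneralLinearGroup.mkOfDetNeZero]
  rw [hloc, h1, nv_mulVec_intGL w (inv_mem hk), h2, h3, map_mul, av_det_of_mem_intGL w hk, mul_one]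

/-- `h_∞ h_0 = 1` exactly on the axis (the orbit of the diagonal torus). -/
theorem hY_axis (w : Pl F) (y : Yl U w) :
    hY w e1 y * hY w e2 y = 1 ↔ ∃ a : Fˣ, ∃ k ∈ intGL w, ((dg a * k : G2 F) : Yl U w) = y := by
  constructor
  · intro h
    obtain ⟨g, rfl⟩ := QuotientGroup.mk_surjective y
    obtain ⟨c, a, b, k, hk, hg⟩ := iwasawa w g
    have hgy : ((g : G2 F) : Yl U w) = ((un b * dg a * k : G2 F) : Yl U w) := by
      symm
      rw [QuotientGroup.eq, hg, sc_comm, ← mul_assoc, inv_mul_cancel, one_mul]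
      exact U.scal_le w (sc_mem c)
    change hY w e1 ((g : G2 F) : Yl U w) * hY w e2 ((g : G2 F) : Yl U w) = 1 at h
    rw [hgy, hY_mk, hY_mk, hloc_e1_iwasawa w a b hk, hloc_e2_iwasawa w a b hk, ← mul_assoc,
      mul_inv_cancel₀ ((av w).ne_zero a.ne_zero), one_mul, inv_eq_one] at h
    have h1 : max (av w (b / a)) 1 = 1 :=
      (pow_eq_one_iff_of_nonneg (le_max_of_le_right zero_le_one) two_ne_zero).mp h
    have h2 : av w (b / a) ≤ 1 := by rw [← h1]; exact le_max_left _ _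
    refine ⟨a, un (b / a) * k, mul_mem ?_ hk, ?_⟩
    · have := un_mem_congGL w 0 (b := b / a) (by simpa using h2)
      rwa [congGL_zero] at this
    · rw [hgy, ← mul_assoc, dg_mul_un]
      congr 3
      field_simp
  · rintro ⟨a, k, hk, rfl⟩
    have h1 : ((dg a * k : G2 F) : Yl U w) = ((un 0 * dg a * k : G2 F) : Yl U w) := by
      rw [un_zero, one_mul]
    rw [h1, hY_mk, hY_mk, hloc_e1_iwasawa w a 0 hk, hloc_e2_iwasawa w a 0 hk, zero_div, map_zero]
    have := (av w).ne_zero a.ne_zero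
    simp

/-- `h_∞ h_0 ≤ 1` locally -/
theorem hY_mul_le_one (w : Pl F) (y : Yl U w) : hY w e1 y * hY w e2 y ≤ 1 := by
  obtain ⟨g, rfl⟩ := QuotientGroup.mk_surjective y
  have h := hloc_mul_hloc_le w (v := (e1 : Fin 2 → F)) (v' := e2) (by simp [dt, e1, e2]) g
  have h1 : dt (e1 : Fin 2 → F) e2 = 1 := by simp [dt, e1, e2]
  rw [h1, map_one, one_pow, inv_one] at h
  exact h

section ext

variable {K L : Type} [Field K] [NumberField K] [Field L] [NumberField L] (φ : K →+* L)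
  {v : Pl K} {w : Pl L} {m : ℕ} (hm : m ≠ 0) (h : ∀ x : K, av w (φ x) = av v x ^ m)

include h

omit h in
theorem pow_max' {a b : ℝ} (ha : 0 ≤ a) (hb : 0 ≤ b) (m : ℕ) : max a b ^ m = max (a ^ m) (b ^ m) := by
  rcases le_total a b with hab | hab
  · rw [max_eq_right hab, max_eq_right (pow_le_pow_left₀ ha hab m)]
  · rw [max_eq_left hab, max_eq_left (pow_le_pow_left₀ hb hab m)]

theorem nv_map (u : Fin 2 → K) : nv w (fun i => φ (u i)) = nv v u ^ m := by
  rw [nv, nv, h, h, pow_max' ((av v).nonneg _) ((av v).nonneg _)]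

theorem nm_map (g : Matrix (Fin 2) (Fin 2) K) : nm w (g.map φ) = nm v g ^ m := by
  rw [nm, nm, pow_max' (le_max_of_le_left ((av v).nonneg _)) (le_max_of_le_left ((av v).nonneg _)),
    pow_max' ((av v).nonneg _) ((av v).nonneg _), pow_max' ((av v).nonneg _) ((av v).nonneg _)]
  simp only [Matrix.map_apply, h]

theorem hloc_map (u : Fin 2 → K) (g : G2 K) :
    hloc w (fun i => φ (u i)) (Matrix.GeneralLinearGroup.map (n := Fin 2) φ g) =
      hloc v u g ^ m := by
  have e1 : (Matrix.GeneralLinearGroup.map (n := Fin 2) φ g).1.det = φ g.1.det := by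
    have : (Matrix.GeneralLinearGroup.map (n := Fin 2) φ g).1 = φ.mapMatrix g.1 := rfl
    rw [this, RingHom.map_det]
  have e2 : ((Matrix.GeneralLinearGroup.map (n := Fin 2) φ g)⁻¹).1 *ᵥ (fun i => φ (u i)) =
      fun i => φ (((g⁻¹).1 *ᵥ u) i) := by
    rw [← map_inv]
    have : (Matrix.GeneralLinearGroup.map (n := Fin 2) φ g⁻¹).1 = (g⁻¹).1.map φ := rfl
    rw [this]
    funext i
    rw [Matrix.mulVec, Matrix.mulVec, dotProduct, dotProduct, Fin.sum_univ_two, Fin.sum_univ_two,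
      map_add, map_mul, map_mul]
    rfl
  rw [hloc, hloc, e1, e2, h, nv_map φ h, mul_pow, inv_pow, inv_pow, ← pow_mul, ← pow_mul,
    mul_comm m 2]

end ext

end Fermat.LT
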