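import Fermat.Agent.LT.Defs

/-!
# LT, piece A: heights

`ht (c • v) = ht v`, `ht (γ v) (γ x) = ht v x`, `ht v x * ht v' x ≤ 1` for independent `v, v'`.
-/

open NumberField IsDedekindDomain Matrix

namespace Fermat.LT

variable {F : Type} [Field F] [NumberField F]

/-- product formula -/
theorem prod_formula (A : Arch F) {x : F} (hx : x ≠ 0) :
    (∏ i, ‖A.emb i x‖ ^ 2) * ∏ᶠ w : Pl F, av w x = 1 := by
  rw [← finprod_av hx]
  congr 1
  have h := Fintype.prod_equiv (Equiv.ofBijective _ A.bij)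
    (fun i => ‖A.emb i x‖ ^ 2) (fun v : InfinitePlace F => v x ^ v.mult) (by
      intro i
      have h1 : (InfinitePlace.mk (A.emb i)).mult = 2 := by
        rw [InfinitePlace.mult, if_neg]
        rw [InfinitePlace.not_isReal_iff_isComplex, InfinitePlace.isComplex_mk_iff]
        exact A.cx i
      simp only [Equiv.ofBijective_apply, h1, InfinitePlace.apply])
  exact h

omit [NumberField F] in
theorem inv_mulVec_ne {v : Fin 2 → F} (hv : v ≠ 0) (g : G2 F) : (g⁻¹).1 *ᵥ v ≠ 0 := by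
  intro h
  apply hv
  have := congrArg (fun u => g.1 *ᵥ u) h
  simp only [Matrix.mulVec_mulVec, ← Units.val_mul, mul_inv_cancel, Units.val_one, one_mulVec,
    Matrix.mulVec_zero] at this
  exact this

omit [NumberField F] in
theorem mulVec_ne {v : Fin 2 → F} (hv : v ≠ 0) (g : G2 F) : g.1 *ᵥ v ≠ 0 := by
  have := inv_mulVec_ne hv g⁻¹
  rwa [inv_inv] at this

theorem hloc_pos (w : Pl F) {v : Fin 2 → F} (hv : v ≠ 0) (g : G2 F) : 0 < hloc w v g := by
  have h1 : 0 < av w g.1.det :=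
    (av w).pos ((Matrix.isUnit_iff_isUnit_det _).mp g.isUnit).ne_zero
  have h2 : (g⁻¹).1 *ᵥ v ≠ 0 := inv_mulVec_ne hv g
  have h3 := nv_pos w h2
  rw [hloc]; positivity

theorem hY_pos {U : Level F} (w : Pl F) {v : Fin 2 → F} (hv : v ≠ 0) (y : Yl U w) :
    0 < hY w v y := by
  obtain ⟨g, rfl⟩ := QuotientGroup.mk_surjective y
  exact hloc_pos w hv g

theorem nv_finite {v : Fin 2 → F} (hv : v ≠ 0) : {w : Pl F | nv w v ≠ 1}.Finite := by
  have key : ∀ x : F, {w : Pl F | 1 < av w x}.Finite := by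
    intro x
    by_cases hx : x = 0
    · have : {w : Pl F | 1 < av w x} = ∅ := by
        ext w; simp [hx]
      rw [this]; exact Set.finite_empty
    · exact (av_finite hx).subset fun w hw => (ne_of_gt hw)
  obtain ⟨i, hi⟩ := Function.ne_iff.mp hv
  refine (((key (v 0)).union (key (v 1))).union (av_finite hi)).subset ?_
  intro w hw
  by_contra hc
  simp only [Set.mem_union, Set.mem_ofPred_eq, not_or, not_lt, not_not] at hc
  apply hw
  apply le_antisymm
  · rw [nv_le_iff]; intro j; fin_cases j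
    exacts [hc.1.1, hc.1.2]
  · rw [← hc.2]; exact av_le_nv w v i

theorem hY_finite {U : Level F} {v : Fin 2 → F} (hv : v ≠ 0) (y : Y U) :
    {w : Pl F | hY w v (y w) ≠ 1}.Finite := by
  refine (y.fin.union (nv_finite hv)).subset ?_
  intro w hw
  by_contra hc
  simp only [Set.mem_union, Set.mem_ofPred_eq, not_or, not_not] at hc
  apply hw
  rw [hc.1, hY_mk, hloc]
  simp [hc.2]

theorem hfin_eq_prod {U : Level F} {v : Fin 2 → F} (y : Y U) {S : Finset (Pl F)}
    (hS : ∀ w, w ∉ S → hY w v (y w) = 1) : hfin v y = ∏ w ∈ S, hY w v (y w) := by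
  rw [hfin]
  apply finprod_eq_prod_of_mulSupport_subset
  intro w hw
  by_contra hc
  exact hw (hS w hc)

theorem hfin_pos {U : Level F} {v : Fin 2 → F} (hv : v ≠ 0) (y : Y U) : 0 < hfin v y := by
  classical
  have hf := hY_finite hv y
  rw [hfin_eq_prod (S := hf.toFinset) y (fun w hw => by simpa using hw)]
  exact Finset.prod_pos fun w _ => hY_pos w hv _

theorem hinf_pos {A : Arch F} {v : Fin 2 → F} (hv : v ≠ 0) (x : XI A) : 0 < hinf v x := by
  refine Finset.prod_pos fun i _ => ?_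
  have : 0 < (x i).Q (A.emb i (v 0)) (A.emb i (v 1)) := by
    apply H3.Q_pos
    by_contra hc
    simp only [ne_eq, map_eq_zero, not_or, not_not] at hc
    apply hv
    ext j; fin_cases j
    exacts [hc.1, hc.2]
  positivity

theorem ht_pos {D : Datum F} {v : Fin 2 → F} (hv : v ≠ 0) (x : X D) : 0 < ht v x :=
  mul_pos (hinf_pos hv _) (hfin_pos hv _)

theorem hY_smul {U : Level F} (w : Pl F) (c : F) (v : Fin 2 → F) (y : Yl U w) :
    hY w (c • v) y = (av w c ^ 2)⁻¹ * hY w v y := by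
  obtain ⟨g, rfl⟩ := QuotientGroup.mk_surjective y
  exact hloc_smul w c v g

theorem hY_equiv {U : Level F} (w : Pl F) (γ : G2 F) (v : Fin 2 → F) (y : Yl U w) :
    hY w (γ.1 *ᵥ v) (γ • y) = (av w γ.1.det)⁻¹ * hY w v y := by
  obtain ⟨g, rfl⟩ := QuotientGroup.mk_surjective y
  exact hloc_smul_smul w v γ g

/-- `ht (c v) = ht v` -/
theorem ht_smul {D : Datum F} {c : F} (hc : c ≠ 0) {v : Fin 2 → F} (hv : v ≠ 0) (x : X D) :
    ht (c • v) x = ht v x := by
  have h1 : hinf (c • v) x.1 = ((∏ i, (‖D.emb i c‖ ^ 2)) ^ 2)⁻¹ * hinf v x.1 := by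
    rw [hinf, hinf, ← Finset.prod_pow, ← Finset.prod_inv_distrib, ← Finset.prod_mul_distrib]
    refine Finset.prod_congr rfl fun i _ => ?_
    rw [Pi.smul_apply, Pi.smul_apply, smul_eq_mul, smul_eq_mul, map_mul, map_mul, H3.Q_smul,
      Complex.normSq_eq_norm_sq, mul_pow, mul_inv]
  have h2 : hfin (c • v) x.2 = ((∏ᶠ w : Pl F, av w c) ^ 2)⁻¹ * hfin v x.2 := by
    have e0 : (∏ᶠ w : Pl F, av w c) ^ 2 = ∏ᶠ w : Pl F, av w c ^ 2 :=
      finprod_pow (f := fun w : Pl F => av w c) (av_finite hc) 2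
    rw [hfin, hfin, e0, ← finprod_inv_distrib, ← finprod_mul_distrib]
    · refine finprod_congr fun w => ?_
      rw [hY_smul]
    · refine (av_finite hc).subset fun w hw h => hw ?_
      change (av w c ^ 2)⁻¹ = 1
      rw [h, one_pow, inv_one]
    · exact hY_finite hv x.2
  rw [ht, h1, h2, ht]
  have h3 := prod_formula D.toArch hc
  calc _ = (((∏ i, (‖D.emb i c‖ ^ 2)) * ∏ᶠ w : Pl F, av w c) ^ 2)⁻¹ * (hinf v x.1 * hfin v x.2) := by
        rw [mul_pow, mul_inv]; ring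
    _ = _ := by rw [h3]; simp

/-- equivariance of the height -/
theorem ht_equiv {D : Datum F} (γ : G2 F) {v : Fin 2 → F} (hv : v ≠ 0) (x : X D) :
    ht (γ.1 *ᵥ v) (γ • x) = ht v x := by
  have hd : γ.1.det ≠ 0 := ((Matrix.isUnit_iff_isUnit_det _).mp γ.isUnit).ne_zero
  have h1 : hinf (γ.1 *ᵥ v) (γ • x).1 = (∏ i, (‖D.emb i γ.1.det‖ ^ 2))⁻¹ * hinf v x.1 := by
    rw [hinf, hinf, ← Finset.prod_inv_distrib, ← Finset.prod_mul_distrib]
    refine Finset.prod_congr rfl fun i _ => ?_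
    have e1 : (γ • x).1 i = (Matrix.GeneralLinearGroup.map (n := Fin 2) (D.emb i) γ) • (x.1 i) := rfl
    have e2 : ∀ a b, (Matrix.GeneralLinearGroup.map (n := Fin 2) (D.emb i) γ) a b
        = D.emb i (γ.1 a b) := fun a b => rfl
    have e3 := H3.Q_smul_apply (Matrix.GeneralLinearGroup.map (n := Fin 2) (D.emb i) γ) (x.1 i)
      (D.emb i (v 0)) (D.emb i (v 1))
    have e4 : ∀ a, D.emb i ((γ.1 *ᵥ v) a) = D.emb i (γ.1 a 0) * D.emb i (v 0)
        + D.emb i (γ.1 a 1) * D.emb i (v 1) := by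
      intro a
      rw [Matrix.mulVec, dotProduct, Fin.sum_univ_two, map_add, map_mul, map_mul]
    have e5 : ((Matrix.GeneralLinearGroup.map (n := Fin 2) (D.emb i) γ : G2 ℂ)
        : Matrix (Fin 2) (Fin 2) ℂ).det = D.emb i γ.1.det := by
      rw [Matrix.det_fin_two, Matrix.det_fin_two, e2, e2, e2, e2, map_sub, map_mul, map_mul]
    rw [e2, e2, e2, e2, e5] at e3
    rw [e1, e4, e4, e3, mul_pow, mul_inv]
  have h2 : hfin (γ.1 *ᵥ v) (γ • x).2 = (∏ᶠ w : Pl F, av w γ.1.det)⁻¹ * hfin v x.2 := by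
    rw [hfin, hfin, ← finprod_inv_distrib, ← finprod_mul_distrib]
    · refine finprod_congr fun w => ?_
      have e1 : (γ • x).2 w = γ • x.2 w := rfl
      rw [e1, hY_equiv]
    · refine (av_finite hd).subset fun w hw h => hw ?_
      change (av w γ.1.det)⁻¹ = 1
      rw [h, inv_one]
    · exact hY_finite hv x.2
  rw [ht, h1, h2, ht]
  have h3 := prod_formula D.toArch hd
  calc _ = ((∏ i, (‖D.emb i γ.1.det‖ ^ 2)) * ∏ᶠ w : Pl F, av w γ.1.det)⁻¹
        * (hinf v x.1 * hfin v x.2) := by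
        rw [mul_inv]; ring
    _ = _ := by rw [h3]; simp

/-- determinant of two vectors -/
def dt {R : Type} [CommRing R] (v v' : Fin 2 → R) : R := v 0 * v' 1 - v 1 * v' 0

omit [NumberField F] in
theorem dt_mulVec (g : Matrix (Fin 2) (Fin 2) F) (v v' : Fin 2 → F) :
    dt (g *ᵥ v) (g *ᵥ v') = g.det * dt v v' := by
  simp only [dt, Matrix.mulVec, dotProduct, Fin.sum_univ_two, Matrix.det_fin_two]
  ring

theorem av_dt_le (w : Pl F) (v v' : Fin 2 → F) : av w (dt v v') ≤ nv w v * nv w v' := by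
  rw [dt, sub_eq_add_neg]
  refine (av_add_le w _ _).trans ?_
  rw [(av w).map_neg, map_mul, map_mul]
  refine max_le ?_ ?_ <;>
  exact mul_le_mul (av_le_nv w _ _) (av_le_nv w _ _) ((av w).nonneg _) (nv_nonneg w _)

theorem hloc_mul_hloc_le (w : Pl F) {v v' : Fin 2 → F} (hd : dt v v' ≠ 0) (g : G2 F) :
    hloc w v g * hloc w v' g ≤ (av w (dt v v') ^ 2)⁻¹ := by
  have hv : v ≠ 0 := by rintro rfl; simp [dt] at hd
  have hv' : v' ≠ 0 := by rintro rfl; simp [dt] at hd
  have h1 := av_dt_le w ((g⁻¹).1 *ᵥ v) ((g⁻¹).1 *ᵥ v')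
  rw [dt_mulVec, map_mul] at h1
  have hg : 0 < av w g.1.det :=
    (av w).pos ((Matrix.isUnit_iff_isUnit_det _).mp g.isUnit).ne_zero
  have h3 : av w g.1.det * av w (g⁻¹).1.det = 1 := by
    rw [← map_mul, ← Matrix.det_mul, ← Units.val_mul, mul_inv_cancel, Units.val_one, det_one,
      map_one]
  have h5 : av w (g⁻¹).1.det = (av w g.1.det)⁻¹ := eq_inv_of_mul_eq_one_right h3
  rw [h5] at h1
  have p1 := nv_pos w (inv_mulVec_ne hv g)
  have p2 := nv_pos w (inv_mulVec_ne hv' g)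
  have p3 := (av w).pos hd
  rw [hloc, hloc]
  have e : (av w g.1.det)⁻¹ * ((nv w ((g⁻¹).1 *ᵥ v)) ^ 2)⁻¹ *
      ((av w g.1.det)⁻¹ * ((nv w ((g⁻¹).1 *ᵥ v')) ^ 2)⁻¹) =
      ((av w g.1.det * (nv w ((g⁻¹).1 *ᵥ v) * nv w ((g⁻¹).1 *ᵥ v'))) ^ 2)⁻¹ := by
    field_simp
  rw [e]
  apply inv_anti₀ (by positivity)
  apply pow_le_pow_left₀ p3.le
  calc av w (dt v v') = av w g.1.det * ((av w g.1.det)⁻¹ * av w (dt v v')) := by field_simp
    _ ≤ _ := mul_le_mul_of_nonneg_left h1 hg.le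

theorem H3.normSq_dt_le (P : H3) (x y x' y' : ℂ) :
    Complex.normSq (x * y' - y * x') ≤ P.Q x y * P.Q x' y' := by
  have ht := P.t_pos
  rw [H3.Q, H3.Q, div_mul_div_comm, le_div_iff₀ (by positivity)]
  set u := x - P.z * y
  set u' := x' - P.z * y'
  have e : x * y' - y * x' = u * y' - y * u' := by simp only [u, u']; ring
  rw [e]
  have key : ∀ a b c d : ℂ, ∀ t : ℝ, Complex.normSq (a * d - b * c) * (t * t) ≤
      (Complex.normSq a + t ^ 2 * Complex.normSq b) * (Complex.normSq c + t ^ 2 * Complex.normSq d) := by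
    intro a b c d t
    simp only [Complex.normSq_apply, Complex.sub_re, Complex.sub_im, Complex.mul_re, Complex.mul_im]
    nlinarith [sq_nonneg (a.re * c.re + a.im * c.im + t^2 * (b.re * d.re + b.im * d.im)),
      sq_nonneg (a.re * c.im - a.im * c.re + t^2 * (b.re * d.im - b.im * d.re))]
  exact key u y u' y' P.t

/-- **Separation**: `ht v x * ht v' x ≤ 1` for independent `v, v'`. -/
theorem ht_mul_ht_le {D : Datum F} {v v' : Fin 2 → F} (hd : dt v v' ≠ 0) (x : X D) :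
    ht v x * ht v' x ≤ 1 := by
  classical
  have hv : v ≠ 0 := by rintro rfl; simp [dt] at hd
  have hv' : v' ≠ 0 := by rintro rfl; simp [dt] at hd
  have h1 : hinf v x.1 * hinf v' x.1 ≤ ((∏ i, ‖D.emb i (dt v v')‖ ^ 2) ^ 2)⁻¹ := by
    rw [hinf, hinf, ← Finset.prod_mul_distrib, ← Finset.prod_pow, ← Finset.prod_inv_distrib]
    apply Finset.prod_le_prod
    · intro i _; positivity
    · intro i _
      rw [← mul_inv, ← mul_pow]
      have h := H3.normSq_dt_le (x.1 i) (D.emb i (v 0)) (D.emb i (v 1)) (D.emb i (v' 0))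
        (D.emb i (v' 1))
      rw [← map_mul, ← map_mul, ← map_sub, Complex.normSq_eq_norm_sq] at h
      have hp : 0 < ‖D.emb i (dt v v')‖ := norm_pos_iff.mpr ((map_ne_zero _).mpr hd)
      apply inv_anti₀ (by positivity)
      apply pow_le_pow_left₀ (by positivity)
      exact h
  have h2 : hfin v x.2 * hfin v' x.2 ≤ ((∏ᶠ w : Pl F, av w (dt v v')) ^ 2)⁻¹ := by
    set S := ((hY_finite hv x.2).union ((hY_finite hv' x.2).union (av_finite hd))).toFinset with hS
    have hSm : ∀ w, w ∉ S → hY w v (x.2 w) = 1 ∧ hY w v' (x.2 w) = 1 ∧ av w (dt v v') = 1 := by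
      intro w hw
      rw [hS, Set.Finite.mem_toFinset] at hw
      simpa only [Set.mem_union, Set.mem_ofPred_eq, not_or, not_not] using hw
    rw [hfin_eq_prod x.2 (fun w hw => (hSm w hw).1), hfin_eq_prod x.2 (fun w hw => (hSm w hw).2.1),
      finprod_eq_prod_of_mulSupport_subset (s := S) (fun w => av w (dt v v')) (by
        intro w hw; by_contra hc; exact hw (hSm w hc).2.2),
      ← Finset.prod_mul_distrib, ← Finset.prod_pow, ← Finset.prod_inv_distrib]
    apply Finset.prod_le_prod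
    · intro w _; exact (mul_pos (hY_pos w hv _) (hY_pos w hv' _)).le
    · intro w _
      obtain ⟨g, hg⟩ := QuotientGroup.mk_surjective (x.2 w)
      rw [← hg]
      exact hloc_mul_hloc_le w hd g
  have h3 := prod_formula D.toArch hd
  have hp1 : 0 < ∏ i, ‖D.emb i (dt v v')‖ ^ 2 :=
    Finset.prod_pos fun i _ => by
      have : 0 < ‖D.emb i (dt v v')‖ := norm_pos_iff.mpr ((map_ne_zero _).mpr hd)
      positivity
  calc ht v x * ht v' x = (hinf v x.1 * hinf v' x.1) * (hfin v x.2 * hfin v' x.2) := by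
        rw [ht, ht]; ring
    _ ≤ ((∏ i, ‖D.emb i (dt v v')‖ ^ 2) ^ 2)⁻¹ * ((∏ᶠ w : Pl F, av w (dt v v')) ^ 2)⁻¹ :=
        mul_le_mul h1 h2 (mul_pos (hfin_pos hv _) (hfin_pos hv' _)).le (by positivity)
    _ = (((∏ i, ‖D.emb i (dt v v')‖ ^ 2) * ∏ᶠ w : Pl F, av w (dt v v')) ^ 2)⁻¹ := by
        rw [mul_pow, mul_inv]
    _ = 1 := by rw [h3]; simp

end Fermat.LT
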