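import Fermat.Agent.LT.A.Val
import Fermat.Agent.LT.A.Height

/-!
# LT, piece A: finiteness of `B(F) \ Y`, stabilisers
-/

open NumberField IsDedekindDomain Matrix
open scoped WithZero nonZeroDivisors

namespace Fermat.LT

variable {F : Type} [Field F] [NumberField F]

omit [NumberField F] in
theorem dg_mul (a b : Fˣ) : dg (a * b) = dg a * dg b := by
  ext i j; fin_cases i <;> fin_cases j <;> simp [dg, Matrix.GeneralLinearGroup.mkOfDetNeZero]

omit [NumberField F] in
theorem dg_one : dg (1 : Fˣ) = 1 := by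
  ext i j; fin_cases i <;> fin_cases j <;> simp [dg, Matrix.GeneralLinearGroup.mkOfDetNeZero]

omit [NumberField F] in
theorem dg_inv (a : Fˣ) : (dg a)⁻¹ = dg a⁻¹ := by
  rw [inv_eq_iff_mul_eq_one, ← dg_mul, mul_inv_cancel, dg_one]

omit [NumberField F] in
theorem dg_mul_un (a : Fˣ) (b : F) : dg a * un b = un (a * b) * dg a := by
  ext i j; fin_cases i <;> fin_cases j <;> simp [dg, un, Matrix.GeneralLinearGroup.mkOfDetNeZero]

theorem nm_un_sub (w : Pl F) (b : F) : nm w ((un b).1 - 1) = av w b := by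
  have : (un b).1 - 1 = !![0, b; 0, 0] := by
    ext i j; fin_cases i <;> fin_cases j <;> simp [un, Matrix.GeneralLinearGroup.mkOfDetNeZero]
  rw [this]
  simp [nm, (av w).nonneg b]

theorem nm_dg_sub (w : Pl F) (a : Fˣ) : nm w ((dg a).1 - 1) = av w ((a : F) - 1) := by
  have : (dg a).1 - 1 = !![(a : F) - 1, 0; 0, 0] := by
    ext i j; fin_cases i <;> fin_cases j <;> simp [dg, Matrix.GeneralLinearGroup.mkOfDetNeZero]
  rw [this]
  simp [nm, (av w).nonneg ((a : F) - 1)]

theorem nm_le_of_sub (w : Pl F) (h : Matrix (Fin 2) (Fin 2) F) (hh : nm w (h - 1) ≤ 1) :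
    nm w h ≤ 1 := by
  have : h = (h - 1) + 1 := by simp
  rw [this]
  refine (nm_add_le w _ _).trans (max_le hh ?_)
  rw [nm_one]

theorem qpow_le_one (w : Pl F) (n : ℕ) : (qv w)⁻¹ ^ n ≤ 1 :=
  pow_le_one₀ (inv_nonneg.mpr (qv_pos w).le) (inv_le_one_of_one_le₀ (one_lt_qv w).le)

/-- conjugating an element close to `1` gives an element of `congGL`. -/
theorem conj_mem_congGL (w : Pl F) (n : ℕ) (g h : G2 F) (ε : ℝ)
    (hε : nm w (g⁻¹).1 * nm w g.1 * ε ≤ (qv w)⁻¹ ^ n)
    (h1 : nm w (h.1 - 1) ≤ ε) (h2 : nm w ((h⁻¹).1 - 1) ≤ ε) : g⁻¹ * h * g ∈ congGL w n := by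
  have key : ∀ h : G2 F, nm w (h.1 - 1) ≤ ε → nm w ((g⁻¹ * h * g).1 - 1) ≤ (qv w)⁻¹ ^ n := by
    intro h h1
    have : (g⁻¹ * h * g).1 - 1 = (g⁻¹).1 * (h.1 - 1) * g.1 := by
      rw [mul_sub, sub_mul, mul_one, ← Units.val_mul, ← Units.val_mul, ← Units.val_mul,
        inv_mul_cancel, Units.val_one]
    rw [this]
    refine (nm_mul_le w _ _).trans (le_trans ?_ hε)
    rw [mul_assoc, mul_comm (nm w g.1), ← mul_assoc]
    refine mul_le_mul_of_nonneg_right ?_ (nm_nonneg w _)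
    exact (nm_mul_le w _ _).trans (mul_le_mul_of_nonneg_left h1 (nm_nonneg w _))
  have e2 : (g⁻¹ * h * g)⁻¹ = g⁻¹ * h⁻¹ * g := by group
  refine ⟨⟨?_, ?_⟩, key h h1⟩
  · exact nm_le_of_sub w _ ((key h h1).trans (qpow_le_one w n))
  · rw [e2]; exact nm_le_of_sub w _ ((key h⁻¹ h2).trans (qpow_le_one w n))

/-- `congGL` is normal in `intGL` -/
theorem conj_mem_congGL' (w : Pl F) (n : ℕ) {k h : G2 F} (hk : k ∈ intGL w)
    (hh : h ∈ congGL w n) : k⁻¹ * h * k ∈ congGL w n := by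
  apply conj_mem_congGL w n k h ((qv w)⁻¹ ^ n) _ hh.2 (inv_mem hh).2
  have h0 : 0 ≤ (qv w)⁻¹ ^ n := pow_nonneg (inv_nonneg.mpr (qv_pos w).le) n
  exact mul_le_of_le_one_left h0 (mul_le_one₀ hk.2 (nm_nonneg w _) hk.1)

theorem un_mem_congGL (w : Pl F) (n : ℕ) {b : F} (hb : av w b ≤ (qv w)⁻¹ ^ n) :
    un b ∈ congGL w n := by
  have h := conj_mem_congGL w n 1 (un b) ((qv w)⁻¹ ^ n) (by simp [nm_one])
    (by rw [nm_un_sub]; exact hb) (by rw [← un_neg, nm_un_sub, (av w).map_neg]; exact hb)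
  simpa using h

theorem dg_mem_intGL (w : Pl F) {a : Fˣ} (ha : av w (a : F) = 1) : dg a ∈ intGL w := by
  have key : ∀ a : Fˣ, av w (a : F) = 1 → nm w (dg a).1 ≤ 1 := by
    intro a ha
    have : (dg a).1 = !![(a : F), 0; 0, 1] := rfl
    rw [this]; simp [nm, ha]
  refine ⟨key a ha, ?_⟩
  rw [dg_inv]
  apply key
  rw [Units.val_inv_eq_inv_val, map_inv₀, ha, inv_one]

/-- local Iwasawa decomposition -/
theorem iwasawa (w : Pl F) (g : G2 F) : ∃ (c a : Fˣ) (b : F) (k : G2 F), k ∈ intGL w ∧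
    g = sc c * (un b * dg a * k) := by
  -- find `m ∈ intGL` with `g m` upper triangular
  obtain ⟨m, hm, hgm⟩ : ∃ m : G2 F, m ∈ intGL w ∧ (g * m).1 1 0 = 0 := by
    have mint : ∀ m : G2 F, nm w m.1 ≤ 1 → av w m.1.det = 1 → m ∈ intGL w := by
      intro m h1 h2
      refine ⟨h1, ?_⟩
      have h3 : (m⁻¹).1 = (m.1.det)⁻¹ • m.1.adjugate := by
        rw [Matrix.coe_units_inv, Matrix.inv_def, Ring.inverse_eq_inv]
      rw [h3, nm_smul, map_inv₀, h2, inv_one, one_mul, nm_adjugate]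
      exact h1
    by_cases hle : av w (g.1 1 0) ≤ av w (g.1 1 1)
    · have hs : g.1 1 1 ≠ 0 := by
        intro h0
        rw [h0, map_zero] at hle
        have h1 : g.1 1 0 = 0 := by
          by_contra h; exact absurd ((av w).pos h) (not_lt.mpr hle)
        have h2 : g.1.det ≠ 0 := ((Matrix.isUnit_iff_isUnit_det _).mp g.isUnit).ne_zero
        rw [Matrix.det_fin_two, h0, h1] at h2
        simp at h2
      set t : F := g.1 1 0 / g.1 1 1 with ht
      have htle : av w t ≤ 1 := by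
        rw [ht, map_div₀]
        exact div_le_one_of_le₀ hle ((av w).nonneg _)
      refine ⟨Matrix.GeneralLinearGroup.mkOfDetNeZero !![1, 0; -t, 1] (by simp), ?_, ?_⟩
      · apply mint
        · change nm w !![1, 0; -t, 1] ≤ 1
          rw [nm_le_iff]; intro i j; fin_cases i <;> fin_cases j <;> simp [(av w).map_neg, htle]
        · change av w (!![1, 0; -t, 1] : Matrix (Fin 2) (Fin 2) F).det = 1
          simp
      · rw [Units.val_mul, Matrix.mul_apply, Fin.sum_univ_two]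
        change g.1 1 0 * 1 + g.1 1 1 * (-t) = 0
        rw [ht]; field_simp; ring
    · push Not at hle
      have hr : g.1 1 0 ≠ 0 := by
        intro h0
        rw [h0, map_zero] at hle
        exact absurd hle (not_lt.mpr ((av w).nonneg _))
      set t : F := g.1 1 1 / g.1 1 0 with ht
      have htle : av w t ≤ 1 := by
        rw [ht, map_div₀]
        exact div_le_one_of_le₀ hle.le ((av w).nonneg _)
      refine ⟨Matrix.GeneralLinearGroup.mkOfDetNeZero !![-t, 1; 1, 0] (by simp), ?_, ?_⟩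
      · apply mint
        · change nm w !![-t, 1; 1, 0] ≤ 1
          rw [nm_le_iff]; intro i j; fin_cases i <;> fin_cases j <;> simp [(av w).map_neg, htle]
        · change av w (!![-t, 1; 1, 0] : Matrix (Fin 2) (Fin 2) F).det = 1
          simp [(av w).map_neg]
      · rw [Units.val_mul, Matrix.mul_apply, Fin.sum_univ_two]
        change g.1 1 0 * (-t) + g.1 1 1 * 1 = 0
        rw [ht]; field_simp; ring
  set h : G2 F := g * m with hh
  have hdet : h.1.det ≠ 0 := ((Matrix.isUnit_iff_isUnit_det _).mp h.isUnit).ne_zero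
  rw [Matrix.det_fin_two, hgm, mul_zero, sub_zero] at hdet
  have hα : h.1 0 0 ≠ 0 := left_ne_zero_of_mul hdet
  have hδ : h.1 1 1 ≠ 0 := right_ne_zero_of_mul hdet
  refine ⟨Units.mk0 _ hδ, Units.mk0 (h.1 0 0 / h.1 1 1) (div_ne_zero hα hδ), h.1 0 1 / h.1 1 1,
    m⁻¹, inv_mem hm, ?_⟩
  have h2 : h = sc (Units.mk0 _ hδ) * (un (h.1 0 1 / h.1 1 1) *
      dg (Units.mk0 (h.1 0 0 / h.1 1 1) (div_ne_zero hα hδ))) := by
    apply Units.ext
    rw [sc_mul_val]
    ext i j
    fin_cases i <;> fin_cases j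
    · simp [un, dg, Matrix.GeneralLinearGroup.mkOfDetNeZero]
      field_simp
    · simp [un, dg, Matrix.GeneralLinearGroup.mkOfDetNeZero]
      field_simp
    · simp [un, dg, Matrix.GeneralLinearGroup.mkOfDetNeZero]
      exact hgm
    · simp [un, dg, Matrix.GeneralLinearGroup.mkOfDetNeZero]
  have h3 : g = h * m⁻¹ := by rw [hh, mul_inv_cancel_right]
  rw [h3]
  conv_lhs => rw [h2]
  group

/-- an element of `F` integral at all finite places is in `𝓞 F` -/
theorem exists_int_of_av_le {x : F} (hx : ∀ w : Pl F, av w x ≤ 1) : ∃ r : 𝓞 F, (r : F) = x := by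
  apply HeightOneSpectrum.mem_integers_of_valuation_le_one
  intro w
  by_contra h
  push Not at h
  have h1 := hx w
  have h3 : av w x = (WithZeroMulInt.toNNReal
      (NumberField.HeightOneSpectrum.absNorm_ne_zero w) (w.valuation F x) : ℝ) := rfl
  have h4 := WithZeroMulInt.toNNReal_strictMono
    (NumberField.HeightOneSpectrum.one_lt_absNorm_nnreal w) h
  rw [map_one] at h4
  rw [h3] at h1
  have h5 : (1 : ℝ) < (WithZeroMulInt.toNNReal
      (NumberField.HeightOneSpectrum.absNorm_ne_zero w) (w.valuation F x) : ℝ) := by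
    exact_mod_cast h4
  linarith

/-- reduction modulo `w^n` of `w`-integral elements of `F`. -/
theorem exists_residue (w : Pl F) (n : ℕ) : ∃ ρ : F → (𝓞 F ⧸ w.asIdeal ^ n),
    ∀ x x' : F, av w x ≤ 1 → av w x' ≤ 1 → ρ x = ρ x' → av w (x - x') ≤ (qv w)⁻¹ ^ n := by
  have h0 : 0 < (qv w)⁻¹ ^ n := pow_pos (inv_pos.mpr (qv_pos w)) n
  have h : ∀ x : F, ∃ r : 𝓞 F, av w x ≤ 1 → av w (x - r) ≤ (qv w)⁻¹ ^ n := by
    intro x
    by_cases hx : av w x ≤ 1
    · obtain ⟨y, hy1, hy2⟩ := strong_approx {w} (fun _ => x) (fun w' => (qv w')⁻¹ ^ n)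
        (fun w' => pow_pos (inv_pos.mpr (qv_pos w')) n)
      have hy3 := hy1 w (Finset.mem_singleton_self w)
      obtain ⟨r, hr⟩ := exists_int_of_av_le (x := y) (by
        intro w'
        by_cases hw' : w' ∈ ({w} : Finset (Pl F))
        · rw [Finset.mem_singleton] at hw'
          subst hw'
          have : y = (y - x) + x := by ring
          rw [this]
          exact (av_add_le _ _ _).trans (max_le (hy3.trans (qpow_le_one _ n)) hx)
        · exact hy2 w' hw')
      refine ⟨r, fun _ => ?_⟩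
      rw [hr, ← (av w).map_neg, neg_sub]
      exact hy3
    · exact ⟨0, fun h => absurd h hx⟩
  choose r hr using h
  refine ⟨fun x => Ideal.Quotient.mk _ (r x), fun x x' hx hx' heq => ?_⟩
  have h1 := Ideal.Quotient.eq.mp heq
  have h2 := (mem_pow_iff w _ _).mp h1
  have h3 : ((r x - r x' : 𝓞 F) : F) = (r x : F) - (r x' : F) := map_sub _ _ _
  rw [h3] at h2
  have h4 : x - x' = (x - r x) + ((r x : F) - r x') + -(x' - r x') := by ring
  rw [h4]
  refine (av_add_le w _ _).trans (max_le ((av_add_le w _ _).trans (max_le (hr x hx) h2)) ?_)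
  rw [(av w).map_neg]; exact hr x' hx'

/-- the image of `intGL w` in `GL₂(F)/congGL w n` is finite -/
theorem finite_intGL (w : Pl F) (n : ℕ) :
    ((fun g : G2 F => (g : G2 F ⧸ congGL w n)) '' (intGL w : Set (G2 F))).Finite := by
  obtain ⟨ρ, hρ⟩ := exists_residue w n
  have hfin : Finite (𝓞 F ⧸ w.asIdeal ^ n) :=
    Ideal.finiteQuotientOfFreeOfNeBot _ (pow_ne_zero n w.ne_bot)
  set f : G2 F → (Fin 2 → Fin 2 → (𝓞 F ⧸ w.asIdeal ^ n)) := fun g i j => ρ (g.1 i j) with hf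
  have key : ∀ k k' : G2 F, k ∈ intGL w → k' ∈ intGL w → f k = f k' →
      (k : G2 F ⧸ congGL w n) = (k' : G2 F ⧸ congGL w n) := by
    intro k k' hk hk' heq
    rw [QuotientGroup.eq]
    have hent : ∀ i j, av w (k'.1 i j - k.1 i j) ≤ (qv w)⁻¹ ^ n := by
      intro i j
      exact hρ _ _ ((av_le_nm w _ i j).trans hk'.1) ((av_le_nm w _ i j).trans hk.1)
        (congrFun (congrFun heq i) j).symm
    have h1 : nm w (k'.1 - k.1) ≤ (qv w)⁻¹ ^ n := by
      rw [nm_le_iff]; exact hent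
    refine ⟨mul_mem (inv_mem hk) hk', ?_⟩
    have h2 : (k⁻¹ * k').1 - 1 = (k⁻¹).1 * (k'.1 - k.1) := by
      rw [mul_sub, ← Units.val_mul, ← Units.val_mul, inv_mul_cancel, Units.val_one]
    rw [h2]
    refine (nm_mul_le w _ _).trans ?_
    exact (mul_le_of_le_one_left (nm_nonneg w _) hk.2).trans h1
  have h2 : (f '' (intGL w : Set (G2 F))).Finite := Set.toFinite _
  classical
  refine Set.Finite.of_surjOn (s := f '' (intGL w : Set (G2 F)))
    (fun c => if h : ∃ k ∈ intGL w, f k = c then ((h.choose : G2 F) : G2 F ⧸ congGL w n)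
      else ((1 : G2 F) : G2 F ⧸ congGL w n)) ?_ h2
  rintro _ ⟨k, hk, rfl⟩
  refine ⟨f k, ⟨k, hk, rfl⟩, ?_⟩
  have hex : ∃ k' ∈ intGL w, f k' = f k := ⟨k, hk, rfl⟩
  simp only [dif_pos hex]
  exact key _ _ hex.choose_spec.1 hk hex.choose_spec.2

theorem finite_intGL_Yl (U : Level F) (w : Pl F) :
    {y : Yl U w | ∃ k ∈ intGL w, (k : Yl U w) = y}.Finite := by
  have h := finite_intGL w (U.n w)
  set φ : G2 F ⧸ congGL w (U.n w) → Yl U w := Quotient.map' id (by
    intro a b hab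
    rw [QuotientGroup.leftRel_apply] at hab ⊢
    exact U.cong_le w hab) with hφ
  refine (h.image φ).subset ?_
  rintro _ ⟨k, hk, rfl⟩
  exact ⟨_, ⟨k, hk, rfl⟩, rfl⟩

/-- local classes -/
def Lset (U : Level F) (β : Pl F → Fˣ) (w : Pl F) : Set (Yl U w) :=
  {y | ∃ k ∈ intGL w, ((dg (β w) * k : G2 F) : Yl U w) = y}

theorem Lset_finite (U : Level F) (β : Pl F → Fˣ) (w : Pl F) : (Lset U β w).Finite := by
  refine ((finite_intGL_Yl U w).image (fun y => dg (β w) • y)).subset ?_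
  rintro _ ⟨k, hk, rfl⟩
  exact ⟨(k : Yl U w), ⟨k, hk, rfl⟩, rfl⟩

/-- global classes -/
def Zset (U : Level F) (β : Pl F → Fˣ) (S0 : Finset (Pl F)) : Set (Y U) :=
  {y | (∀ w ∈ S0, y w ∈ Lset U β w) ∧ ∀ w ∉ S0, y w = ((dg (β w) : G2 F) : Yl U w)}

theorem Zset_finite (U : Level F) (β : Pl F → Fˣ) (S0 : Finset (Pl F)) :
    (Zset U β S0).Finite := by
  have h1 : {z : (w : S0) → Yl U w.1 | ∀ w, z w ∈ Lset U β w.1}.Finite :=
    Set.Finite.pi' fun w => Lset_finite U β w.1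
  refine Set.Finite.of_finite_image (f := fun y : Y U => fun w : S0 => y w.1) (h1.subset ?_) ?_
  · rintro _ ⟨y, hy, rfl⟩
    intro w
    exact hy.1 w.1 w.2
  · intro y hy z hz hyz
    apply Y.ext'
    intro w
    by_cases hw : w ∈ S0
    · exact congrFun hyz ⟨w, hw⟩
    · rw [hy.2 w hw, hz.2 w hw]

/-- **Finiteness of `B(F) \ Y`.** -/
theorem borel_finite (U : Level F) : ∃ S : Finset (Y U), ∀ y : Y U, ∃ (a : Fˣ) (b : F),
    (un b * dg a) • y ∈ S := by
  classical
  obtain ⟨R, hR, hreps⟩ := exists_class_reps (F := F)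
  set S0 : Finset (Pl F) := U.n_fin.toFinset with hS0
  have hS0' : ∀ w, w ∉ S0 → U.n w = 0 := by
    intro w hw
    by_contra h
    exact hw ((Set.Finite.mem_toFinset _).mpr h)
  have hTot : (⋃ β ∈ R, Zset U β.1 S0).Finite := hR.biUnion fun β _ => Zset_finite U β.1 S0
  refine ⟨hTot.toFinset, fun y => ?_⟩
  -- local decompositions
  set T : Finset (Pl F) := y.fin.toFinset ∪ S0 with hT
  have hloc : ∀ w : Pl F, ∃ (a : Fˣ) (b : F) (k : G2 F), k ∈ intGL w ∧
      ((un b * dg a * k : G2 F) : Yl U w) = y w ∧ (w ∉ T → a = 1 ∧ b = 0 ∧ k = 1) := by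
    intro w
    by_cases hw : w ∈ T
    · obtain ⟨g, hg⟩ := QuotientGroup.mk_surjective (y w)
      obtain ⟨c, a, b, k, hk, hgk⟩ := iwasawa w g
      refine ⟨a, b, k, hk, ?_, fun h => absurd hw h⟩
      rw [← hg]
      change ((un b * dg a * k : G2 F) : Yl U w) = (g : Yl U w)
      rw [QuotientGroup.eq, hgk]
      rw [sc_comm, ← mul_assoc, inv_mul_cancel, one_mul]
      exact U.scal_le w (sc_mem c)
    · refine ⟨1, 0, 1, one_mem _, ?_, fun _ => ⟨rfl, rfl, rfl⟩⟩
      have h1 : y w = ((1 : G2 F) : Yl U w) := by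
        by_contra h
        exact hw (Finset.mem_union_left _ ((Set.Finite.mem_toFinset _).mpr h))
      rw [h1, un_zero, dg_one, one_mul, one_mul]
  choose a b k hk hyw htriv using hloc
  -- kill the unipotent part
  obtain ⟨b0, hb0, hb0'⟩ := strong_approx T (fun w => - b w)
    (fun w => av w (a w : F) * (qv w)⁻¹ ^ U.n w)
    (fun w => mul_pos ((av w).pos (a w).ne_zero) (pow_pos (inv_pos.mpr (qv_pos w)) _))
  have hy1 : ∀ w, (un b0 • y) w = ((dg (a w) * k w : G2 F) : Yl U w) := by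
    intro w
    rw [G2_smul_apply, ← hyw w]
    change ((un b0 * (un (b w) * dg (a w) * k w) : G2 F) : Yl U w) = _
    have e1 : un b0 * (un (b w) * dg (a w) * k w) =
        dg (a w) * k w * ((k w)⁻¹ * un (((a w)⁻¹ : Fˣ) * (b0 + b w)) * k w) := by
      have : un b0 * un (b w) * dg (a w) = dg (a w) * un (((a w)⁻¹ : Fˣ) * (b0 + b w)) := by
        rw [← un_add, dg_mul_un]
        congr 2
        rw [Units.mul_inv_cancel_left]
      calc un b0 * (un (b w) * dg (a w) * k w) = un b0 * un (b w) * dg (a w) * k w := by group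
        _ = dg (a w) * un (((a w)⁻¹ : Fˣ) * (b0 + b w)) * k w := by rw [this]
        _ = _ := by group
    rw [e1]
    symm
    rw [QuotientGroup.eq, inv_mul_cancel_left]
    apply U.cong_le w
    apply conj_mem_congGL' w _ (hk w)
    apply un_mem_congGL
    rw [map_mul, Units.val_inv_eq_inv_val, map_inv₀]
    have hap := (av w).pos (a w).ne_zero
    rw [inv_mul_le_iff₀ hap]
    by_cases hw : w ∈ T
    · have := hb0 w hw
      rwa [sub_neg_eq_add] at this
    · obtain ⟨ha1, hb1, -⟩ := htriv w hw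
      have hn : U.n w = 0 := hS0' w fun h => hw (Finset.mem_union_right _ h)
      rw [ha1, hb1, hn, add_zero, pow_zero, Units.val_one, map_one, mul_one]
      exact hb0' w hw
  -- class group
  have hαfin : {w | av w (a w : F) ≠ 1}.Finite := by
    refine T.finite_toSet.subset fun w hw => ?_
    by_contra h
    apply hw
    rw [(htriv w h).1, Units.val_one, map_one]
  obtain ⟨β, hβ, x, hx⟩ := hreps ⟨a, hαfin⟩
  have hxw : ∀ w, av w (((x⁻¹ * a w * (β.1 w)⁻¹ : Fˣ)) : F) = 1 := by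
    intro w
    have h1 := hx w
    have hx0 := (av w).pos x.ne_zero
    have hβ0 := (av w).pos (β.1 w).ne_zero
    rw [Units.val_mul, Units.val_mul, map_mul, map_mul, Units.val_inv_eq_inv_val,
      Units.val_inv_eq_inv_val, map_inv₀, map_inv₀]
    change av w (a w : F) = _ at h1
    rw [h1]
    field_simp
  refine ⟨x⁻¹, (x⁻¹ : Fˣ) * b0, ?_⟩
  have hy2 : ∀ w, ((un (((x⁻¹ : Fˣ) : F) * b0) * dg x⁻¹) • y) w =
      ((dg (β.1 w) * (dg (x⁻¹ * a w * (β.1 w)⁻¹) * k w) : G2 F) : Yl U w) := by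
    intro w
    rw [← dg_mul_un, mul_smul]
    have h1 : (dg x⁻¹ • un b0 • y) w = dg x⁻¹ • (un b0 • y) w := rfl
    rw [h1, hy1 w]
    change ((dg x⁻¹ * (dg (a w) * k w) : G2 F) : Yl U w) = _
    congr 1
    rw [← mul_assoc, ← mul_assoc, ← dg_mul, ← dg_mul]
    congr 2
    rw [mul_comm (β.1 w), inv_mul_cancel_right]
  have hkw : ∀ w, dg (x⁻¹ * a w * (β.1 w)⁻¹) * k w ∈ intGL w := fun w =>
    mul_mem (dg_mem_intGL w (hxw w)) (hk w)
  rw [Set.Finite.mem_toFinset]
  refine Set.mem_iUnion₂.mpr ⟨β, hβ, ?_, ?_⟩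
  · intro w _
    rw [hy2 w]
    exact ⟨_, hkw w, rfl⟩
  · intro w hw
    rw [hy2 w]
    symm
    rw [QuotientGroup.eq, inv_mul_cancel_left, U.H_eq (hS0' w hw)]
    exact intGL_le_stdH w (hkw w)

end Fermat.LT
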