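import Fermat.Agent.LT.A.Height

/-!
# LT, piece A: comparison of heights of nearby points; local kernels on `Y`

* `H3.Q_le` : `Q P' ≤ 2 ch(P,P') Q P`, hence `hinf_le`.
* `dl w g = ‖g‖ ‖g⁻¹‖` and its version `dlY` on `Yl U w`; `dY` on `Y U`; `hfin_le`, `ht_le`.
* `dlY_finite`, `dY_finite` : balls are finite.
* `LKer` : a family of local kernels, `LKer.ker` the product kernel on `Y U`.
-/

open NumberField IsDedekindDomain Matrix

namespace Fermat.LT

variable {F : Type} [Field F] [NumberField F]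

section arch

/-- comparison of the hermitian forms of two points of `H3` -/
theorem H3.Q_le (P P' : H3) (x y : ℂ) : P'.Q x y ≤ 2 * H3.ch P P' * P.Q x y := by
  have h1 := P.t_pos
  have h2 := P'.t_pos
  have key : ∀ u d b : ℂ, ∀ t t' : ℝ,
      t ^ 2 * (Complex.normSq (u + d * b) + t' ^ 2 * Complex.normSq b) ≤
        (Complex.normSq d + t ^ 2 + t' ^ 2) * (Complex.normSq u + t ^ 2 * Complex.normSq b) := by
    intro u d b t t'
    have e : (Complex.normSq d + t ^ 2 + t' ^ 2) * (Complex.normSq u + t ^ 2 * Complex.normSq b) -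
        t ^ 2 * (Complex.normSq (u + d * b) + t' ^ 2 * Complex.normSq b) =
        Complex.normSq (u * (starRingEnd ℂ) d - (t : ℂ) ^ 2 * b) +
          t' ^ 2 * Complex.normSq u := by
      have e2 : ((t : ℂ) ^ 2) = ((t ^ 2 : ℝ) : ℂ) := by push_cast; rfl
      rw [e2]
      simp only [Complex.normSq_apply, Complex.sub_re, Complex.sub_im, Complex.mul_re,
        Complex.mul_im, Complex.add_re, Complex.add_im, Complex.conj_re, Complex.conj_im,
        Complex.ofReal_re, Complex.ofReal_im]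
      ring
    have h3 := Complex.normSq_nonneg (u * (starRingEnd ℂ) d - (t : ℂ) ^ 2 * b)
    have h4 : 0 ≤ t' ^ 2 * Complex.normSq u := mul_nonneg (sq_nonneg _) (Complex.normSq_nonneg _)
    linarith
  have e1 : x - P'.z * y = (x - P.z * y) + (P.z - P'.z) * y := by ring
  have h3 := key (x - P.z * y) (P.z - P'.z) y P.t P'.t
  rw [← e1] at h3
  rw [H3.Q, H3.Q, H3.ch]
  have e2 : 2 * ((Complex.normSq (P.z - P'.z) + P.t ^ 2 + P'.t ^ 2) / (2 * P.t * P'.t)) *
      ((Complex.normSq (x - P.z * y) + P.t ^ 2 * Complex.normSq y) / P.t) =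
      ((Complex.normSq (P.z - P'.z) + P.t ^ 2 + P'.t ^ 2) *
        (Complex.normSq (x - P.z * y) + P.t ^ 2 * Complex.normSq y)) / (P.t ^ 2 * P'.t) := by
    field_simp
  rw [e2, div_le_div_iff₀ h2 (by positivity)]
  nlinarith [mul_le_mul_of_nonneg_right h3 h2.le]

theorem hinf_le {A : Arch F} (v : Fin 2 → F) (x x' : XI A) :
    hinf v x' ≤ (∏ i, (2 * H3.ch (x i) (x' i)) ^ 2) * hinf v x := by
  rw [hinf, hinf, ← Finset.prod_mul_distrib]
  refine Finset.prod_le_prod (fun i _ => by positivity) fun i _ => ?_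
  set a := A.emb i (v 0)
  set b := A.emb i (v 1)
  have hch : 1 ≤ H3.ch (x i) (x' i) := H3.one_le_ch _ _
  by_cases h0 : a = 0 ∧ b = 0
  · have : ∀ P : H3, P.Q a b = 0 := fun P => (P.Q_eq_zero_iff a b).2 h0
    rw [this, this]
    simp
  · have hp : ∀ P : H3, 0 < P.Q a b := fun P => P.Q_pos (by
      by_contra hc
      simp only [not_or, not_not] at hc
      exact h0 hc)
    have h1 := hp (x i)
    have h2 := hp (x' i)
    have h3 := H3.Q_le (x' i) (x i) a b
    rw [H3.ch_comm] at h3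
    rw [inv_le_iff_one_le_mul₀ (by positivity)]
    have h4 : (x i).Q a b ^ 2 ≤ (2 * H3.ch (x i) (x' i) * (x' i).Q a b) ^ 2 :=
      pow_le_pow_left₀ h1.le h3 2
    calc (1 : ℝ) = (x i).Q a b ^ 2 * ((x i).Q a b ^ 2)⁻¹ := by field_simp
      _ ≤ (2 * H3.ch (x i) (x' i) * (x' i).Q a b) ^ 2 * ((x i).Q a b ^ 2)⁻¹ :=
        mul_le_mul_of_nonneg_right h4 (by positivity)
      _ = _ := by ring

end arch

section dl

/-- `dl w g = ‖g‖_w ‖g⁻¹‖_w = q_w ^ d(o, g o)` -/
noncomputable def dl (w : Pl F) (g : G2 F) : ℝ := nm w g.1 * nm w (g⁻¹).1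

theorem one_le_dl (w : Pl F) (g : G2 F) : 1 ≤ dl w g := nm_mul_inv_ge w g

theorem dl_pos (w : Pl F) (g : G2 F) : 0 < dl w g := zero_lt_one.trans_le (one_le_dl w g)

theorem dl_inv (w : Pl F) (g : G2 F) : dl w g⁻¹ = dl w g := by
  rw [dl, dl, inv_inv, mul_comm]

theorem dl_mul_le (w : Pl F) (g h : G2 F) : dl w (g * h) ≤ dl w g * dl w h := by
  have e1 := nm_mul_le w g.1 h.1
  have e2 := nm_mul_le w (h⁻¹).1 (g⁻¹).1
  rw [dl, _root_.mul_inv_rev]
  calc nm w (g * h).1 * nm w (h⁻¹ * g⁻¹).1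
      ≤ (nm w g.1 * nm w h.1) * (nm w (h⁻¹).1 * nm w (g⁻¹).1) :=
        mul_le_mul e1 e2 (nm_nonneg w _) (mul_nonneg (nm_nonneg w _) (nm_nonneg w _))
    _ = dl w g * dl w h := by rw [dl, dl]; ring

theorem dl_le_one_iff (w : Pl F) (g : G2 F) : dl w g ≤ 1 ↔ g ∈ stdH w := Iff.rfl

theorem dl_eq_one_iff (w : Pl F) (g : G2 F) : dl w g = 1 ↔ g ∈ stdH w := by
  rw [← dl_le_one_iff]
  exact ⟨fun h => h.le, fun h => le_antisymm h (one_le_dl w g)⟩

theorem dl_one (w : Pl F) : dl w (1 : G2 F) = 1 := (dl_eq_one_iff w 1).2 (one_mem _)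

theorem dl_mul_right (w : Pl F) (g : G2 F) {h : G2 F} (hh : h ∈ stdH w) :
    dl w (g * h) = dl w g := by
  have h1 := (dl_eq_one_iff w h).2 hh
  have h1' := (dl_eq_one_iff w h⁻¹).2 (inv_mem hh)
  apply le_antisymm
  · simpa [h1] using dl_mul_le w g h
  · simpa [h1'] using dl_mul_le w (g * h) h⁻¹

theorem dl_mul_left (w : Pl F) (g : G2 F) {h : G2 F} (hh : h ∈ stdH w) :
    dl w (h * g) = dl w g := by
  rw [← dl_inv, _root_.mul_inv_rev, dl_mul_right w _ (inv_mem hh), dl_inv]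

theorem nm_inv (w : Pl F) (g : G2 F) : nm w (g⁻¹).1 = (av w g.1.det)⁻¹ * nm w g.1 := by
  have hd : g.1.det ≠ 0 := g.det_ne_zero
  have h : (g⁻¹).1 = (g.1.det)⁻¹ • g.1.adjugate := by
    rw [Matrix.coe_units_inv, Matrix.inv_def, Ring.inverse_eq_inv']
  rw [h, nm_smul, nm_adjugate, map_inv₀]

theorem dl_eq (w : Pl F) (g : G2 F) : dl w g = (av w g.1.det)⁻¹ * nm w g.1 ^ 2 := by
  rw [dl, nm_inv]; ring

theorem hloc_mul_le (w : Pl F) (v : Fin 2 → F) (g k : G2 F) :
    hloc w v (g * k) ≤ dl w k * hloc w v g := by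
  by_cases hv : v = 0
  · subst hv
    have h0 : nv w (0 : Fin 2 → F) = 0 := by simp [nv]
    rw [hloc, hloc, Matrix.mulVec_zero, Matrix.mulVec_zero, h0]
    simp
  have hk : 0 < av w k.1.det := (av w).pos k.det_ne_zero
  have hg : 0 < av w g.1.det := (av w).pos g.det_ne_zero
  have p1 := nv_pos w (inv_mulVec_ne hv g)
  have p2 := nv_pos w (inv_mulVec_ne hv (g * k))
  have h1 : nv w ((g⁻¹).1 *ᵥ v) ≤ nm w k.1 * nv w (((g * k)⁻¹).1 *ᵥ v) := by
    have := nv_mulVec_le w k.1 (((g * k)⁻¹).1 *ᵥ v)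
    rwa [Matrix.mulVec_mulVec, ← Units.val_mul, _root_.mul_inv_rev, mul_inv_cancel_left] at this
  have h2 : ((nv w (((g * k)⁻¹).1 *ᵥ v)) ^ 2)⁻¹ ≤ nm w k.1 ^ 2 * ((nv w ((g⁻¹).1 *ᵥ v)) ^ 2)⁻¹ := by
    rw [inv_le_iff_one_le_mul₀ (by positivity)]
    calc (1 : ℝ) = nv w ((g⁻¹).1 *ᵥ v) ^ 2 * (nv w ((g⁻¹).1 *ᵥ v) ^ 2)⁻¹ := by field_simp
      _ ≤ (nm w k.1 * nv w (((g * k)⁻¹).1 *ᵥ v)) ^ 2 * (nv w ((g⁻¹).1 *ᵥ v) ^ 2)⁻¹ :=
        mul_le_mul_of_nonneg_right (pow_le_pow_left₀ p1.le h1 2) (by positivity)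
      _ = _ := by ring
  rw [hloc, hloc, dl_eq, Units.val_mul, Matrix.det_mul, map_mul, mul_inv]
  calc (av w g.1.det)⁻¹ * (av w k.1.det)⁻¹ * ((nv w (((g * k)⁻¹).1 *ᵥ v)) ^ 2)⁻¹
      ≤ (av w g.1.det)⁻¹ * (av w k.1.det)⁻¹ * (nm w k.1 ^ 2 * ((nv w ((g⁻¹).1 *ᵥ v)) ^ 2)⁻¹) :=
        mul_le_mul_of_nonneg_left h2 (by positivity)
    _ = _ := by ring

variable {U : Level F}

/-- `dl w (y⁻¹ y')` -/
noncomputable def dlY (w : Pl F) : Yl U w → Yl U w → ℝ :=
  Quotient.lift₂ (fun g g' => dl w (g⁻¹ * g')) (by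
    intro a a' b b' ha hb
    have h1 : a⁻¹ * b ∈ stdH w := U.le_std w (QuotientGroup.leftRel_apply.mp ha)
    have h2 : a'⁻¹ * b' ∈ stdH w := U.le_std w (QuotientGroup.leftRel_apply.mp hb)
    have e : b⁻¹ * b' = (a⁻¹ * b)⁻¹ * ((a⁻¹ * a') * (a'⁻¹ * b')) := by group
    rw [e, dl_mul_left w _ (inv_mem h1), dl_mul_right w _ h2])

theorem dlY_mk (w : Pl F) (g g' : G2 F) :
    dlY (U := U) w (g : Yl U w) (g' : Yl U w) = dl w (g⁻¹ * g') := rfl

theorem dlY_smul (w : Pl F) (γ : G2 F) (y y' : Yl U w) : dlY w (γ • y) (γ • y') = dlY w y y' := by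
  obtain ⟨g, rfl⟩ := QuotientGroup.mk_surjective y
  obtain ⟨g', rfl⟩ := QuotientGroup.mk_surjective y'
  change dlY (U := U) w ((γ * g : G2 F) : Yl U w) ((γ * g' : G2 F) : Yl U w) = _
  rw [dlY_mk, dlY_mk, _root_.mul_inv_rev, mul_assoc, inv_mul_cancel_left]

theorem dlY_comm (w : Pl F) (y y' : Yl U w) : dlY w y y' = dlY w y' y := by
  obtain ⟨g, rfl⟩ := QuotientGroup.mk_surjective y
  obtain ⟨g', rfl⟩ := QuotientGroup.mk_surjective y'
  rw [dlY_mk, dlY_mk, ← dl_inv, _root_.mul_inv_rev, inv_inv]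

theorem dlY_self (w : Pl F) (y : Yl U w) : dlY w y y = 1 := by
  obtain ⟨g, rfl⟩ := QuotientGroup.mk_surjective y
  rw [dlY_mk, inv_mul_cancel, dl_one]

theorem one_le_dlY (w : Pl F) (y y' : Yl U w) : 1 ≤ dlY w y y' := by
  obtain ⟨g, rfl⟩ := QuotientGroup.mk_surjective y
  obtain ⟨g', rfl⟩ := QuotientGroup.mk_surjective y'
  exact one_le_dl w _

theorem dlY_triangle (w : Pl F) (y y' y'' : Yl U w) :
    dlY w y y'' ≤ dlY w y y' * dlY w y' y'' := by
  obtain ⟨g, rfl⟩ := QuotientGroup.mk_surjective y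
  obtain ⟨g', rfl⟩ := QuotientGroup.mk_surjective y'
  obtain ⟨g'', rfl⟩ := QuotientGroup.mk_surjective y''
  rw [dlY_mk, dlY_mk, dlY_mk]
  have := dl_mul_le w (g⁻¹ * g') (g'⁻¹ * g'')
  rwa [mul_assoc, mul_inv_cancel_left] at this

/-- at places of level one, `dlY = 1` only on the diagonal -/
theorem eq_of_dlY_le_one {w : Pl F} (hw : U.n w = 0) {y y' : Yl U w} (h : dlY w y y' ≤ 1) :
    y = y' := by
  obtain ⟨g, rfl⟩ := QuotientGroup.mk_surjective y
  obtain ⟨g', rfl⟩ := QuotientGroup.mk_surjective y'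
  rw [dlY_mk, dl_le_one_iff] at h
  rw [QuotientGroup.eq, U.H_eq hw]
  exact h

theorem hY_le (w : Pl F) (v : Fin 2 → F) (y y' : Yl U w) :
    hY w v y' ≤ dlY w y y' * hY w v y := by
  obtain ⟨g, rfl⟩ := QuotientGroup.mk_surjective y
  obtain ⟨g', rfl⟩ := QuotientGroup.mk_surjective y'
  rw [dlY_mk, hY_mk, hY_mk]
  have := hloc_mul_le w v g (g⁻¹ * g')
  rwa [mul_inv_cancel_left] at this

theorem dlY_fin (y y' : Y U) : {w | dlY w (y w) (y' w) ≠ 1}.Finite := by
  refine (y.fin.union y'.fin).subset ?_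
  intro w hw
  by_contra hc
  simp only [Set.mem_union, Set.mem_ofPred_eq, not_or, not_not] at hc
  apply hw
  rw [hc.1, hc.2, dlY_self]

/-- the (multiplicative) distance on `Y` -/
noncomputable def dY (y y' : Y U) : ℝ := ∏ᶠ w, dlY w (y w) (y' w)

theorem dY_eq_prod (y y' : Y U) {S : Finset (Pl F)} (hS : ∀ w, w ∉ S → dlY w (y w) (y' w) = 1) :
    dY y y' = ∏ w ∈ S, dlY w (y w) (y' w) := by
  rw [dY]
  apply finprod_eq_prod_of_mulSupport_subset
  intro w hw
  by_contra hc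
  exact hw (hS w hc)

theorem one_le_dY (y y' : Y U) : 1 ≤ dY y y' := by
  classical
  rw [dY_eq_prod (S := (dlY_fin y y').toFinset) y y' (fun w hw => by simpa using hw)]
  calc (1 : ℝ) = ∏ w ∈ (dlY_fin y y').toFinset, 1 := by simp
    _ ≤ _ := Finset.prod_le_prod (fun w _ => zero_le_one) fun w _ => one_le_dlY w _ _

theorem dY_comm (y y' : Y U) : dY y y' = dY y' y := finprod_congr fun w => dlY_comm w _ _

theorem dY_self (y : Y U) : dY y y = 1 := by
  rw [dY]
  have : (fun w : Pl F => dlY w (y w) (y w)) = fun _ => 1 := funext fun w => dlY_self w _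
  rw [this, finprod_one]

theorem dY_smul_GA (g : GA F) (y y' : Y U) : dY (g • y) (g • y') = dY y y' :=
  finprod_congr fun w => dlY_smul w (g.1 w) _ _

theorem dY_smul (g : G2 F) (y y' : Y U) : dY (g • y) (g • y') = dY y y' :=
  finprod_congr fun w => dlY_smul w g _ _

theorem dY_smul_PG (p : PG F) (y y' : Y U) : dY (p • y) (p • y') = dY y y' := by
  obtain ⟨g, rfl⟩ := Matrix.ProjGenLinGroup.mk_surjective p
  exact dY_smul g y y'

theorem dY_triangle (y y' y'' : Y U) : dY y y'' ≤ dY y y' * dY y' y'' := by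
  classical
  set S := ((dlY_fin y y'').union ((dlY_fin y y').union (dlY_fin y' y''))).toFinset with hS
  have hSm : ∀ w, w ∉ S → dlY w (y w) (y'' w) = 1 ∧ dlY w (y w) (y' w) = 1 ∧
      dlY w (y' w) (y'' w) = 1 := by
    intro w hw
    rw [hS, Set.Finite.mem_toFinset] at hw
    simpa only [Set.mem_union, Set.mem_ofPred_eq, not_or, not_not] using hw
  rw [dY_eq_prod y y'' (fun w hw => (hSm w hw).1), dY_eq_prod y y' (fun w hw => (hSm w hw).2.1),
    dY_eq_prod y' y'' (fun w hw => (hSm w hw).2.2), ← Finset.prod_mul_distrib]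
  exact Finset.prod_le_prod (fun w _ => zero_le_one.trans (one_le_dlY w _ _))
    fun w _ => dlY_triangle w _ _ _

theorem hfin_le {v : Fin 2 → F} (hv : v ≠ 0) (y y' : Y U) :
    hfin v y' ≤ dY y y' * hfin v y := by
  classical
  set S := ((hY_finite hv y).union ((hY_finite hv y').union (dlY_fin y y'))).toFinset with hS
  have hSm : ∀ w, w ∉ S → hY w v (y w) = 1 ∧ hY w v (y' w) = 1 ∧
      dlY w (y w) (y' w) = 1 := by
    intro w hw
    rw [hS, Set.Finite.mem_toFinset] at hw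
    simpa only [Set.mem_union, Set.mem_ofPred_eq, not_or, not_not] using hw
  rw [hfin_eq_prod y (fun w hw => (hSm w hw).1), hfin_eq_prod y' (fun w hw => (hSm w hw).2.1),
    dY_eq_prod y y' (fun w hw => (hSm w hw).2.2), ← Finset.prod_mul_distrib]
  exact Finset.prod_le_prod (fun w _ => (hY_pos w hv _).le) fun w _ => hY_le w v _ _

end dl

section finite

theorem av_le_av_iff (w : Pl F) (x y : F) :
    av w x ≤ av w y ↔ w.valuation F x ≤ w.valuation F y := by
  rw [av, NumberField.HeightOneSpectrum.adicAbv_def, NumberField.HeightOneSpectrum.adicAbv_def,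
    NNReal.coe_le_coe]
  exact (WithZeroMulInt.toNNReal_strictMono
    (NumberField.HeightOneSpectrum.one_lt_absNorm_nnreal w)).le_iff_le

/-- finiteness of `O_w / ϖ^m` -/
theorem exists_residues (w : Pl F) {ε : ℝ} (hε : 0 < ε) : ∃ R : Set F, R.Finite ∧
    ∀ x : F, av w x ≤ 1 → ∃ r ∈ R, av w (x - r) ≤ ε := by
  obtain ⟨ϖ, hϖ⟩ := w.valuation_exists_uniformizer F
  have hϖ0 : ϖ ≠ 0 := by
    rintro rfl
    rw [map_zero] at hϖ
    exact WithZero.exp_ne_zero hϖ.symm
  have hϖ1 : av w ϖ < 1 := by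
    by_contra hc
    have h1 : av w 1 ≤ av w ϖ := by rw [map_one]; exact not_lt.mp hc
    rw [av_le_av_iff, hϖ, map_one] at h1
    exact absurd h1 (not_le.mpr (by decide))
  obtain ⟨m, hm⟩ := exists_pow_lt_of_lt_one hε hϖ1
  have key : ∀ x : F, w.valuation F x ≤ WithZero.exp (-(m : ℤ)) → av w x ≤ ε := by
    intro x hx
    refine le_trans ?_ hm.le
    rw [← map_pow, av_le_av_iff, map_pow, hϖ]
    refine hx.trans (le_of_eq ?_)
    rw [← WithZero.exp_nsmul]
    simp
  have hfin : Finite (𝓞 F ⧸ w.asIdeal ^ m) :=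
    Ideal.finiteQuotientOfFreeOfNeBot _ (pow_ne_zero m w.ne_bot)
  have hsurj : Function.Surjective (Ideal.Quotient.mk (w.asIdeal ^ m)) :=
    Ideal.Quotient.mk_surjective
  refine ⟨Set.range fun a : 𝓞 F ⧸ w.asIdeal ^ m => ((Function.surjInv hsurj a : 𝓞 F) : F),
    Set.finite_range _, ?_⟩
  intro x hx
  have hx1 : w.valuation F x ≤ 1 := by
    have h1 : av w x ≤ av w 1 := by rw [map_one]; exact hx
    rwa [av_le_av_iff, map_one] at h1
  obtain ⟨a, ha⟩ := w.exists_valuation_sub_lt_of_integer hx1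
    (Units.mk0 (WithZero.exp (-(m : ℤ))) (by simp))
  refine ⟨_, ⟨Ideal.Quotient.mk _ a, rfl⟩, key _ ?_⟩
  set b : 𝓞 F := Function.surjInv hsurj (Ideal.Quotient.mk (w.asIdeal ^ m) a) with hb
  have h1 : a - b ∈ w.asIdeal ^ m := by
    rw [← Ideal.Quotient.eq]
    exact (Function.surjInv_eq hsurj _).symm
  have h2 : w.valuation F ((a - b : 𝓞 F) : F) ≤ WithZero.exp (-(m : ℤ)) := by
    rw [HeightOneSpectrum.valuation_of_algebraMap, HeightOneSpectrum.intValuation_le_pow_iff_mem]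
    exact h1
  have e : x - (b : F) = ((a - b : 𝓞 F) : F) - ((a : F) - x) := by push_cast; ring
  rw [e]
  refine (Valuation.map_sub _ _ _).trans (max_le h2 ?_)
  exact ha.le

variable {U : Level F}

theorem dl_finite_aux (U : Level F) (w : Pl F) (c : ℝ) :
    {y : Yl U w | dlY w ((1 : G2 F) : Yl U w) y ≤ c}.Finite := by
  classical
  have hq := qv_pos w
  set ε : ℝ := min 1 ((qv w)⁻¹ ^ (U.n w)) / max c 1 with hε
  have hc0 : 0 < max c 1 := lt_of_lt_of_le one_pos (le_max_right _ _)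
  have hε0 : 0 < ε := div_pos (lt_min one_pos (by positivity)) hc0
  obtain ⟨R, hR, hR2⟩ := exists_residues w hε0
  -- choose good representatives
  have h1 : ∀ y : Yl U w, dlY w ((1 : G2 F) : Yl U w) y ≤ c →
      ∃ g : G2 F, (g : Yl U w) = y ∧ nm w g.1 ≤ 1 ∧ nm w (g⁻¹).1 ≤ c := by
    intro y hy
    obtain ⟨g, rfl⟩ := QuotientGroup.mk_surjective y
    rw [dlY_mk, inv_one, one_mul, dl] at hy
    obtain ⟨a, ha⟩ := exists_nm_eq w g
    have ha0 : 0 < av w (a : F) := (av w).pos a.ne_zero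
    refine ⟨g * sc a⁻¹, ?_, ?_, ?_⟩
    · rw [QuotientGroup.eq, _root_.mul_inv_rev, inv_mul_cancel_right]
      exact inv_mem (U.scal_le w (sc_mem _))
    · rw [← sc_comm, sc_mul_val, nm_smul, ha, Units.val_inv_eq_inv_val, map_inv₀,
        inv_mul_cancel₀ ha0.ne']
    · rw [_root_.mul_inv_rev, sc_inv, inv_inv, sc_mul_val, nm_smul, ← ha]
      exact hy
  choose! g hg1 hg2 hg3 using h1
  have h2 : ∀ y : Yl U w, dlY w ((1 : G2 F) : Yl U w) y ≤ c → ∃ m : Matrix (Fin 2) (Fin 2) F,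
      (∀ a b, m a b ∈ R) ∧ nm w ((g y).1 - m) ≤ ε := by
    intro y hy
    have h3 : ∀ a b, ∃ r ∈ R, av w ((g y).1 a b - r) ≤ ε := fun a b =>
      hR2 _ ((av_le_nm w _ a b).trans (hg2 y hy))
    choose m hm1 hm2 using h3
    exact ⟨Matrix.of m, hm1, (nm_le_iff w _ _).2 fun a b => hm2 a b⟩
  choose! m hm1 hm2 using h2
  have hMfin : {m : Matrix (Fin 2) (Fin 2) F | ∀ a b, m a b ∈ R}.Finite :=
    Set.Finite.pi' fun a => Set.Finite.pi' fun b => hR
  refine Set.Finite.of_finite_image (f := m) (hMfin.subset ?_) ?_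
  · rintro _ ⟨y, hy, rfl⟩
    exact hm1 y hy
  · intro y hy y' hy' hyy
    change dlY w ((1 : G2 F) : Yl U w) y ≤ c at hy
    change dlY w ((1 : G2 F) : Yl U w) y' ≤ c at hy'
    have h3 : nm w ((g y).1 - (g y').1) ≤ ε := by
      have e : (g y).1 - (g y').1 = ((g y).1 - m y) + -((g y').1 - m y') := by
        rw [hyy]; abel
      rw [e]
      refine (nm_add_le w _ _).trans (max_le (hm2 y hy) ?_)
      rw [nm_neg]; exact hm2 y' hy'
    have h3' : nm w ((g y').1 - (g y).1) ≤ ε := by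
      rw [← nm_neg, neg_sub]; exact h3
    -- `g⁻¹ g' ∈ congGL`
    have key : ∀ a b : G2 F, nm w (b.1 - a.1) ≤ ε → nm w (a⁻¹).1 ≤ c →
        nm w ((a⁻¹ * b).1 - 1) ≤ min 1 ((qv w)⁻¹ ^ (U.n w)) := by
      intro a b hab ha
      have e : (a⁻¹ * b).1 - 1 = (a⁻¹).1 * (b.1 - a.1) := by
        rw [mul_sub, ← Units.val_mul, ← Units.val_mul, inv_mul_cancel, Units.val_one]
      rw [e]
      calc nm w ((a⁻¹).1 * (b.1 - a.1)) ≤ nm w (a⁻¹).1 * nm w (b.1 - a.1) := nm_mul_le w _ _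
        _ ≤ max c 1 * ε := mul_le_mul (ha.trans (le_max_left _ _)) hab (nm_nonneg w _) hc0.le
        _ = _ := by rw [hε]; field_simp
    have key2 : ∀ a b : G2 F, nm w (b.1 - a.1) ≤ ε → nm w (a⁻¹).1 ≤ c →
        nm w (a⁻¹ * b).1 ≤ 1 := by
      intro a b hab ha
      have e : (a⁻¹ * b).1 = ((a⁻¹ * b).1 - 1) + 1 := by abel
      rw [e]
      refine (nm_add_le w _ _).trans (max_le ((key a b hab ha).trans (min_le_left _ _)) ?_)
      rw [nm_one]
    have h4 : (g y)⁻¹ * g y' ∈ congGL w (U.n w) := by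
      refine ⟨⟨key2 _ _ h3' (hg3 y hy), ?_⟩, (key _ _ h3' (hg3 y hy)).trans (min_le_right _ _)⟩
      rw [_root_.mul_inv_rev, inv_inv]
      exact key2 _ _ h3 (hg3 y' hy')
    rw [← hg1 y hy, ← hg1 y' hy', QuotientGroup.eq]
    exact U.cong_le w h4

/-- balls in `Yl U w` are finite -/
theorem dlY_finite (w : Pl F) (y : Yl U w) (c : ℝ) : {y' : Yl U w | dlY w y y' ≤ c}.Finite := by
  obtain ⟨g, rfl⟩ := QuotientGroup.mk_surjective y
  refine ((dl_finite_aux U w c).image fun z => g • z).subset ?_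
  intro y' hy'
  refine ⟨g⁻¹ • y', ?_, smul_inv_smul g y'⟩
  change dlY w ((1 : G2 F) : Yl U w) (g⁻¹ • y') ≤ c
  rw [← dlY_smul w g, smul_inv_smul]
  have : g • ((1 : G2 F) : Yl U w) = (g : Yl U w) := by
    change ((g * 1 : G2 F) : Yl U w) = _
    rw [mul_one]
  rw [this]
  exact hy'

/-- boxes in `Y U` are finite -/
theorem box_finite (y : Y U) {c : Pl F → ℝ} (hc : {w | 1 < c w}.Finite) :
    {y' : Y U | ∀ w, dlY w (y w) (y' w) ≤ c w}.Finite := by
  classical
  set S := (hc.union U.n_fin).toFinset with hS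
  have hSm : ∀ w, w ∉ S → c w ≤ 1 ∧ U.n w = 0 := by
    intro w hw
    rw [hS, Set.Finite.mem_toFinset] at hw
    simpa only [Set.mem_union, Set.mem_ofPred_eq, not_or, not_lt, not_not] using hw
  have hfin : {z : ∀ w : S, Yl U w.1 | ∀ w : S, z w ∈ {y' : Yl U w.1 | dlY w.1 (y w.1) y' ≤ c w.1}}.Finite :=
    Set.Finite.pi' fun w => dlY_finite w.1 (y w.1) (c w.1)
  refine Set.Finite.of_finite_image (f := fun (y' : Y U) (w : S) => y' w.1) (hfin.subset ?_) ?_
  · rintro _ ⟨y', hy', rfl⟩ w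
    exact hy' w.1
  · intro y' hy' y'' hy'' h
    refine Y.ext' fun w => ?_
    by_cases hw : w ∈ S
    · exact congrFun h ⟨w, hw⟩
    · have h1 := eq_of_dlY_le_one (hSm w hw).2 ((hy' w).trans (hSm w hw).1)
      have h2 := eq_of_dlY_le_one (hSm w hw).2 ((hy'' w).trans (hSm w hw).1)
      rw [← h1, ← h2]

theorem exists_av_eq_zpow (w : Pl F) {x : F} (hx : x ≠ 0) : ∃ n : ℤ, av w x = qv w ^ n := by
  have h : w.valuation F x ≠ 0 := (Valuation.ne_zero_iff _).2 hx
  refine ⟨(WithZero.unzero h).toAdd, ?_⟩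
  rw [av, NumberField.HeightOneSpectrum.adicAbv_def, WithZeroMulInt.toNNReal_neg_apply _ h, qv]
  push_cast
  rfl

theorem dl_eq_pow (w : Pl F) (g : G2 F) : ∃ n : ℕ, dl w g = qv w ^ n := by
  obtain ⟨a, ha⟩ := exists_nm_eq w g
  have hd : g.1.det ≠ 0 := g.det_ne_zero
  obtain ⟨n, hn⟩ := exists_av_eq_zpow w (x := (g.1.det)⁻¹ * (a : F) ^ 2)
    (mul_ne_zero (inv_ne_zero hd) (pow_ne_zero _ a.ne_zero))
  have h1 : dl w g = qv w ^ n := by
    rw [dl_eq, ha, ← hn, map_mul, map_inv₀, map_pow]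
  have h2 := one_le_dl w g
  rw [h1, one_le_zpow_iff_right₀ (one_lt_qv w)] at h2
  obtain ⟨k, rfl⟩ := Int.eq_ofNat_of_zero_le h2
  exact ⟨k, by rw [h1]; exact zpow_natCast _ _⟩

theorem dlY_eq_pow (w : Pl F) (y y' : Yl U w) : ∃ n : ℕ, dlY w y y' = qv w ^ n := by
  obtain ⟨g, rfl⟩ := QuotientGroup.mk_surjective y
  obtain ⟨g', rfl⟩ := QuotientGroup.mk_surjective y'
  exact dl_eq_pow w _

theorem dlY_le_dY (y y' : Y U) (w : Pl F) : dlY w (y w) (y' w) ≤ dY y y' := by
  classical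
  by_cases hw : dlY w (y w) (y' w) = 1
  · rw [hw]; exact one_le_dY y y'
  · rw [dY_eq_prod (S := (dlY_fin y y').toFinset) y y' (fun w hw => by simpa using hw)]
    have hm : w ∈ (dlY_fin y y').toFinset := by simpa using hw
    rw [← Finset.mul_prod_erase _ _ hm]
    have h1 : (1 : ℝ) ≤ ∏ x ∈ (dlY_fin y y').toFinset.erase w, dlY x (y x) (y' x) := by
      calc (1 : ℝ) = ∏ w ∈ (dlY_fin y y').toFinset.erase w, 1 := by simp
        _ ≤ _ := Finset.prod_le_prod (fun w _ => zero_le_one) fun w _ => one_le_dlY w _ _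
    exact le_mul_of_one_le_right (zero_le_one.trans (one_le_dlY w _ _)) h1

theorem qv_finite (F : Type) [Field F] [NumberField F] (c : ℝ) : {w : Pl F | qv w ≤ c}.Finite := by
  have h := Ideal.finite_setOfPred_absNorm_le (S := 𝓞 F) ⌊c⌋₊
  refine Set.Finite.of_finite_image (f := fun w : Pl F => w.asIdeal) (h.subset ?_) ?_
  · rintro _ ⟨w, hw, rfl⟩
    exact Nat.le_floor hw
  · intro w _ w' _ h
    exact HeightOneSpectrum.ext h

/-- balls in `Y U` are finite -/
theorem dY_finite (y : Y U) (c : ℝ) : {y' : Y U | dY y y' ≤ c}.Finite := by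
  classical
  refine (box_finite y (c := fun w => if qv w ≤ c then c else 1) ((qv_finite F c).subset ?_)).subset ?_
  · intro w hw
    by_contra hc
    simp only [Set.mem_ofPred_eq] at hw hc
    rw [if_neg hc] at hw
    exact lt_irrefl _ hw
  · intro y' hy' w
    have h1 : dlY w (y w) (y' w) ≤ c := (dlY_le_dY y y' w).trans hy'
    by_cases hw : qv w ≤ c
    · simp only [if_pos hw]; exact h1
    · simp only [if_neg hw]
      obtain ⟨n, hn⟩ := dlY_eq_pow w (y w) (y' w)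
      rw [hn] at h1 ⊢
      rcases Nat.eq_zero_or_pos n with rfl | hn0
      · simp
      · exfalso
        apply hw
        refine le_trans ?_ h1
        calc qv w = qv w ^ 1 := (pow_one _).symm
          _ ≤ qv w ^ n := pow_le_pow_right₀ (one_lt_qv w).le hn0

end finite

section kernels

variable {U : Level F}

/-- A family of local kernels (pure tensors): `G2 F`-invariant, supported in balls of
radius `c w`, with `c w ≤ 1` and value `1` on the diagonal for almost all `w`. -/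
structure LKer (U : Level F) where
  /-- the local kernels -/
  κ : ∀ w, Yl U w → Yl U w → ℂ
  inv : ∀ w (g : G2 F) y y', κ w (g • y) (g • y') = κ w y y'
  /-- radii -/
  c : Pl F → ℝ
  supp : ∀ w y y', κ w y y' ≠ 0 → dlY w y y' ≤ c w
  c_fin : {w | 1 < c w}.Finite
  diag_fin : {w | κ w ((1 : G2 F) : Yl U w) ((1 : G2 F) : Yl U w) ≠ 1}.Finite

namespace LKer

theorem diag_eq (k : LKer U) (w : Pl F) (y : Yl U w) :
    k.κ w y y = k.κ w ((1 : G2 F) : Yl U w) ((1 : G2 F) : Yl U w) := by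
  obtain ⟨g, rfl⟩ := QuotientGroup.mk_surjective y
  have : (g : Yl U w) = g • ((1 : G2 F) : Yl U w) := by
    change _ = ((g * 1 : G2 F) : Yl U w)
    rw [mul_one]
  rw [this, k.inv]

/-- the exceptional places of a family of kernels -/
noncomputable def bad (k : LKer U) : Finset (Pl F) :=
  (k.c_fin.union (U.n_fin.union k.diag_fin)).toFinset

theorem of_not_bad (k : LKer U) {w : Pl F} (hw : w ∉ k.bad) (y y' : Yl U w) :
    (y = y' → k.κ w y y' = 1) ∧ (y ≠ y' → k.κ w y y' = 0) := by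
  rw [bad, Set.Finite.mem_toFinset] at hw
  simp only [Set.mem_union, Set.mem_ofPred_eq, not_or, not_lt, not_not] at hw
  constructor
  · rintro rfl
    rw [k.diag_eq, hw.2.2]
  · intro h
    by_contra h0
    exact h (eq_of_dlY_le_one hw.2.1 ((k.supp w y y' h0).trans hw.1))

/-- The product kernel on `Y U`. -/
noncomputable def ker (k : LKer U) (y y' : Y U) : ℂ := ∏ᶠ w, k.κ w (y w) (y' w)

theorem fin_mulSupport (k : LKer U) (y y' : Y U) : {w | k.κ w (y w) (y' w) ≠ 1}.Finite := by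
  refine ((k.bad.finite_toSet.union y.fin).union y'.fin).subset ?_
  intro w hw
  by_contra hc
  simp only [Set.mem_union, Set.mem_ofPred_eq, not_or, not_not, Finset.mem_coe] at hc
  apply hw
  exact (k.of_not_bad hc.1.1 _ _).1 (hc.1.2.trans hc.2.symm)

theorem ker_eq_prod (k : LKer U) (y y' : Y U) {S : Finset (Pl F)}
    (hS : ∀ w, w ∉ S → k.κ w (y w) (y' w) = 1) : k.ker y y' = ∏ w ∈ S, k.κ w (y w) (y' w) := by
  rw [ker]
  apply finprod_eq_prod_of_mulSupport_subset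
  intro w hw
  by_contra hc
  exact hw (hS w hc)

theorem κ_ne_zero (k : LKer U) {y y' : Y U} (h : k.ker y y' ≠ 0) (w : Pl F) :
    k.κ w (y w) (y' w) ≠ 0 := by
  intro h0
  apply h
  rw [k.ker_eq_prod (S := (k.fin_mulSupport y y').toFinset) y y' (fun w hw => by simpa using hw)]
  refine Finset.prod_eq_zero (i := w) ?_ h0
  rw [Set.Finite.mem_toFinset, Set.mem_ofPred_eq, h0]
  exact zero_ne_one

theorem dlY_le (k : LKer U) {y y' : Y U} (h : k.ker y y' ≠ 0) (w : Pl F) :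
    dlY w (y w) (y' w) ≤ k.c w := k.supp w _ _ (k.κ_ne_zero h w)

theorem ker_ne_zero_iff (k : LKer U) (y y' : Y U) :
    k.ker y y' ≠ 0 ↔ ∀ w, k.κ w (y w) (y' w) ≠ 0 := by
  refine ⟨fun h w => k.κ_ne_zero h w, fun h => ?_⟩
  rw [k.ker_eq_prod (S := (k.fin_mulSupport y y').toFinset) y y' (fun w hw => by simpa using hw)]
  exact Finset.prod_ne_zero_iff.2 fun w _ => h w

theorem ker_smul_GA (k : LKer U) (g : GA F) (y y' : Y U) : k.ker (g • y) (g • y') = k.ker y y' :=
  finprod_congr fun w => k.inv w (g.1 w) _ _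

theorem ker_smul (k : LKer U) (g : G2 F) (y y' : Y U) : k.ker (g • y) (g • y') = k.ker y y' :=
  finprod_congr fun w => k.inv w g _ _

theorem ker_smul_PG (k : LKer U) (p : PG F) (y y' : Y U) : k.ker (p • y) (p • y') = k.ker y y' := by
  obtain ⟨g, rfl⟩ := Matrix.ProjGenLinGroup.mk_surjective p
  exact k.ker_smul g y y'

theorem fin_right (k : LKer U) (y : Y U) : {y' | k.ker y y' ≠ 0}.Finite :=
  (box_finite y k.c_fin).subset fun _ hy' w => k.dlY_le hy' w

theorem fin_left (k : LKer U) (y' : Y U) : {y | k.ker y y' ≠ 0}.Finite :=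
  (box_finite y' k.c_fin).subset fun y hy w => by
    rw [dlY_comm]; exact k.dlY_le hy w

theorem exists_dY_le (k : LKer U) : ∃ C : ℝ, 1 ≤ C ∧ ∀ y y', k.ker y y' ≠ 0 → dY y y' ≤ C := by
  classical
  have h1 : ∀ w, 1 ≤ max (k.c w) 1 := fun w => le_max_right _ _
  refine ⟨∏ w ∈ k.bad, max (k.c w) 1, ?_, fun y y' h => ?_⟩
  · calc (1 : ℝ) = ∏ w ∈ k.bad, 1 := by simp
      _ ≤ _ := Finset.prod_le_prod (fun w _ => zero_le_one) fun w _ => h1 w
  · rw [dY_eq_prod (S := k.bad) y y']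
    · exact Finset.prod_le_prod (fun w _ => zero_le_one.trans (one_le_dlY w _ _))
        fun w _ => (k.dlY_le h w).trans (le_max_left _ _)
    · intro w hw
      have h2 := k.κ_ne_zero h w
      have : y w = y' w := by
        by_contra hc
        exact h2 ((k.of_not_bad hw _ _).2 hc)
      rw [this, dlY_self]

theorem exists_local_norm_le (k : LKer U) (w : Pl F) : ∃ B : ℝ, 1 ≤ B ∧ ∀ y y',
    ‖k.κ w y y'‖ ≤ B := by
  classical
  have hf := dlY_finite w ((1 : G2 F) : Yl U w) (k.c w)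
  refine ⟨1 + ∑ z ∈ hf.toFinset, ‖k.κ w ((1 : G2 F) : Yl U w) z‖, ?_, fun y y' => ?_⟩
  · have : 0 ≤ ∑ z ∈ hf.toFinset, ‖k.κ w ((1 : G2 F) : Yl U w) z‖ :=
      Finset.sum_nonneg fun _ _ => norm_nonneg _
    linarith
  · have h0 : 0 ≤ ∑ z ∈ hf.toFinset, ‖k.κ w ((1 : G2 F) : Yl U w) z‖ :=
      Finset.sum_nonneg fun _ _ => norm_nonneg _
    by_cases h : k.κ w y y' = 0
    · rw [h, norm_zero]; linarith
    · obtain ⟨g, rfl⟩ := QuotientGroup.mk_surjective y
      have e : (g : Yl U w) = g • ((1 : G2 F) : Yl U w) := by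
        change _ = ((g * 1 : G2 F) : Yl U w)
        rw [mul_one]
      have e2 : k.κ w (g : Yl U w) y' = k.κ w ((1 : G2 F) : Yl U w) (g⁻¹ • y') := by
        rw [← k.inv w g ((1 : G2 F) : Yl U w), smul_inv_smul, ← e]
      rw [e2] at h ⊢
      have hm : g⁻¹ • y' ∈ hf.toFinset := by
        rw [Set.Finite.mem_toFinset]
        exact k.supp w _ _ h
      have := Finset.single_le_sum (f := fun z => ‖k.κ w ((1 : G2 F) : Yl U w) z‖)
        (fun _ _ => norm_nonneg _) hm
      linarith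

theorem exists_norm_le (k : LKer U) : ∃ A : ℝ, ∀ y y', ‖k.ker y y'‖ ≤ A := by
  classical
  choose B hB1 hB2 using k.exists_local_norm_le
  refine ⟨∏ w ∈ k.bad, B w, fun y y' => ?_⟩
  by_cases h : k.ker y y' = 0
  · rw [h, norm_zero]
    exact Finset.prod_nonneg fun w _ => zero_le_one.trans (hB1 w)
  · rw [k.ker_eq_prod (S := k.bad) y y', norm_prod]
    · exact Finset.prod_le_prod (fun w _ => norm_nonneg _) fun w _ => hB2 w _ _
    · intro w hw
      have h2 := k.κ_ne_zero h w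
      have : y w = y' w := by
        by_contra hc
        exact h2 ((k.of_not_bad hw _ _).2 hc)
      exact (k.of_not_bad hw _ _).1 this

/-- the opposite kernel -/
def flip (k : LKer U) : LKer U where
  κ w y y' := k.κ w y' y
  inv w g y y' := k.inv w g y' y
  c := k.c
  supp w y y' h := by rw [dlY_comm]; exact k.supp w y' y h
  c_fin := k.c_fin
  diag_fin := k.diag_fin

theorem flip_ker (k : LKer U) (y y' : Y U) : k.flip.ker y y' = k.ker y' y := rfl

/-- the pointwise product of two families of kernels -/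
def mulP (k k' : LKer U) : LKer U where
  κ w y y' := k.κ w y y' * k'.κ w y y'
  inv w g y y' := by rw [k.inv, k'.inv]
  c := k.c
  supp w y y' h := k.supp w y y' (left_ne_zero_of_mul h)
  c_fin := k.c_fin
  diag_fin := by
    refine (k.diag_fin.union k'.diag_fin).subset ?_
    intro w hw
    by_contra hc
    simp only [Set.mem_union, Set.mem_ofPred_eq, not_or, not_not] at hc
    apply hw
    rw [hc.1, hc.2, mul_one]

/-- The local kernel attached to a bi-invariant function. -/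
def ofFun₁ (U : Level F) (w : Pl F) (f : G2 F → ℂ)
    (hf : ∀ h ∈ U.H w, ∀ h' ∈ U.H w, ∀ g, f (h * g * h') = f g) : Yl U w → Yl U w → ℂ :=
  Quotient.lift₂ (fun g g' => f (g⁻¹ * g')) (by
    intro a a' b b' ha hb
    have h1 : a⁻¹ * b ∈ U.H w := QuotientGroup.leftRel_apply.mp ha
    have h2 : a'⁻¹ * b' ∈ U.H w := QuotientGroup.leftRel_apply.mp hb
    have e : b⁻¹ * b' = (a⁻¹ * b)⁻¹ * (a⁻¹ * a') * (a'⁻¹ * b') := by group
    rw [e, hf _ (inv_mem h1) _ h2])

theorem ofFun₁_mk (w : Pl F) (f : G2 F → ℂ)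
    (hf : ∀ h ∈ U.H w, ∀ h' ∈ U.H w, ∀ g, f (h * g * h') = f g) (g g' : G2 F) :
    ofFun₁ U w f hf (g : Yl U w) (g' : Yl U w) = f (g⁻¹ * g') := rfl

/-- The family of kernels attached to a family of bi-invariant functions. -/
def ofFun (U : Level F) (f : ∀ _ : Pl F, G2 F → ℂ)
    (hf : ∀ w, ∀ h ∈ U.H w, ∀ h' ∈ U.H w, ∀ g, f w (h * g * h') = f w g)
    (c : Pl F → ℝ) (hc : ∀ w g, f w g ≠ 0 → dl w g ≤ c w) (hcf : {w | 1 < c w}.Finite)
    (h1 : {w | f w 1 ≠ 1}.Finite) : LKer U where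
  κ w := ofFun₁ U w (f w) (hf w)
  inv w γ y y' := by
    obtain ⟨g, rfl⟩ := QuotientGroup.mk_surjective y
    obtain ⟨g', rfl⟩ := QuotientGroup.mk_surjective y'
    change ofFun₁ U w (f w) (hf w) ((γ * g : G2 F) : Yl U w) ((γ * g' : G2 F) : Yl U w) = _
    rw [ofFun₁_mk, ofFun₁_mk, _root_.mul_inv_rev, mul_assoc, inv_mul_cancel_left]
  c := c
  supp w y y' h := by
    obtain ⟨g, rfl⟩ := QuotientGroup.mk_surjective y
    obtain ⟨g', rfl⟩ := QuotientGroup.mk_surjective y'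
    exact hc w _ h
  c_fin := hcf
  diag_fin := by
    refine h1.subset ?_
    intro w hw h
    apply hw
    rw [ofFun₁_mk, inv_one, one_mul, h]

/-- the function attached to a local kernel -/
def toFun (k : LKer U) (w : Pl F) (g : G2 F) : ℂ := k.κ w ((1 : G2 F) : Yl U w) (g : Yl U w)

theorem κ_mk (k : LKer U) (w : Pl F) (g g' : G2 F) :
    k.κ w (g : Yl U w) (g' : Yl U w) = k.toFun w (g⁻¹ * g') := by
  have h := k.inv w g ((1 : G2 F) : Yl U w) ((g⁻¹ * g' : G2 F) : Yl U w)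
  change k.κ w ((g * 1 : G2 F) : Yl U w) ((g * (g⁻¹ * g') : G2 F) : Yl U w) = _ at h
  rw [mul_one, mul_inv_cancel_left] at h
  exact h

/-- change one local kernel -/
noncomputable def update (k : LKer U) (w₀ : Pl F) (κ₀ : Yl U w₀ → Yl U w₀ → ℂ)
    (inv₀ : ∀ (g : G2 F) y y', κ₀ (g • y) (g • y') = κ₀ y y')
    (c₀ : ℝ) (supp₀ : ∀ y y', κ₀ y y' ≠ 0 → dlY w₀ y y' ≤ c₀) : LKer U := by
  classical
  exact {
    κ := Function.update k.κ w₀ κ₀
    inv := by
      intro w g y y'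
      by_cases h : w = w₀
      · subst h; simp only [Function.update_self]; exact inv₀ g y y'
      · simp only [Function.update_of_ne h]; exact k.inv w g y y'
    c := Function.update k.c w₀ c₀
    supp := by
      intro w y y'
      by_cases h : w = w₀
      · subst h; simp only [Function.update_self]; exact supp₀ y y'
      · simp only [Function.update_of_ne h]; exact k.supp w y y'
    c_fin := by
      refine (k.c_fin.union (Set.finite_singleton w₀)).subset ?_
      intro w hw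
      by_cases h : w = w₀
      · exact Or.inr h
      · left
        simpa only [Set.mem_ofPred_eq, Function.update_of_ne h] using hw
    diag_fin := by
      refine (k.diag_fin.union (Set.finite_singleton w₀)).subset ?_
      intro w hw
      by_cases h : w = w₀
      · exact Or.inr h
      · left
        simpa only [Set.mem_ofPred_eq, Function.update_of_ne h] using hw }

open Classical in
/-- the unit kernel (indicator of the diagonal) -/
noncomputable def unit (U : Level F) : LKer U where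
  κ w y y' := if y = y' then 1 else 0
  inv w g y y' := by simp only [smul_left_cancel_iff]
  c _ := 1
  supp w y y' h := by
    have : y = y' := by
      by_contra hc
      exact h (if_neg hc)
    rw [this, dlY_self]
  c_fin := by simp
  diag_fin := by simp

end LKer

end kernels

section ht

/-- Comparison of heights. -/
theorem ht_le {D : Datum F} {v : Fin 2 → F} (hv : v ≠ 0) (x x' : X D) :
    ht v x' ≤ ((∏ i, (2 * H3.ch (x.1 i) (x'.1 i)) ^ 2) * dY x.2 x'.2) * ht v x := by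
  rw [ht, ht]
  calc hinf v x'.1 * hfin v x'.2 ≤ ((∏ i, (2 * H3.ch (x.1 i) (x'.1 i)) ^ 2) * hinf v x.1) *
        (dY x.2 x'.2 * hfin v x.2) :=
        mul_le_mul (hinf_le v _ _) (hfin_le hv _ _) (hfin_pos hv _).le
          (mul_nonneg (Finset.prod_nonneg fun i _ => by positivity) (hinf_pos hv _).le)
    _ = _ := by ring

/-- Comparison of heights, with bounds. -/
theorem ht_le_of_bounds {D : Datum F} {v : Fin 2 → F} (hv : v ≠ 0) {R C : ℝ} (x x' : X D)
    (hR : ∀ i, H3.ch (x.1 i) (x'.1 i) ≤ R) (hC : dY x.2 x'.2 ≤ C) :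
    ht v x' ≤ (((2 * R) ^ 2) ^ Fintype.card D.I * C) * ht v x := by
  refine (ht_le hv x x').trans (mul_le_mul_of_nonneg_right ?_ (ht_pos hv x).le)
  have h1 : ∏ i, (2 * H3.ch (x.1 i) (x'.1 i)) ^ 2 ≤ ∏ _i : D.I, (2 * R) ^ 2 := by
    refine Finset.prod_le_prod (fun i _ => by positivity) fun i _ => ?_
    have := H3.one_le_ch (x.1 i) (x'.1 i)
    exact pow_le_pow_left₀ (by linarith) (by linarith [hR i]) 2
  rw [Finset.prod_const, Finset.card_univ] at h1
  exact mul_le_mul h1 hC (zero_le_one.trans (one_le_dY _ _)) (by positivity)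

end ht

end Fermat.LT
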