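import Mathlib

/-!
# LT, piece A: the finite part of the space

No completions and no adeles: at a finite place `w` of the number field `F` the local factor is the
set `GL₂(F) ⧸ H_w`, where `H_w ≤ GL₂(F)` contains the scalars and a congruence subgroup.
-/

open NumberField IsDedekindDomain Matrix

namespace Fermat.LT

/-- finite places -/
abbrev Pl (F : Type) [Field F] [NumberField F] : Type := HeightOneSpectrum (𝓞 F)

/-- `GL₂` -/
abbrev G2 (F : Type) [CommRing F] : Type := GL (Fin 2) F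

section norms
variable {F : Type} [Field F] [NumberField F]

/-- normalised absolute value at a finite place -/
noncomputable def av (w : Pl F) : AbsoluteValue F ℝ := NumberField.HeightOneSpectrum.adicAbv F w

/-- residue cardinality -/
noncomputable def qv (w : Pl F) : ℝ := (Ideal.absNorm w.asIdeal : ℝ)

theorem one_lt_qv (w : Pl F) : 1 < qv w := by
  rw [qv]; exact_mod_cast NumberField.HeightOneSpectrum.one_lt_absNorm w

theorem qv_pos (w : Pl F) : 0 < qv w := zero_lt_one.trans (one_lt_qv w)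

theorem av_eq_finitePlace (w : Pl F) (x : F) : av w x = FinitePlace.mk w x := by
  rw [FinitePlace.mk_apply, FinitePlace.norm_embedding]; rfl

theorem av_finite {x : F} (hx : x ≠ 0) : {w : Pl F | av w x ≠ 1}.Finite := by
  have h := FinitePlace.hasFiniteMulSupport hx
  have h2 : {w : Pl F | av w x ≠ 1} =
      (fun w : Pl F => FinitePlace.mk w) ⁻¹' (Function.mulSupport fun w : FinitePlace F => w x) := by
    ext w; simp [av_eq_finitePlace, Function.mem_mulSupport]
  rw [h2]
  exact Set.Finite.preimage (fun a _ b _ hab => FinitePlace.mk_eq_iff.mp hab) h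

theorem finprod_av {x : F} (hx : x ≠ 0) :
    (∏ v : InfinitePlace F, v x ^ v.mult) * ∏ᶠ w : Pl F, av w x = 1 := by
  rw [← NumberField.prod_abs_eq_one hx]
  congr 1
  rw [← finprod_comp_equiv (FinitePlace.equivHeightOneSpectrum (K := F))]
  refine finprod_congr fun w => ?_
  rw [av_eq_finitePlace]
  congr 1
  exact (FinitePlace.equivHeightOneSpectrum (K := F)).symm_apply_apply w

theorem av_add_le (w : Pl F) (x y : F) : av w (x + y) ≤ max (av w x) (av w y) :=
  NumberField.HeightOneSpectrum.isNonarchimedean_adicAbv F w x y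

/-- norm of a vector at `w` -/
noncomputable def nv (w : Pl F) (v : Fin 2 → F) : ℝ := max (av w (v 0)) (av w (v 1))

/-- norm of a matrix at `w` -/
noncomputable def nm (w : Pl F) (g : Matrix (Fin 2) (Fin 2) F) : ℝ :=
  max (max (av w (g 0 0)) (av w (g 0 1))) (max (av w (g 1 0)) (av w (g 1 1)))

theorem av_le_nm (w : Pl F) (g : Matrix (Fin 2) (Fin 2) F) (i j : Fin 2) :
    av w (g i j) ≤ nm w g := by
  fin_cases i <;> fin_cases j <;> simp [nm]

theorem nm_le_iff (w : Pl F) (g : Matrix (Fin 2) (Fin 2) F) (r : ℝ) :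
    nm w g ≤ r ↔ ∀ i j, av w (g i j) ≤ r := by
  constructor
  · intro h i j; exact (av_le_nm w g i j).trans h
  · intro h; simp [nm, h]

theorem av_le_nv (w : Pl F) (v : Fin 2 → F) (i : Fin 2) : av w (v i) ≤ nv w v := by
  fin_cases i <;> simp [nv]

theorem nv_le_iff (w : Pl F) (v : Fin 2 → F) (r : ℝ) : nv w v ≤ r ↔ ∀ i, av w (v i) ≤ r := by
  constructor
  · intro h i; exact (av_le_nv w v i).trans h
  · intro h; simp [nv, h]

theorem nm_nonneg (w : Pl F) (g : Matrix (Fin 2) (Fin 2) F) : 0 ≤ nm w g :=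
  ((av w).nonneg _).trans (av_le_nm w g 0 0)

theorem nv_nonneg (w : Pl F) (v : Fin 2 → F) : 0 ≤ nv w v :=
  ((av w).nonneg _).trans (av_le_nv w v 0)

theorem nv_pos (w : Pl F) {v : Fin 2 → F} (hv : v ≠ 0) : 0 < nv w v := by
  obtain ⟨i, hi⟩ := Function.ne_iff.mp hv
  exact ((av w).pos hi).trans_le (av_le_nv w v i)

theorem nm_mul_le (w : Pl F) (g h : Matrix (Fin 2) (Fin 2) F) : nm w (g * h) ≤ nm w g * nm w h := by
  rw [nm_le_iff]
  intro i j
  rw [Matrix.mul_apply, Fin.sum_univ_two]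
  refine (av_add_le w _ _).trans ?_
  rw [map_mul, map_mul]
  refine max_le ?_ ?_ <;>
  exact mul_le_mul (av_le_nm w g _ _) (av_le_nm w h _ _) ((av w).nonneg _) (nm_nonneg w g)

theorem nm_add_le (w : Pl F) (g h : Matrix (Fin 2) (Fin 2) F) :
    nm w (g + h) ≤ max (nm w g) (nm w h) := by
  rw [nm_le_iff]
  intro i j
  rw [Matrix.add_apply]
  exact (av_add_le w _ _).trans (max_le_max (av_le_nm w g _ _) (av_le_nm w h _ _))

theorem nv_add_le (w : Pl F) (u v : Fin 2 → F) : nv w (u + v) ≤ max (nv w u) (nv w v) := by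
  rw [nv_le_iff]
  intro i
  exact (av_add_le w _ _).trans (max_le_max (av_le_nv w u _) (av_le_nv w v _))

theorem nv_mulVec_le (w : Pl F) (g : Matrix (Fin 2) (Fin 2) F) (v : Fin 2 → F) :
    nv w (g *ᵥ v) ≤ nm w g * nv w v := by
  rw [nv_le_iff]
  intro i
  rw [Matrix.mulVec, dotProduct, Fin.sum_univ_two]
  refine (av_add_le w _ _).trans ?_
  rw [map_mul, map_mul]
  refine max_le ?_ ?_ <;>
  exact mul_le_mul (av_le_nm w g _ _) (av_le_nv w v _) ((av w).nonneg _) (nm_nonneg w g)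

theorem nv_smul (w : Pl F) (c : F) (v : Fin 2 → F) : nv w (c • v) = av w c * nv w v := by
  simp [nv, mul_max_of_nonneg _ _ ((av w).nonneg c)]

theorem nm_smul (w : Pl F) (c : F) (g : Matrix (Fin 2) (Fin 2) F) :
    nm w (c • g) = av w c * nm w g := by
  simp [nm, mul_max_of_nonneg _ _ ((av w).nonneg c)]

theorem nm_neg (w : Pl F) (g : Matrix (Fin 2) (Fin 2) F) : nm w (-g) = nm w g := by
  simp [nm]

theorem nm_one (w : Pl F) : nm w (1 : Matrix (Fin 2) (Fin 2) F) = 1 := by
  simp [nm]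

theorem av_det_le (w : Pl F) (g : Matrix (Fin 2) (Fin 2) F) : av w g.det ≤ nm w g ^ 2 := by
  rw [Matrix.det_fin_two, sub_eq_add_neg, sq]
  refine (av_add_le w _ _).trans ?_
  rw [(av w).map_neg, map_mul, map_mul]
  refine max_le ?_ ?_ <;>
  exact mul_le_mul (av_le_nm w g _ _) (av_le_nm w g _ _) ((av w).nonneg _) (nm_nonneg w g)

theorem nm_adjugate (w : Pl F) (g : Matrix (Fin 2) (Fin 2) F) : nm w g.adjugate = nm w g := by
  rw [Matrix.adjugate_fin_two, nm, nm]
  simp only [Matrix.of_apply, Matrix.cons_val', Matrix.cons_val_zero, Matrix.cons_val_one,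
    Matrix.cons_val_fin_one, (av w).map_neg]
  rw [max_comm (av w (g 1 1)), max_comm (av w (g 1 0)), max_max_max_comm, max_comm (av w (g 0 1)),
    max_comm (av w (g 1 0))]

end norms

section groups
variable {F : Type} [Field F] [NumberField F]

/-- `GL₂(O_w) ≤ GL₂(F)` where `O_w ⊂ F` is the valuation ring -/
def intGL (w : Pl F) : Subgroup (G2 F) where
  carrier := {g | nm w g.1 ≤ 1 ∧ nm w (g⁻¹).1 ≤ 1}
  mul_mem' := by
    rintro g h ⟨h1, h2⟩ ⟨h3, h4⟩
    refine ⟨?_, ?_⟩
    · exact (nm_mul_le w _ _).trans (mul_le_one₀ h1 (nm_nonneg w _) h3)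
    · rw [_root_.mul_inv_rev]
      exact (nm_mul_le w _ _).trans (mul_le_one₀ h4 (nm_nonneg w _) h2)
  one_mem' := by
    constructor
    · simp [nm_one]
    · simp [nm_one]
  inv_mem' := by
    rintro g ⟨h1, h2⟩
    exact ⟨h2, by simpa using h1⟩

/-- principal congruence subgroup of level `n` -/
def congGL (w : Pl F) (n : ℕ) : Subgroup (G2 F) where
  carrier := {g | g ∈ intGL w ∧ nm w (g.1 - 1) ≤ (qv w)⁻¹ ^ n}
  mul_mem' := by
    rintro g h ⟨h1, h2⟩ ⟨h3, h4⟩
    refine ⟨mul_mem h1 h3, ?_⟩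
    have : (g * h).1 - 1 = (g.1 - 1) * h.1 + (h.1 - 1) := by
      simp [sub_mul]
    rw [this]
    refine (nm_add_le w _ _).trans (max_le ?_ h4)
    refine (nm_mul_le w _ _).trans ?_
    refine (mul_le_mul h2 h3.1 (nm_nonneg w _) (by have := qv_pos w; positivity)).trans ?_
    simp
  one_mem' := by
    refine ⟨one_mem _, ?_⟩
    have := qv_pos w
    simp only [Units.val_one, sub_self]
    have h0 : nm w (0 : Matrix (Fin 2) (Fin 2) F) = 0 := by simp [nm]
    rw [h0]; positivity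
  inv_mem' := by
    rintro g ⟨h1, h2⟩
    refine ⟨inv_mem h1, ?_⟩
    have : (g⁻¹).1 - 1 = (g⁻¹).1 * (-(g.1 - 1)) := by
      have h : (g⁻¹).1 * g.1 = 1 := by rw [← Units.val_mul]; simp
      rw [neg_sub, mul_sub, mul_one, h]
    rw [this]
    refine (nm_mul_le w _ _).trans ?_
    rw [nm_neg]
    refine (mul_le_mul h1.2 h2 (nm_nonneg w _) zero_le_one).trans ?_
    simp

/-- scalars -/
def scal (F : Type) [Field F] : Subgroup (G2 F) := Subgroup.center (G2 F)

/-- `F^* · GL₂(O_w)` : the matrices with `‖g‖² = |det g|`. -/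
def stdH (w : Pl F) : Subgroup (G2 F) where
  carrier := {g | nm w g.1 * nm w (g⁻¹).1 ≤ 1}
  mul_mem' := by
    rintro g h h1 h2
    change nm w g.1 * nm w (g⁻¹).1 ≤ 1 at h1
    change nm w h.1 * nm w (h⁻¹).1 ≤ 1 at h2
    change nm w (g * h).1 * nm w ((g * h)⁻¹).1 ≤ 1
    rw [_root_.mul_inv_rev]
    have e1 := nm_mul_le w g.1 h.1
    have e2 := nm_mul_le w (h⁻¹).1 (g⁻¹).1
    calc nm w (g * h).1 * nm w (h⁻¹ * g⁻¹).1
        ≤ (nm w g.1 * nm w h.1) * (nm w (h⁻¹).1 * nm w (g⁻¹).1) :=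
          mul_le_mul e1 e2 (nm_nonneg w _) (mul_nonneg (nm_nonneg w _) (nm_nonneg w _))
      _ = (nm w g.1 * nm w (g⁻¹).1) * (nm w h.1 * nm w (h⁻¹).1) := by ring
      _ ≤ 1 := mul_le_one₀ h1 (mul_nonneg (nm_nonneg w _) (nm_nonneg w _)) h2
  one_mem' := by
    change nm w (1 : G2 F).1 * nm w ((1 : G2 F)⁻¹).1 ≤ 1
    simp [nm_one]
  inv_mem' := by
    intro g h
    change nm w (g⁻¹).1 * nm w ((g⁻¹)⁻¹).1 ≤ 1
    rw [inv_inv, mul_comm]; exact h

theorem mem_stdH (w : Pl F) (g : G2 F) : g ∈ stdH w ↔ nm w g.1 * nm w (g⁻¹).1 ≤ 1 := Iff.rfl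

theorem intGL_le_stdH (w : Pl F) : intGL w ≤ stdH w := fun _ h =>
  (mul_le_one₀ h.1 (nm_nonneg w _) h.2 : _)

omit [NumberField F] in
theorem mem_scal_iff (g : G2 F) : g ∈ scal F ↔ ∃ c : Fˣ, g.1 = Matrix.scalar (Fin 2) (c : F) := by
  rw [scal, Matrix.GeneralLinearGroup.center_eq_range_scalar, MonoidHom.mem_range]
  constructor
  · rintro ⟨c, rfl⟩; exact ⟨c, rfl⟩
  · rintro ⟨c, hc⟩; exact ⟨c, Units.ext hc.symm⟩

theorem nm_mul_inv_ge (w : Pl F) (g : G2 F) : 1 ≤ nm w g.1 * nm w (g⁻¹).1 := by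
  have h := nm_mul_le w g.1 (g⁻¹).1
  rwa [← Units.val_mul, mul_inv_cancel, Units.val_one, nm_one] at h

theorem nm_pos (w : Pl F) (g : G2 F) : 0 < nm w g.1 := by
  have := nm_mul_inv_ge w g
  by_contra hc
  have h0 : nm w g.1 = 0 := le_antisymm (not_lt.mp hc) (nm_nonneg w _)
  rw [h0, zero_mul] at this
  linarith

theorem nm_inv_of_mem (w : Pl F) {g : G2 F} (hg : g ∈ stdH w) : nm w (g⁻¹).1 = (nm w g.1)⁻¹ := by
  have h1 := nm_mul_inv_ge w g
  have h2 : nm w g.1 * nm w (g⁻¹).1 ≤ 1 := hg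
  exact eq_inv_of_mul_eq_one_right (le_antisymm h2 h1)

theorem nv_mulVec_of_mem (w : Pl F) {g : G2 F} (hg : g ∈ stdH w) (v : Fin 2 → F) :
    nv w (g.1 *ᵥ v) = nm w g.1 * nv w v := by
  apply le_antisymm (nv_mulVec_le w _ _)
  have h := nv_mulVec_le w (g⁻¹).1 (g.1 *ᵥ v)
  rw [Matrix.mulVec_mulVec, ← Units.val_mul, inv_mul_cancel, Units.val_one, one_mulVec,
    nm_inv_of_mem w hg] at h
  have hp := nm_pos w g
  calc nm w g.1 * nv w v ≤ nm w g.1 * ((nm w g.1)⁻¹ * nv w (g.1 *ᵥ v)) :=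
        mul_le_mul_of_nonneg_left h hp.le
    _ = nv w (g.1 *ᵥ v) := by field_simp

theorem av_det_of_mem (w : Pl F) {g : G2 F} (hg : g ∈ stdH w) : av w g.1.det = nm w g.1 ^ 2 := by
  apply le_antisymm (av_det_le w _)
  have h := av_det_le w (g⁻¹).1
  rw [nm_inv_of_mem w hg] at h
  have h3 : av w g.1.det * av w (g⁻¹).1.det = 1 := by
    rw [← map_mul, ← Matrix.det_mul, ← Units.val_mul, mul_inv_cancel, Units.val_one, det_one,
      map_one]
  have hp := nm_pos w g
  have h4 : 0 < av w g.1.det := by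
    apply (av w).pos
    exact (Matrix.isUnit_iff_isUnit_det _).mp g.isUnit |>.ne_zero
  have h5 : av w (g⁻¹).1.det = (av w g.1.det)⁻¹ := eq_inv_of_mul_eq_one_right h3
  rw [h5, inv_pow] at h
  exact (inv_le_inv₀ h4 (by positivity)).mp h

/-- scalars are in `stdH w` -/
theorem scal_le_stdH (w : Pl F) : scal F ≤ stdH w := by
  intro g hg
  obtain ⟨c, hc⟩ := (mem_scal_iff g).mp hg
  rw [mem_stdH]
  have h1 : g.1 = (c : F) • (1 : Matrix (Fin 2) (Fin 2) F) := by
    rw [hc, Matrix.scalar_apply, Matrix.smul_one_eq_diagonal]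
  have h2 : (g⁻¹).1 = (c : F)⁻¹ • (1 : Matrix (Fin 2) (Fin 2) F) := by
    have : (g⁻¹).1 * g.1 = 1 := by rw [← Units.val_mul]; simp
    rw [h1, Matrix.mul_smul, mul_one] at this
    rw [← this, smul_smul, inv_mul_cancel₀ c.ne_zero, one_smul]
  rw [h1, h2, nm_smul, nm_smul, nm_one, map_inv₀]
  have : av w (c : F) ≠ 0 := (av w).ne_zero c.ne_zero
  field_simp
  exact le_refl _

/-- the scalar matrix `c` -/
def sc (c : Fˣ) : G2 F := Matrix.GeneralLinearGroup.scalar (Fin 2) c

omit [NumberField F] in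
theorem sc_mem (c : Fˣ) : sc c ∈ scal F := (mem_scal_iff _).mpr ⟨c, rfl⟩

omit [NumberField F] in
theorem sc_val (c : Fˣ) : (sc c).1 = (c : F) • (1 : Matrix (Fin 2) (Fin 2) F) := by
  have : (sc c).1 = Matrix.scalar (Fin 2) (c : F) := rfl
  rw [this, Matrix.scalar_apply, Matrix.smul_one_eq_diagonal]

omit [NumberField F] in
theorem sc_mul_val (c : Fˣ) (g : G2 F) : (sc c * g).1 = (c : F) • g.1 := by
  rw [Units.val_mul, sc_val, Matrix.smul_mul, one_mul]

omit [NumberField F] in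
theorem sc_inv (c : Fˣ) : (sc c)⁻¹ = sc c⁻¹ := (map_inv _ _).symm

omit [NumberField F] in
theorem sc_comm (c : Fˣ) (g : G2 F) : sc c * g = g * sc c := by
  ext i j; simp [Units.val_mul, sc_val]

theorem exists_nm_eq (w : Pl F) (g : G2 F) : ∃ c : Fˣ, nm w g.1 = av w c := by
  have : ∃ i j, nm w g.1 = av w (g.1 i j) := by
    rcases max_choice (max (av w (g.1 0 0)) (av w (g.1 0 1)))
      (max (av w (g.1 1 0)) (av w (g.1 1 1))) with h | h <;> rw [nm, h]
    · rcases max_choice (av w (g.1 0 0)) (av w (g.1 0 1)) with h | h <;> rw [h]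
      exacts [⟨0, 0, rfl⟩, ⟨0, 1, rfl⟩]
    · rcases max_choice (av w (g.1 1 0)) (av w (g.1 1 1)) with h | h <;> rw [h]
      exacts [⟨1, 0, rfl⟩, ⟨1, 1, rfl⟩]
  obtain ⟨i, j, h⟩ := this
  have h0 : g.1 i j ≠ 0 := by
    intro h1
    have := nm_pos w g
    rw [h, h1, map_zero] at this
    exact lt_irrefl _ this
  exact ⟨Units.mk0 _ h0, h⟩

/-- `stdH w = F^* · GL₂(O_w)` -/
theorem mem_stdH_iff (w : Pl F) (g : G2 F) : g ∈ stdH w ↔ ∃ c : Fˣ, sc c⁻¹ * g ∈ intGL w := by
  constructor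
  · intro hg
    obtain ⟨c, hc⟩ := exists_nm_eq w g
    have hp := nm_pos w g
    refine ⟨c, ?_, ?_⟩
    · rw [sc_mul_val, nm_smul, hc, Units.val_inv_eq_inv_val, map_inv₀,
        inv_mul_cancel₀ ((av w).ne_zero c.ne_zero)]
    · rw [_root_.mul_inv_rev, sc_inv, inv_inv, ← sc_comm, sc_mul_val, nm_smul, nm_inv_of_mem w hg,
        hc, mul_inv_cancel₀ ((av w).ne_zero c.ne_zero)]
  · rintro ⟨c, hc⟩
    have := mul_mem (scal_le_stdH w (sc_mem c)) (intGL_le_stdH w hc)
    rwa [← mul_assoc, ← sc_inv, mul_inv_cancel, one_mul] at this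

theorem congGL_zero (w : Pl F) : congGL w 0 = intGL w := by
  apply le_antisymm
  · exact fun g hg => hg.1
  · intro g hg
    refine ⟨hg, ?_⟩
    rw [pow_zero, sub_eq_add_neg]
    refine (nm_add_le w _ _).trans (max_le hg.1 ?_)
    rw [nm_neg, nm_one]

end groups

/-- A level structure for `PGL₂(F)`: at every finite place a subgroup `H_w` with
`F^* K(w^n) ≤ H_w ≤ F^* GL₂(O_w)`, with equality on the right for almost all `w`. -/
structure Level (F : Type) [Field F] [NumberField F] where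
  /-- the local subgroup -/
  H : Pl F → Subgroup (G2 F)
  scal_le : ∀ w, scal F ≤ H w
  le_std : ∀ w, H w ≤ stdH w
  /-- conductor exponents -/
  n : Pl F → ℕ
  cong_le : ∀ w, congGL w (n w) ≤ H w
  n_fin : {w | n w ≠ 0}.Finite

section Y
variable {F : Type} [Field F] [NumberField F]

theorem Level.H_eq (U : Level F) {w : Pl F} (h : U.n w = 0) : U.H w = stdH w := by
  apply le_antisymm (U.le_std w)
  intro g hg
  obtain ⟨c, hc⟩ := (mem_stdH_iff w g).mp hg
  have h1 : sc c⁻¹ * g ∈ U.H w := U.cong_le w (by rw [h, congGL_zero]; exact hc)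
  have h2 : sc c ∈ U.H w := U.scal_le w (sc_mem c)
  have := mul_mem h2 h1
  rwa [← mul_assoc, ← sc_inv, mul_inv_cancel, one_mul] at this

/-- the trivial (everywhere unramified) level -/
def Level.one (F : Type) [Field F] [NumberField F] : Level F where
  H := stdH
  scal_le := scal_le_stdH
  le_std _ := le_rfl
  n _ := 0
  cong_le w := by rw [congGL_zero]; exact intGL_le_stdH w
  n_fin := by simp

/-- The local factor at `w`. -/
abbrev Yl (U : Level F) (w : Pl F) : Type := G2 F ⧸ U.H w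

/-- The finite part of the space: `PGL₂(𝔸_fin)/U`, as a restricted product of the sets
`GL₂(F) ⧸ H_w` (recall that `GL₂(F)` is dense in `GL₂(F_w)`). -/
structure Y (U : Level F) where
  /-- the local components -/
  val : ∀ w, Yl U w
  fin : {w | val w ≠ ((1 : G2 F) : Yl U w)}.Finite

instance (U : Level F) : CoeFun (Y U) (fun _ => ∀ w, Yl U w) := ⟨fun y => y.val⟩

theorem Y.ext' {U : Level F} {y z : Y U} (h : ∀ w, y w = z w) : y = z := by
  cases y; cases z; congr; exact funext h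

instance (U : Level F) : TopologicalSpace (Y U) := ⊥
instance (U : Level F) : DiscreteTopology (Y U) := ⟨rfl⟩
instance (U : Level F) : MeasurableSpace (Y U) := ⊤
instance (U : Level F) : MeasurableSingletonClass (Y U) := ⟨fun _ => trivial⟩
noncomputable instance (U : Level F) : MeasureTheory.MeasureSpace (Y U) :=
  ⟨MeasureTheory.Measure.count⟩

/-- The restricted product of copies of `GL₂(F)` over all finite places
(a dense subgroup of `GL₂(𝔸_fin)`). -/
def GA (F : Type) [Field F] [NumberField F] : Subgroup (Pl F → G2 F) where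
  carrier := {g | {w | g w ∉ intGL w}.Finite}
  mul_mem' := by
    intro g h hg hh
    refine (hg.union hh).subset ?_
    intro w hw
    by_contra hc
    simp only [Set.mem_union, Set.mem_ofPred_eq, not_or, not_not] at hc
    exact hw (mul_mem hc.1 hc.2)
  one_mem' := by
    have : {w : Pl F | (1 : Pl F → G2 F) w ∉ intGL w} = ∅ := by
      ext w; simp [one_mem]
    change {w : Pl F | (1 : Pl F → G2 F) w ∉ intGL w}.Finite
    rw [this]; exact Set.finite_empty
  inv_mem' := by
    intro g hg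
    refine hg.subset ?_
    intro w hw h2
    exact hw (inv_mem h2)

variable {U : Level F}

theorem intGL_smul_one (U : Level F) {w : Pl F} (hw : U.n w = 0) {g : G2 F} (hg : g ∈ intGL w) :
    g • ((1 : G2 F) : Yl U w) = ((1 : G2 F) : Yl U w) := by
  change ((g * 1 : G2 F) : Yl U w) = ((1 : G2 F) : Yl U w)
  rw [QuotientGroup.eq, mul_one, mul_one, U.H_eq hw]
  exact inv_mem (intGL_le_stdH w hg)

/-- the action of the group `GA` on the finite part `Y` -/
instance : MulAction (GA F) (Y U) where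
  smul g y := ⟨fun w => g.1 w • y w, by
    refine ((g.2.union y.fin).union U.n_fin).subset ?_
    intro w hw
    by_contra hc
    simp only [Set.mem_union, Set.mem_ofPred_eq, not_or, not_not] at hc
    apply hw
    rw [hc.1.2, intGL_smul_one U hc.2 hc.1.1]⟩
  one_smul y := Y.ext' fun w => one_smul _ _
  mul_smul g h y := Y.ext' fun w => mul_smul _ _ _

theorem GA_smul_apply (g : GA F) (y : Y U) (w : Pl F) : (g • y) w = g.1 w • y w := rfl

/-- the diagonal embedding `GL₂(F) → GA` -/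
def diag : G2 F →* GA F where
  toFun g := ⟨fun _ => g, by
    have key : ∀ x : F, {w : Pl F | 1 < av w x}.Finite := by
      intro x
      by_cases hx : x = 0
      · have : {w : Pl F | 1 < av w x} = ∅ := by
          ext w; simp [hx]
        rw [this]; exact Set.finite_empty
      · exact (av_finite hx).subset fun w hw => (ne_of_gt hw)
    have key2 : ∀ g : Matrix (Fin 2) (Fin 2) F, {w : Pl F | 1 < nm w g}.Finite := by
      intro g
      refine ((((key (g 0 0)).union (key (g 0 1))).union (key (g 1 0))).union (key (g 1 1))).subset ?_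
      intro w hw
      simp only [nm, Set.mem_ofPred_eq, lt_max_iff] at hw
      simp only [Set.mem_union, Set.mem_ofPred_eq]
      tauto
    refine ((key2 g.1).union (key2 (g⁻¹).1)).subset ?_
    intro w hw
    by_contra hc
    simp only [Set.mem_union, Set.mem_ofPred_eq, not_or, not_lt] at hc
    exact hw ⟨hc.1, hc.2⟩⟩
  map_one' := rfl
  map_mul' _ _ := rfl

instance : MulAction (G2 F) (Y U) := MulAction.compHom _ (diag (F := F))

theorem G2_smul_apply (g : G2 F) (y : Y U) (w : Pl F) : (g • y) w = g • y w := rfl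

/-- local height factor -/
noncomputable def hloc (w : Pl F) (v : Fin 2 → F) (g : G2 F) : ℝ :=
  (av w g.1.det)⁻¹ * ((nv w ((g⁻¹).1 *ᵥ v)) ^ 2)⁻¹

theorem hloc_mul (w : Pl F) (v : Fin 2 → F) (g : G2 F) {h : G2 F} (hh : h ∈ stdH w) :
    hloc w v (g * h) = hloc w v g := by
  have h1 : nv w (((g * h)⁻¹).1 *ᵥ v) = (nm w h.1)⁻¹ * nv w ((g⁻¹).1 *ᵥ v) := by
    rw [_root_.mul_inv_rev, Units.val_mul, ← Matrix.mulVec_mulVec,
      nv_mulVec_of_mem w (inv_mem hh), nm_inv_of_mem w hh]
  have hp := nm_pos w h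
  rw [hloc, hloc, h1, Units.val_mul, Matrix.det_mul, map_mul, av_det_of_mem w hh, mul_pow,
    mul_inv, mul_inv, inv_pow, inv_inv]
  field_simp

theorem hloc_smul_smul (w : Pl F) (v : Fin 2 → F) (γ g : G2 F) :
    hloc w (γ.1 *ᵥ v) (γ * g) = (av w γ.1.det)⁻¹ * hloc w v g := by
  rw [hloc, hloc, _root_.mul_inv_rev, Units.val_mul, Units.val_mul, Matrix.mulVec_mulVec, mul_assoc,
    ← Units.val_mul γ⁻¹, inv_mul_cancel, Units.val_one, mul_one, Matrix.det_mul, map_mul, mul_inv,
    mul_assoc]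

theorem hloc_smul (w : Pl F) (c : F) (v : Fin 2 → F) (g : G2 F) :
    hloc w (c • v) g = (av w c ^ 2)⁻¹ * hloc w v g := by
  rw [hloc, hloc, Matrix.mulVec_smul, nv_smul, mul_pow, mul_inv]
  ring

/-- local height factor, on `Yl` -/
noncomputable def hY (w : Pl F) (v : Fin 2 → F) : Yl U w → ℝ :=
  Quotient.lift (hloc w v) (by
    intro a b hab
    have h : a⁻¹ * b ∈ U.H w := QuotientGroup.leftRel_apply.mp hab
    have := hloc_mul w v a (U.le_std w h)
    rw [mul_inv_cancel_left] at this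
    exact this.symm)

theorem hY_mk (w : Pl F) (v : Fin 2 → F) (g : G2 F) : hY (U := U) w v (g : Yl U w) = hloc w v g := rfl

end Y

end Fermat.LT
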