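import Fermat.Agent.LT.A.Mixed
import Fermat.Agent.LT.A.Height

/-!
# LT, piece A: Minkowski's theorem (every point is close to some cusp), archimedean form
-/

open NumberField IsDedekindDomain Matrix MeasureTheory Module
open scoped ComplexConjugate ENNReal

namespace Fermat.LT

variable {F : Type} [Field F] [NumberField F] (A : Arch F)

include A in
theorem Arch.nonempty : Nonempty A.I := by
  obtain ⟨w⟩ : Nonempty (InfinitePlace F) := inferInstance
  exact ⟨A.equiv.symm w⟩

/-- the convex body of Minkowski's argument -/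
def body {A : Arch F} (x : XI A) (s : ℝ) : Set ((A.I → ℂ) × (A.I → ℂ)) :=
  {u | ∀ i, ‖u.1 i - (x i).z * u.2 i‖ < s * √(x i).t ∧ ‖u.2 i‖ < s / √(x i).t}

theorem body_symm {A : Arch F} (x : XI A) (s : ℝ) : ∀ u ∈ body x s, -u ∈ body x s := by
  intro u hu i
  obtain ⟨h1, h2⟩ := hu i
  constructor
  · have : (-u).1 i - (x i).z * (-u).2 i = -(u.1 i - (x i).z * u.2 i) := by
      simp; ring
    rw [this, norm_neg]; exact h1
  · have : (-u).2 i = -(u.2 i) := rfl
    rw [this, norm_neg]; exact h2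

theorem body_convex {A : Arch F} (x : XI A) (s : ℝ) : Convex ℝ (body x s) := by
  intro u hu v hv a b ha hb hab i
  obtain ⟨h1, h2⟩ := hu i
  obtain ⟨h3, h4⟩ := hv i
  constructor
  · have : (a • u + b • v).1 i - (x i).z * (a • u + b • v).2 i =
        a • (u.1 i - (x i).z * u.2 i) + b • (v.1 i - (x i).z * v.2 i) := by
      simp; ring
    rw [this]
    have hc := convex_ball (0 : ℂ) (s * √(x i).t)
    have := hc (x := u.1 i - (x i).z * u.2 i) (by simpa using h1)
      (y := v.1 i - (x i).z * v.2 i) (by simpa using h3) ha hb hab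
    simpa using this
  · have : (a • u + b • v).2 i = a • (u.2 i) + b • (v.2 i) := by
      simp
    rw [this]
    have hc := convex_ball (0 : ℂ) (s / √(x i).t)
    have := hc (x := u.2 i) (by simpa using h2)
      (y := v.2 i) (by simpa using h4) ha hb hab
    simpa using this

theorem body_measurable {A : Arch F} (x : XI A) (s : ℝ) : MeasurableSet (body x s) := by
  have : body x s = ⋂ i, ({u | ‖u.1 i - (x i).z * u.2 i‖ < s * √(x i).t} ∩
      {u | ‖u.2 i‖ < s / √(x i).t}) := by
    ext u; simp [body]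
  rw [this]
  refine MeasurableSet.iInter fun i => MeasurableSet.inter ?_ ?_
  · exact (isOpen_lt (by fun_prop) continuous_const).measurableSet
  · exact (isOpen_lt (by fun_prop) continuous_const).measurableSet

theorem volume_body {A : Arch F} (x : XI A) (s : ℝ) (hs : 0 < s) :
    volume (body x s) = (ENNReal.ofReal s ^ 4 * (NNReal.pi : ℝ≥0∞) ^ 2) ^ Fintype.card A.I := by
  have e1 : volume (body x s) = ∫⁻ y : A.I → ℂ, volume ((fun u : A.I → ℂ => (u, y)) ⁻¹' body x s) := by
    rw [MeasureTheory.Measure.volume_eq_prod, MeasureTheory.Measure.prod_apply_symm (body_measurable x s)]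
  set B : Set (A.I → ℂ) := Set.pi Set.univ fun i => Metric.ball 0 (s / √(x i).t) with hB
  have hBm : MeasurableSet B := MeasurableSet.univ_pi fun i => measurableSet_ball
  set c : ℝ≥0∞ := ∏ i, (ENNReal.ofReal (s * √(x i).t) ^ 2 * NNReal.pi) with hc
  have e2 : ∀ y : A.I → ℂ, volume ((fun u : A.I → ℂ => (u, y)) ⁻¹' body x s) =
      B.indicator (fun _ => c) y := by
    intro y
    by_cases hy : y ∈ B
    · rw [Set.indicator_of_mem hy]
      have : (fun u : A.I → ℂ => (u, y)) ⁻¹' body x s =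
          Set.pi Set.univ fun i => Metric.ball ((x i).z * y i) (s * √(x i).t) := by
        ext u
        simp only [Set.mem_preimage, body, Set.mem_ofPred_eq, Set.mem_pi, Set.mem_univ,
          true_implies, mem_ball_iff_norm]
        constructor
        · intro h i; exact (h i).1
        · intro h i
          refine ⟨h i, ?_⟩
          have := hy i (Set.mem_univ i)
          simpa using this
      rw [this, volume_pi_pi]
      exact Finset.prod_congr rfl fun i _ => Complex.volume_ball _ _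
    · rw [Set.indicator_of_notMem hy]
      have : (fun u : A.I → ℂ => (u, y)) ⁻¹' body x s = ∅ := by
        ext u
        simp only [Set.mem_preimage, Set.mem_empty_iff_false, iff_false]
        intro h
        apply hy
        intro i _
        simpa using (h i).2
      rw [this, measure_empty]
  rw [e1]
  simp_rw [e2]
  rw [lintegral_indicator hBm, setLIntegral_const, volume_pi_pi]
  simp_rw [Complex.volume_ball]
  rw [hc, ← Finset.prod_mul_distrib]
  have e3 : ∀ i : A.I, ENNReal.ofReal (s * √(x i).t) ^ 2 * (NNReal.pi : ℝ≥0∞) *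
      (ENNReal.ofReal (s / √(x i).t) ^ 2 * (NNReal.pi : ℝ≥0∞)) =
      ENNReal.ofReal s ^ 4 * (NNReal.pi : ℝ≥0∞) ^ 2 := by
    intro i
    have hp : 0 < √(x i).t := Real.sqrt_pos.mpr (x i).t_pos
    have : ENNReal.ofReal (s * √(x i).t) * ENNReal.ofReal (s / √(x i).t) = ENNReal.ofReal s ^ 2 := by
      rw [← ENNReal.ofReal_mul (by positivity), ← ENNReal.ofReal_pow hs.le]
      congr 1
      field_simp
    calc _ = (ENNReal.ofReal (s * √(x i).t) * ENNReal.ofReal (s / √(x i).t)) ^ 2
          * (NNReal.pi : ℝ≥0∞) ^ 2 := by ring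
      _ = _ := by rw [this]; ring
  rw [Finset.prod_congr rfl fun i _ => e3 i, Finset.prod_const, Finset.card_univ]

/-- **Minkowski**: for every `x` there is a nonzero integral vector `v` with
`Q_{x_i}(v) ≤ C` for all `i`. -/
theorem exists_short : ∃ C : ℝ, 0 < C ∧ ∀ x : XI A, ∃ v : Fin 2 → 𝓞 F, v ≠ 0 ∧
    ∀ i, (x i).Q (A.emb i (v 0)) (A.emb i (v 1)) ≤ C := by
  have := Arch.nonempty A
  set b := latB2 A with hb
  set FD := ZSpan.fundamentalDomain b with hFD
  have hfin : volume FD ≠ ⊤ := (ZSpan.fundamentalDomain_isBounded b).measure_lt_top.ne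
  set m : ℝ≥0∞ := volume FD * 2 ^ finrank ℝ ((A.I → ℂ) × (A.I → ℂ)) with hm
  have hm' : m ≠ ⊤ := ENNReal.mul_ne_top hfin (by finiteness)
  set s : ℝ := max 1 (m.toReal + 1) with hs
  have hs1 : 1 ≤ s := le_max_left _ _
  have hs0 : 0 < s := by linarith
  have hlt : m < (ENNReal.ofReal s ^ 4 * (NNReal.pi : ℝ≥0∞) ^ 2) ^ Fintype.card A.I := by
    have h1 : m < ENNReal.ofReal s := by
      rw [← ENNReal.ofReal_toReal hm', ENNReal.ofReal_lt_ofReal_iff hs0]
      exact lt_of_lt_of_le (by linarith) (le_max_right _ _)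
    refine h1.trans_le ?_
    have h2 : (1 : ℝ≥0∞) ≤ ENNReal.ofReal s := by
      rw [← ENNReal.ofReal_one]; exact ENNReal.ofReal_le_ofReal hs1
    have h3 : (1 : ℝ≥0∞) ≤ (NNReal.pi : ℝ≥0∞) := by
      have : (1 : NNReal) ≤ NNReal.pi := by
        rw [← NNReal.coe_le_coe]
        have := Real.pi_gt_three
        simp only [NNReal.coe_one, NNReal.coe_real_pi]
        linarith
      exact_mod_cast this
    have h4 : ENNReal.ofReal s ≤ ENNReal.ofReal s ^ 4 * (NNReal.pi : ℝ≥0∞) ^ 2 := by
      calc ENNReal.ofReal s = ENNReal.ofReal s ^ 1 * 1 := by ring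
        _ ≤ ENNReal.ofReal s ^ 4 * (NNReal.pi : ℝ≥0∞) ^ 2 :=
          mul_le_mul' (pow_le_pow_right₀ h2 (by norm_num)) (one_le_pow₀ h3)
    calc ENNReal.ofReal s ≤ ENNReal.ofReal s ^ 4 * (NNReal.pi : ℝ≥0∞) ^ 2 := h4
      _ = (ENNReal.ofReal s ^ 4 * (NNReal.pi : ℝ≥0∞) ^ 2) ^ 1 := (pow_one _).symm
      _ ≤ _ := pow_le_pow_right₀ (h2.trans h4) (Fintype.card_pos)
  refine ⟨2 * s ^ 2, by positivity, fun x => ?_⟩
  have hlt' : volume FD * 2 ^ finrank ℝ ((A.I → ℂ) × (A.I → ℂ)) < volume (body x s) := by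
    rw [volume_body x s hs0]; exact hlt
  have : (volume : Measure ((A.I → ℂ) × (A.I → ℂ))).IsAddHaarMeasure :=
    Measure.prod.instIsAddHaarMeasure _ _
  have : Countable (Submodule.span ℤ (Set.range b)).toAddSubgroup :=
    inferInstanceAs (Countable (Submodule.span ℤ (Set.range b)))
  obtain ⟨u, hu0, hu⟩ := exists_ne_zero_mem_lattice_of_measure_mul_two_pow_lt_measure
    (L := (Submodule.span ℤ (Set.range b)).toAddSubgroup)
    (ZSpan.isAddFundamentalDomain' b volume) (body_symm x s) (body_convex x s) hlt'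
  obtain ⟨α, β, hα, hβ⟩ := mem_span_latB2 A u.2
  refine ⟨![α, β], ?_, ?_⟩
  · intro h
    apply hu0
    have h0 : α = 0 := congrFun h 0
    have h1 : β = 0 := congrFun h 1
    apply Subtype.ext
    refine Prod.ext ?_ ?_
    · rw [← hα, h0]; simp
    · rw [← hβ, h1]; simp
  · intro i
    obtain ⟨h1, h2⟩ := hu i
    rw [← hα, ← hβ] at h1
    rw [← hβ] at h2
    have ht := (x i).t_pos
    have hp : 0 < √(x i).t := Real.sqrt_pos.mpr ht
    have hsq : √(x i).t ^ 2 = (x i).t := Real.sq_sqrt ht.le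
    change (x i).Q (A.emb i α) (A.emb i β) ≤ _
    change ‖A.emb i α - (x i).z * A.emb i β‖ < _ at h1
    change ‖A.emb i β‖ < _ at h2
    rw [H3.Q, div_le_iff₀ ht, Complex.normSq_eq_norm_sq, Complex.normSq_eq_norm_sq]
    have h3 : ‖A.emb i α - (x i).z * A.emb i β‖ ^ 2 ≤ s ^ 2 * (x i).t := by
      have := pow_le_pow_left₀ (norm_nonneg _) h1.le 2
      rwa [mul_pow, hsq] at this
    have h4 : (x i).t * ‖A.emb i β‖ ^ 2 ≤ s ^ 2 := by
      have := pow_le_pow_left₀ (norm_nonneg _) h2.le 2
      rw [div_pow, hsq, le_div_iff₀ ht] at this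
      linarith
    nlinarith

end Fermat.LT
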