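import Fermat.Agent.LT.A.Height
import Fermat.Agent.LT.A.Arch

/-!
# LT, piece A: proper discontinuity of `PGL₂(F)` on `X`

`proper`: for compact `C, C' ⊆ X D` the set `{g : PG F | ∃ x ∈ C, g • x ∈ C'}` is finite.
Proof: Northcott (from Mathlib) for the ratios of the entries of `g`.
-/

open NumberField IsDedekindDomain Matrix MeasureTheory Topology

namespace Fermat.LT

variable {F : Type} [Field F] [NumberField F]

section local_bound

theorem nm_sq_le_of_smul_eq (w : Pl F) {U : Level F} (h h' g : G2 F)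
    (hg : g • ((h : G2 F) : Yl U w) = ((h' : G2 F) : Yl U w)) :
    nm w g.1 ^ 2 ≤ ((nm w h'.1 ^ 2 * nm w (h⁻¹).1 ^ 2) * (av w h.1.det * (av w h'.1.det)⁻¹)) *
      av w g.1.det := by
  have h1 : ((g * h : G2 F) : Yl U w) = ((h' : G2 F) : Yl U w) := hg
  have h2 : h'⁻¹ * (g * h) ∈ stdH w := by
    have := QuotientGroup.eq.1 h1.symm
    exact U.le_std w this
  set k := h'⁻¹ * (g * h) with hk
  have e : g = h' * k * h⁻¹ := by rw [hk]; group
  have hk2 := av_det_of_mem w h2
  have hkdet : av w k.1.det = (av w h'.1.det)⁻¹ * (av w g.1.det * av w h.1.det) := by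
    have : k.1.det = (h'.1.det)⁻¹ * (g.1.det * h.1.det) := by
      have h3 : h'.1.det * k.1.det = g.1.det * h.1.det := by
        rw [← Matrix.det_mul, ← Matrix.det_mul, ← Units.val_mul, ← Units.val_mul, hk,
          mul_inv_cancel_left]
      have h4 : h'.1.det ≠ 0 := h'.det_ne_zero
      rw [← h3, inv_mul_cancel_left₀ h4]
    rw [this, map_mul, map_mul, map_inv₀]
  have h5 : nm w g.1 ≤ nm w h'.1 * nm w k.1 * nm w (h⁻¹).1 := by
    rw [e]
    refine (nm_mul_le w _ _).trans ?_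
    exact mul_le_mul_of_nonneg_right (nm_mul_le w _ _) (nm_nonneg w _)
  calc nm w g.1 ^ 2 ≤ (nm w h'.1 * nm w k.1 * nm w (h⁻¹).1) ^ 2 :=
        pow_le_pow_left₀ (nm_nonneg w _) h5 2
    _ = nm w h'.1 ^ 2 * nm w (h⁻¹).1 ^ 2 * nm w k.1 ^ 2 := by ring
    _ = _ := by rw [← hk2, hkdet]; ring

/-- the finite input of proper discontinuity -/
theorem exists_local_bound {U : Level F} (y y' : Y U) : ∃ c : Pl F → ℝ, (∀ w, 0 < c w) ∧
    {w | c w ≠ 1}.Finite ∧ ∀ (g : G2 F) w, g • y w = y' w → nm w g.1 ^ 2 ≤ c w * av w g.1.det := by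
  have h1 : ∀ w : Pl F, ∃ c : ℝ, 0 < c ∧ (y w = ((1 : G2 F) : Yl U w) →
      y' w = ((1 : G2 F) : Yl U w) → c = 1) ∧
      ∀ g : G2 F, g • y w = y' w → nm w g.1 ^ 2 ≤ c * av w g.1.det := by
    intro w
    by_cases h : y w = ((1 : G2 F) : Yl U w) ∧ y' w = ((1 : G2 F) : Yl U w)
    · refine ⟨1, one_pos, fun _ _ => rfl, ?_⟩
      intro g hg
      rw [h.1, h.2] at hg
      have := nm_sq_le_of_smul_eq w 1 1 g hg
      simpa [nm_one] using this
    · obtain ⟨a, ha⟩ := QuotientGroup.mk_surjective (y w)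
      obtain ⟨a', ha'⟩ := QuotientGroup.mk_surjective (y' w)
      refine ⟨(nm w a'.1 ^ 2 * nm w (a⁻¹).1 ^ 2) * (av w a.1.det * (av w a'.1.det)⁻¹), ?_, ?_, ?_⟩
      · have p1 := nm_pos w a'
        have p2 := nm_pos w a⁻¹
        have p3 : 0 < av w a.1.det := (av w).pos a.det_ne_zero
        have p4 : 0 < av w a'.1.det := (av w).pos a'.det_ne_zero
        positivity
      · intro e1 e2; exact absurd ⟨e1, e2⟩ h
      · intro g hg
        rw [← ha, ← ha'] at hg
        exact nm_sq_le_of_smul_eq w a a' g hg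
  choose c hc0 hc1 hc2 using h1
  refine ⟨c, hc0, ?_, fun g w hg => hc2 w g hg⟩
  refine (y.fin.union y'.fin).subset ?_
  intro w hw
  by_contra hn
  simp only [Set.mem_union, Set.mem_ofPred_eq, not_or, not_not] at hn
  exact hw (hc1 w hn.1 hn.2)

end local_bound

section northcott

theorem mulHeight₁_eq_prod (A : Arch F) (x : F) :
    Height.mulHeight₁ x = (∏ i, max ‖A.emb i x‖ 1 ^ 2) * ∏ᶠ w : Pl F, max (av w x) 1 := by
  rw [NumberField.mulHeight₁_eq]
  congr 1
  · symm
    apply Fintype.prod_equiv (Equiv.ofBijective _ A.bij)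
    intro i
    have h1 : (InfinitePlace.mk (A.emb i)).mult = 2 := by
      rw [InfinitePlace.mult, if_neg]
      rw [InfinitePlace.not_isReal_iff_isComplex, InfinitePlace.isComplex_mk_iff]
      exact A.cx i
    simp only [Equiv.ofBijective_apply, h1, InfinitePlace.apply]
  · rw [← finprod_comp_equiv (FinitePlace.equivHeightOneSpectrum (K := F))]
    refine finprod_congr fun w => ?_
    rw [av_eq_finitePlace]
    congr 2
    exact ((FinitePlace.equivHeightOneSpectrum (K := F)).symm_apply_apply w).symm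

theorem mulHeight_ratio_le (A : Arch F) {c : Pl F → ℝ} (hc0 : ∀ w, 0 < c w)
    (hc : {w | c w ≠ 1}.Finite) {B : ℝ} (hB : 0 < B) (g : G2 F)
    (h1 : ∀ i a b, ‖A.emb i (g a b)‖ ^ 2 ≤ B * ‖A.emb i g.1.det‖)
    (h2 : ∀ w, nm w g.1 ^ 2 ≤ c w * av w g.1.det) (a b a' b' : Fin 2) (hab : g a b ≠ 0) :
    Height.mulHeight₁ (g a' b' / g a b) ^ 2 ≤ (∏ _i : A.I, B ^ 2) * ∏ᶠ w, c w := by
  classical
  set x := g a' b' / g a b with hx
  have hd : g.1.det ≠ 0 := g.det_ne_zero
  rw [mulHeight₁_eq_prod A]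
  -- the finite set of places
  have hf1 : {w : Pl F | max (av w x) 1 ≠ 1}.Finite := by
    by_cases h0 : x = 0
    · have : {w : Pl F | max (av w x) 1 ≠ 1} = ∅ := by
        ext w; simp [h0]
      rw [this]; exact Set.finite_empty
    · refine (av_finite h0).subset ?_
      intro w hw h
      apply hw
      rw [h, max_self]
  set S := (hf1.union (hc.union ((av_finite hd).union (av_finite hab)))).toFinset with hS
  have hSm : ∀ w, w ∉ S → max (av w x) 1 = 1 ∧ c w = 1 ∧ av w g.1.det = 1 ∧ av w (g a b) = 1 := by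
    intro w hw
    rw [hS, Set.Finite.mem_toFinset] at hw
    simpa only [Set.mem_union, Set.mem_ofPred_eq, not_or, not_not] using hw
  have P := prod_formula A hd
  have P' := prod_formula A hab
  rw [finprod_eq_prod_of_mulSupport_subset (s := S) (fun w => av w g.1.det) (by
        intro w hw; by_contra h; exact hw (hSm w h).2.2.1)] at P
  rw [finprod_eq_prod_of_mulSupport_subset (s := S) (fun w => av w (g a b)) (by
        intro w hw; by_contra h; exact hw (hSm w h).2.2.2)] at P'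
  rw [finprod_eq_prod_of_mulSupport_subset (s := S) (fun w => max (av w x) 1) (by
        intro w hw; by_contra h; exact hw (hSm w h).1),
    finprod_eq_prod_of_mulSupport_subset (s := S) (fun w => c w) (by
        intro w hw; by_contra h; exact hw (hSm w h).2.1)]
  -- the infinite part
  have I1 : ∏ i, (max ‖A.emb i x‖ 1 ^ 2) ^ 2 ≤
      ∏ i, (B ^ 2 * (‖A.emb i g.1.det‖ ^ 2 * ((‖A.emb i (g a b)‖ ^ 2) ^ 2)⁻¹)) := by
    apply Finset.prod_le_prod
    · intro i _; positivity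
    · intro i _
      have hp : 0 < ‖A.emb i (g a b)‖ := norm_pos_iff.mpr ((map_ne_zero _).mpr hab)
      have e1 : max ‖A.emb i x‖ 1 ^ 2 ≤ B * ‖A.emb i g.1.det‖ * (‖A.emb i (g a b)‖ ^ 2)⁻¹ := by
        rw [← div_eq_mul_inv, le_div_iff₀ (by positivity), ← mul_pow]
        rcases max_choice ‖A.emb i x‖ 1 with h | h <;> rw [h]
        · rw [hx, map_div₀, norm_div, div_mul_cancel₀ _ hp.ne']
          exact h1 i a' b'
        · rw [one_mul]; exact h1 i a b
      calc (max ‖A.emb i x‖ 1 ^ 2) ^ 2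
          ≤ (B * ‖A.emb i g.1.det‖ * (‖A.emb i (g a b)‖ ^ 2)⁻¹) ^ 2 :=
            pow_le_pow_left₀ (by positivity) e1 2
        _ = _ := by rw [mul_pow, mul_pow, inv_pow]; ring
  have I2 : ∏ w ∈ S, (max (av w x) 1) ^ 2 ≤
      ∏ w ∈ S, (c w * (av w g.1.det * (av w (g a b) ^ 2)⁻¹)) := by
    apply Finset.prod_le_prod
    · intro w _; positivity
    · intro w _
      have hp : 0 < av w (g a b) := (av w).pos hab
      rw [← mul_assoc, ← div_eq_mul_inv, le_div_iff₀ (by positivity), ← mul_pow]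
      refine le_trans ?_ (h2 w)
      apply pow_le_pow_left₀ (by positivity)
      rcases max_choice (av w x) 1 with h | h <;> rw [h]
      · rw [hx, map_div₀, div_mul_cancel₀ _ hp.ne']
        exact av_le_nm w g.1 a' b'
      · rw [one_mul]; exact av_le_nm w g.1 a b
  have hpos1 : 0 ≤ ∏ i, (max ‖A.emb i x‖ 1 ^ 2) ^ 2 := Finset.prod_nonneg fun i _ => by positivity
  have hpos2 : 0 ≤ ∏ w ∈ S, (c w * (av w g.1.det * (av w (g a b) ^ 2)⁻¹)) :=
    Finset.prod_nonneg fun w _ => by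
      have := hc0 w
      have := (av w).nonneg g.1.det
      positivity
  calc ((∏ i, max ‖A.emb i x‖ 1 ^ 2) * ∏ w ∈ S, max (av w x) 1) ^ 2
      = (∏ i, (max ‖A.emb i x‖ 1 ^ 2) ^ 2) * ∏ w ∈ S, (max (av w x) 1) ^ 2 := by
        simp only [mul_pow, Finset.prod_pow]
    _ ≤ (∏ i, (B ^ 2 * (‖A.emb i g.1.det‖ ^ 2 * ((‖A.emb i (g a b)‖ ^ 2) ^ 2)⁻¹))) *
        ∏ w ∈ S, (c w * (av w g.1.det * (av w (g a b) ^ 2)⁻¹)) := by
        refine (mul_le_mul_of_nonneg_left I2 hpos1).trans ?_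
        exact mul_le_mul_of_nonneg_right I1 hpos2
    _ = ((∏ _i : A.I, B ^ 2) * ∏ w ∈ S, c w) *
        (((∏ i, ‖A.emb i g.1.det‖ ^ 2) * ∏ w ∈ S, av w g.1.det) *
          (((∏ i, ‖A.emb i (g a b)‖ ^ 2) * ∏ w ∈ S, av w (g a b)) ^ 2)⁻¹) := by
        simp only [Finset.prod_mul_distrib, Finset.prod_inv_distrib, Finset.prod_pow, mul_pow,
          mul_inv]
        ring
    _ = (∏ _i : A.I, B ^ 2) * ∏ w ∈ S, c w := by rw [P, P']; simp

omit [NumberField F] in
theorem pmk_eq_of_smul {g h : G2 F} {c : F} (hc : c ≠ 0) (e : g.1 = c • h.1) : pmk g = pmk h := by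
  have : g = sc (Units.mk0 c hc) * h := by
    apply Units.ext
    rw [sc_mul_val]; exact e
  rw [this, sc_comm]
  refine QuotientGroup.eq.2 ?_
  rw [_root_.mul_inv_rev, mul_assoc, inv_mul_cancel, mul_one]
  exact inv_mem (sc_mem _)

/-- finiteness of the set of elements with bounded local norms -/
theorem finite_of_bounds (A : Arch F) {c : Pl F → ℝ} (hc0 : ∀ w, 0 < c w)
    (hc : {w | c w ≠ 1}.Finite) {B : ℝ} (hB : 0 < B) :
    {p : PG F | ∃ g : G2 F, pmk g = p ∧
      (∀ i a b, ‖A.emb i (g a b)‖ ^ 2 ≤ B * ‖A.emb i g.1.det‖) ∧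
      (∀ w, nm w g.1 ^ 2 ≤ c w * av w g.1.det)}.Finite := by
  classical
  set K : ℝ := (∏ _i : A.I, B ^ 2) * ∏ᶠ w, c w with hK
  set T : Set F := {x | Height.mulHeight₁ x ≤ Real.sqrt K} with hT
  have hTfin : T.Finite := NumberField.finite_setOfPred_mulHeight₁_le F _
  set 𝓜 : Set (Matrix (Fin 2) (Fin 2) F) := {m | ∀ a b, m a b ∈ T} with hM
  have hMfin : 𝓜.Finite := Set.Finite.pi' fun a => Set.Finite.pi' fun b => hTfin
  refine (hMfin.image fun m => if h : m.det ≠ 0 then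
    pmk (Matrix.GeneralLinearGroup.mkOfDetNeZero m h) else 1).subset ?_
  rintro p ⟨g, rfl, h1, h2⟩
  obtain ⟨a, b, hab⟩ : ∃ a b, g a b ≠ 0 := by
    by_contra hn
    push Not at hn
    have : g.1 = 0 := by ext a b; exact hn a b
    have hd : g.1.det ≠ 0 := g.det_ne_zero
    rw [this] at hd
    simp at hd
  refine ⟨(g a b)⁻¹ • g.1, ?_, ?_⟩
  · intro a' b'
    rw [hT]
    change Height.mulHeight₁ ((g a b)⁻¹ * g a' b') ≤ Real.sqrt K
    rw [inv_mul_eq_div]
    apply Real.le_sqrt_of_sq_le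
    exact mulHeight_ratio_le A hc0 hc hB g h1 h2 a b a' b' hab
  · have hd : ((g a b)⁻¹ • g.1).det ≠ 0 := by
      rw [Matrix.det_smul]
      exact mul_ne_zero (pow_ne_zero _ (inv_ne_zero hab)) g.det_ne_zero
    simp only
    rw [dif_pos hd]
    exact pmk_eq_of_smul (inv_ne_zero hab) rfl

end northcott

section proper

/-- Proper discontinuity, first form. -/
theorem proper_aux {D : Datum F} {C C' : Set (XI D.toArch)} (hC : IsCompact C) (hC' : IsCompact C')
    (y y' : Y D.toLevel) :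
    {p : PG F | (∃ x ∈ C, p • x ∈ C') ∧ p • y = y'}.Finite := by
  obtain ⟨c, hc0, hc, hc2⟩ := exists_local_bound y y'
  obtain ⟨B, hB, h⟩ := XI.exists_norm_bound hC hC'
  refine (finite_of_bounds D.toArch hc0 hc hB).subset ?_
  rintro p ⟨⟨x, hx, hpx⟩, hy⟩
  obtain ⟨g, rfl⟩ := Matrix.ProjGenLinGroup.mk_surjective p
  refine ⟨g, rfl, fun i a b => h g x hx hpx i a b, fun w => hc2 g w ?_⟩
  have := congrArg (fun z : Y D.toLevel => z w) hy
  exact this

/-- **Proper discontinuity** of the action of `PGL₂(F)` on `X`. -/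
theorem proper {D : Datum F} {C C' : Set (X D)} (hC : IsCompact C) (hC' : IsCompact C') :
    {p : PG F | ∃ x ∈ C, p • x ∈ C'}.Finite := by
  have f1 : (Prod.snd '' C).Finite := isCompact_iff_finite.1 (hC.image continuous_snd)
  have f2 : (Prod.snd '' C').Finite := isCompact_iff_finite.1 (hC'.image continuous_snd)
  have h1 : IsCompact (Prod.fst '' C) := hC.image continuous_fst
  have h2 : IsCompact (Prod.fst '' C') := hC'.image continuous_fst
  have := f1.biUnion fun y _ => f2.biUnion fun y' _ => proper_aux (D := D) h1 h2 y y'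
  refine this.subset ?_
  rintro p ⟨x, hx, hpx⟩
  simp only [Set.mem_iUnion]
  exact ⟨x.2, ⟨x, hx, rfl⟩, (p • x).2, ⟨p • x, hpx, rfl⟩,
    ⟨⟨x.1, ⟨x, hx, rfl⟩, ⟨p • x, hpx, rfl⟩⟩, rfl⟩⟩

/-- stabilisers are finite -/
theorem finite_stabilizer {D : Datum F} (x : X D) :
    ((MulAction.stabilizer (PG F) x : Subgroup (PG F)) : Set (PG F)).Finite := by
  refine (proper (isCompact_singleton (x := x)) (isCompact_singleton (x := x))).subset ?_
  intro p hp
  exact ⟨x, rfl, hp⟩

end proper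

end Fermat.LT
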