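import Fermat.Agent.LT.A.Mink

/-!
# LT, piece A: every point has a large height
-/

open NumberField IsDedekindDomain Matrix MeasureTheory Module
open scoped ComplexConjugate ENNReal

namespace Fermat.LT

variable {F : Type} [Field F] [NumberField F]

/-- integral vector as a vector over `F` -/
def ofInt (v : Fin 2 → 𝓞 F) : Fin 2 → F := fun i => (v i : F)

omit [NumberField F] in
theorem ofInt_ne {v : Fin 2 → 𝓞 F} (hv : v ≠ 0) : ofInt v ≠ 0 := by
  intro h
  apply hv
  ext i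
  have := congrFun h i
  simpa [ofInt] using this

theorem av_int_le (w : Pl F) (a : 𝓞 F) : av w (a : F) ≤ 1 := by
  rw [av_eq_finitePlace, FinitePlace.mk_apply]
  exact NumberField.FinitePlace.norm_le_one F w a

theorem nv_ofInt_le (w : Pl F) (v : Fin 2 → 𝓞 F) : nv w (ofInt v) ≤ 1 := by
  rw [nv_le_iff]; intro i; exact av_int_le w _

theorem av_det_pos (w : Pl F) (g : G2 F) : 0 < av w g.1.det :=
  (av w).pos ((Matrix.isUnit_iff_isUnit_det _).mp g.isUnit).ne_zero

theorem hloc_lower (w : Pl F) (g : G2 F) {v : Fin 2 → F} (hv : v ≠ 0) (hv1 : nv w v ≤ 1) :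
    (av w g.1.det)⁻¹ * (nm w (g⁻¹).1 ^ 2)⁻¹ ≤ hloc w v g := by
  rw [hloc]
  have h1 := av_det_pos w g
  have h2 : 0 < nv w ((g⁻¹).1 *ᵥ v) := nv_pos w (inv_mulVec_ne hv g)
  apply mul_le_mul_of_nonneg_left _ (by positivity)
  apply inv_anti₀ (by positivity)
  apply pow_le_pow_left₀ h2.le
  refine (nv_mulVec_le w _ _).trans ?_
  exact mul_le_of_le_one_right (nm_nonneg w _) hv1

theorem hfin_lower {U : Level F} (y : Y U) : ∃ c : ℝ, 0 < c ∧ ∀ v : Fin 2 → 𝓞 F, v ≠ 0 →
    c ≤ hfin (ofInt v) y := by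
  classical
  set S := y.fin.toFinset with hS
  have hrep : ∀ w : Pl F, ∃ g : G2 F, (g : Yl U w) = y w := fun w =>
    QuotientGroup.mk_surjective (y w)
  choose g hg using hrep
  refine ⟨∏ w ∈ S, ((av w (g w).1.det)⁻¹ * (nm w ((g w)⁻¹).1 ^ 2)⁻¹), ?_, ?_⟩
  · refine Finset.prod_pos fun w _ => ?_
    have h1 := av_det_pos w (g w)
    have h2 := nm_pos w (g w)⁻¹
    positivity
  · intro v hv
    have hv' := ofInt_ne hv
    set T := S ∪ (hY_finite hv' y).toFinset with hT
    rw [hfin_eq_prod y (S := T) (fun w hw => by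
      by_contra hc
      exact hw (Finset.mem_union_right _ ((Set.Finite.mem_toFinset _).mpr hc)))]
    rw [Finset.prod_subset_one_on_sdiff (s₁ := S) (s₂ := T)
      (f := fun w => ((av w (g w).1.det)⁻¹ * (nm w ((g w)⁻¹).1 ^ 2)⁻¹))
      (g := fun w => if w ∈ S then ((av w (g w).1.det)⁻¹ * (nm w ((g w)⁻¹).1 ^ 2)⁻¹) else 1)
      Finset.subset_union_left (fun w hw => by rw [if_neg (Finset.mem_sdiff.mp hw).2])
      (fun w hw => by rw [if_pos hw])]
    apply Finset.prod_le_prod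
    · intro w _
      split_ifs
      · have h1 := av_det_pos w (g w)
        have h2 := nm_pos w (g w)⁻¹
        positivity
      · exact zero_le_one
    · intro w _
      split_ifs with hw
      · rw [← hg w]; exact hloc_lower w (g w) hv' (nv_ofInt_le w v)
      · have hy1 : y w = ((1 : G2 F) : Yl U w) := by
          by_contra hc; exact hw ((Set.Finite.mem_toFinset _).mpr hc)
        rw [hy1, hY_mk, hloc]
        have h1 := nv_ofInt_le w v
        have h2 := nv_pos w hv'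
        have e : nv w (((1 : G2 F)⁻¹).1 *ᵥ ofInt v) = nv w (ofInt v) := by simp
        rw [e]
        simp only [Units.val_one, det_one, map_one, inv_one, one_mul]
        exact (one_le_inv₀ (by positivity)).mpr (pow_le_one₀ h2.le h1)

/-- every point of `X` has height `≥ c` with respect to some vector -/
theorem exists_ht_ge (D : Datum F)
    (hfinY : ∃ S : Finset (Y D.toLevel), ∀ y : Y D.toLevel, ∃ g : G2 F, g • y ∈ S) :
    ∃ c : ℝ, 0 < c ∧ ∀ x : X D, ∃ v : Fin 2 → F, v ≠ 0 ∧ c ≤ ht v x := by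
  classical
  obtain ⟨S, hS⟩ := hfinY
  obtain ⟨C, hC, hshort⟩ := exists_short D.toArch
  have h1 : ∀ y : Y D.toLevel, ∃ c : ℝ, 0 < c ∧ ∀ v : Fin 2 → 𝓞 F, v ≠ 0 → c ≤ hfin (ofInt v) y :=
    hfin_lower
  choose cy hcy hcy' using h1
  obtain ⟨c0, hc0, hc0'⟩ : ∃ c0 : ℝ, 0 < c0 ∧ ∀ y ∈ S, c0 ≤ cy y := by
    rcases S.eq_empty_or_nonempty with rfl | hne
    · exact ⟨1, one_pos, by simp⟩
    · obtain ⟨y0, hy0, hmin⟩ := S.exists_min_image cy hne
      exact ⟨cy y0, hcy y0, hmin⟩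
  refine ⟨(∏ _i : D.I, (C ^ 2)⁻¹) * c0, by positivity, ?_⟩
  intro x
  obtain ⟨g, hg⟩ := hS x.2
  obtain ⟨v, hv, hvx⟩ := hshort (g • x).1
  have hv' := ofInt_ne hv
  have hb : (∏ _i : D.I, (C ^ 2)⁻¹) * c0 ≤ ht (ofInt v) (g • x) := by
    rw [ht]
    apply mul_le_mul _ ((hc0' _ hg).trans (hcy' _ v hv)) hc0.le (hinf_pos hv' _).le
    rw [hinf]
    apply Finset.prod_le_prod
    · intro i _; positivity
    · intro i _
      have hp : 0 < ((g • x).1 i).Q (D.emb i (ofInt v 0)) (D.emb i (ofInt v 1)) := by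
        apply H3.Q_pos
        by_contra hc
        simp only [ne_eq, map_eq_zero, not_or, not_not] at hc
        apply hv'
        ext j; fin_cases j
        exacts [hc.1, hc.2]
      apply inv_anti₀ (by positivity)
      exact pow_le_pow_left₀ hp.le (hvx i) 2
  refine ⟨(g⁻¹).1 *ᵥ ofInt v, inv_mulVec_ne hv' g, ?_⟩
  have := ht_equiv g⁻¹ hv' (g • x)
  rw [inv_smul_smul] at this
  rw [this]; exact hb

end Fermat.LT
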