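import Fermat.Agent.LT.A.XMeas
import Fermat.Agent.CFT.SUnitsHerbrand

/-!
# LT, piece A: field automorphisms acting on the space

For `σ : RingAut F`:
* `plE σ : Pl F ≃ Pl F` the action on finite places, `av (plE σ w) (σ x) = av w x`;
* `A.pm σ : A.I ≃ A.I`, `A.cjb σ i : Bool` with `A.emb (A.pm σ i) x = cjr (A.cjb σ i) (A.emb i (σ x))`,
  `(σ • x) i = cP (A.cjb σ i) (x (A.pm σ i))`;
* `U.aut : Subgroup (RingAut F)`, the `σ` with `σ(H_w) = H_{σ w}`, acting on `Y U` by
  `(σ y)_w = σ(y_{σ⁻¹ w})`;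
* `D.aut` acting on `X D`; semi-equivariance, invariance of measure and heights.
-/

open NumberField IsDedekindDomain Matrix MeasureTheory Topology

namespace Fermat.LT

/-! ### complex conjugation on `H3` -/

namespace H3

/-- complex conjugation `(z,t) ↦ (z̄,t)` -/
noncomputable def cc (P : H3) : H3 := mk (starRingEnd ℂ P.z) P.t P.t_pos

@[simp] theorem cc_z (P : H3) : (cc P).z = starRingEnd ℂ P.z := rfl
@[simp] theorem cc_t (P : H3) : (cc P).t = P.t := rfl
@[simp] theorem cc_cc (P : H3) : cc (cc P) = P := H3.ext (by simp) (by simp)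

theorem cc_Q (P : H3) (x y : ℂ) : (cc P).Q (starRingEnd ℂ x) (starRingEnd ℂ y) = P.Q x y := by
  rw [Q, Q, cc_z, cc_t, ← map_mul, ← map_sub, Complex.normSq_conj, Complex.normSq_conj]

theorem cc_ch (P P' : H3) : ch (cc P) (cc P') = ch P P' := by
  rw [ch, ch, cc_z, cc_t, cc_z, cc_t, ← map_sub, Complex.normSq_conj]

theorem cc_smul (g : GL (Fin 2) ℂ) (P : H3) :
    cc (g • P) = (Matrix.GeneralLinearGroup.map (n := Fin 2) (starRingEnd ℂ) g) • cc P := by
  set g' := Matrix.GeneralLinearGroup.map (n := Fin 2) (starRingEnd ℂ) g with hg'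
  have e : ∀ a b, g' a b = starRingEnd ℂ (g a b) := fun a b => rfl
  have hd : ‖(g' : Matrix (Fin 2) (Fin 2) ℂ).det‖ = ‖(g : Matrix (Fin 2) (Fin 2) ℂ).det‖ := by
    rw [Matrix.det_fin_two, Matrix.det_fin_two, e, e, e, e, ← map_mul, ← map_mul, ← map_sub]
    exact RCLike.norm_conj _
  have hden : den g' (cc P) = den g P := by
    rw [den, den, e, e, cc_z, cc_t, ← map_mul, ← map_add, Complex.normSq_conj, Complex.normSq_conj]
  apply H3.ext
  · rw [cc_z, smul_z, smul_z, hden, e, e, e, e, cc_z, cc_t]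
    simp only [map_div₀, map_add, map_mul, map_pow, Complex.conj_conj, Complex.conj_ofReal]
  · rw [cc_t, smul_t, smul_t, hden, hd, cc_t]

theorem continuous_cc : Continuous cc := by
  rw [continuous_iff]
  exact ⟨Complex.continuous_conj.comp continuous_z, continuous_t⟩

/-- conjugation as a homeomorphism -/
noncomputable def ccHomeo : H3 ≃ₜ H3 where
  toFun := cc
  invFun := cc
  left_inv := cc_cc
  right_inv := cc_cc
  continuous_toFun := continuous_cc
  continuous_invFun := continuous_cc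

theorem measurePreserving_cc : MeasurePreserving cc (volume : Measure H3) volume := by
  have := measurePreserving_of_deriv ccHomeo conjMap (fun _ => conjMap) (fun P => rfl)
    (fun P => conjMap.hasFDerivAt) (fun P => by
      have h1 : (ccHomeo P).t = P.t := rfl
      rw [h1, div_self P.t_ne_zero, one_pow]
      exact det_conjMap)
  exact this

/-- `id` or conjugation -/
noncomputable def cP : Bool → H3 → H3
  | false => id
  | true => cc

@[simp] theorem cP_false (P : H3) : cP false P = P := rfl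

theorem cP_cP (b b' : Bool) (P : H3) : cP b (cP b' P) = cP (xor b b') P := by
  cases b <;> cases b' <;> simp [cP]

theorem continuous_cP (b : Bool) : Continuous (cP b) := by
  cases b
  · exact continuous_id
  · exact continuous_cc

theorem measurePreserving_cP (b : Bool) :
    MeasurePreserving (cP b) (volume : Measure H3) volume := by
  cases b
  · exact MeasurePreserving.id _
  · exact measurePreserving_cc

theorem cP_ch (b : Bool) (P P' : H3) : ch (cP b P) (cP b P') = ch P P' := by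
  cases b
  · rfl
  · exact cc_ch P P'

@[simp] theorem cP_t (b : Bool) (P : H3) : (cP b P).t = P.t := by cases b <;> rfl

end H3

/-- `id` or conjugation -/
noncomputable def cjr : Bool → (ℂ →+* ℂ)
  | false => RingHom.id ℂ
  | true => starRingEnd ℂ

@[simp] theorem cjr_false (z : ℂ) : cjr false z = z := rfl

theorem cjr_cjr (b b' : Bool) (z : ℂ) : cjr b (cjr b' z) = cjr (xor b b') z := by
  cases b <;> cases b' <;> simp [cjr]

theorem H3.cP_Q (b : Bool) (P : H3) (x y : ℂ) : (H3.cP b P).Q (cjr b x) (cjr b y) = P.Q x y := by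
  cases b
  · rfl
  · exact H3.cc_Q P x y

theorem H3.cP_z (b : Bool) (P : H3) : (H3.cP b P).z = cjr b P.z := by
  cases b <;> rfl

theorem norm_cjr (b : Bool) (z : ℂ) : ‖cjr b z‖ = ‖z‖ := by
  cases b
  · rfl
  · exact RCLike.norm_conj z

theorem H3.cP_smul (b : Bool) (g : GL (Fin 2) ℂ) (P : H3) :
    H3.cP b (g • P) = (Matrix.GeneralLinearGroup.map (n := Fin 2) (cjr b) g) • H3.cP b P := by
  cases b
  · rfl
  · exact H3.cc_smul g P

/-! ### the archimedean part -/

variable {F : Type} [Field F]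

/-- the automorphism `σ` on `GL₂` -/
def gm (σ : RingAut F) : G2 F →* G2 F :=
  Matrix.GeneralLinearGroup.map (n := Fin 2) (σ : F →+* F)

theorem gm_apply (σ : RingAut F) (g : G2 F) (a b : Fin 2) : (gm σ g) a b = σ (g a b) := rfl

theorem gm_mul (σ τ : RingAut F) (g : G2 F) : gm (σ * τ) g = gm σ (gm τ g) := by
  ext a b; rfl

theorem gm_one (g : G2 F) : gm 1 g = g := by
  ext a b; rfl

theorem gm_det (σ : RingAut F) (g : G2 F) : (gm σ g).1.det = σ g.1.det := by
  rw [Matrix.det_fin_two, Matrix.det_fin_two, map_sub, map_mul, map_mul]; rfl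

theorem gm_sc (σ : RingAut F) (c : Fˣ) :
    gm σ (sc c) = sc (Units.mapEquiv (σ : F ≃* F) c) := by
  apply Units.ext
  ext a b
  change σ ((sc c).1 a b) = _
  rw [sc_val, sc_val]
  rw [Matrix.smul_apply, Matrix.smul_apply, smul_eq_mul, smul_eq_mul, map_mul]
  congr 1
  simp only [Matrix.one_apply]
  split <;> simp

theorem gm_mulVec (σ : RingAut F) (g : G2 F) (v : Fin 2 → F) :
    (gm σ g).1 *ᵥ (fun i => σ (v i)) = fun i => σ ((g.1 *ᵥ v) i) := by
  funext i
  simp only [Matrix.mulVec, dotProduct, Fin.sum_univ_two, map_add, map_mul]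
  rfl

theorem gm_un (σ : RingAut F) (b : F) : gm σ (un b) = un (σ b) := by
  ext i j
  rw [gm_apply]
  fin_cases i <;> fin_cases j <;> simp [un, Matrix.GeneralLinearGroup.mkOfDetNeZero]

theorem gm_dg (σ : RingAut F) (a : Fˣ) :
    gm σ (dg a) = dg (Units.mapEquiv (σ : F ≃* F) a) := by
  ext i j
  rw [gm_apply]
  fin_cases i <;> fin_cases j <;> simp [dg, Matrix.GeneralLinearGroup.mkOfDetNeZero]

theorem gm_mem_scal (σ : RingAut F) {g : G2 F} (hg : g ∈ scal F) : gm σ g ∈ scal F := by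
  obtain ⟨c, hc⟩ := (mem_scal_iff g).mp hg
  have : g = sc c := Units.ext hc
  rw [this, gm_sc]
  exact sc_mem _

/-- the automorphism `σ` on `PGL₂` -/
def pgm (σ : RingAut F) : PG F →* PG F :=
  QuotientGroup.map _ _ (gm σ) fun _ hg => gm_mem_scal σ hg

theorem pgm_pmk (σ : RingAut F) (g : G2 F) : pgm σ (pmk g) = pmk (gm σ g) := rfl

theorem pgm_mul (σ τ : RingAut F) (p : PG F) : pgm (σ * τ) p = pgm σ (pgm τ p) := by
  obtain ⟨g, rfl⟩ := Matrix.ProjGenLinGroup.mk_surjective p
  rw [pgm_pmk, pgm_pmk, pgm_pmk, gm_mul]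

theorem pgm_one (p : PG F) : pgm 1 p = p := by
  obtain ⟨g, rfl⟩ := Matrix.ProjGenLinGroup.mk_surjective p
  rw [pgm_pmk, gm_one]

variable [NumberField F]

section arch

variable (A : Arch F)

theorem exists_pm (σ : RingAut F) (i : A.I) :
    ∃ j : A.I, ∃ b : Bool, ∀ x, A.emb j x = cjr b (A.emb i (σ x)) := by
  obtain ⟨j, hj⟩ := A.bij.2 (InfinitePlace.mk ((A.emb i).comp (σ : F →+* F)))
  rcases InfinitePlace.mk_eq_iff.1 hj with h | h
  · exact ⟨j, false, fun x => by rw [h]; rfl⟩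
  · refine ⟨j, true, fun x => ?_⟩
    have h2 := congrArg (fun f : F →+* ℂ => starRingEnd ℂ (f x)) h
    simp only [ComplexEmbedding.conjugate_coe_eq, Complex.conj_conj] at h2
    exact h2

variable {A}

theorem pm_unique {σ : RingAut F} {i i' j : A.I} {b b' : Bool}
    (h : ∀ x, A.emb j x = cjr b (A.emb i (σ x)))
    (h' : ∀ x, A.emb j x = cjr b' (A.emb i' (σ x))) : i = i' ∧ b = b' := by
  have hi : i = i' := by
    apply A.bij.1
    apply InfinitePlace.ext
    intro x
    rw [InfinitePlace.apply, InfinitePlace.apply]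
    have e1 := h (σ.symm x)
    have e2 := h' (σ.symm x)
    rw [RingEquiv.apply_symm_apply] at e1 e2
    rw [← norm_cjr b, ← e1, e2, norm_cjr]
  subst hi
  refine ⟨rfl, ?_⟩
  by_contra hb
  apply A.cx i
  rw [ComplexEmbedding.isReal_iff]
  ext x
  have e1 := h (σ.symm x)
  rw [h' (σ.symm x), RingEquiv.apply_symm_apply] at e1
  rw [ComplexEmbedding.conjugate_coe_eq]
  cases b <;> cases b'
  · exact absurd rfl hb
  · exact e1
  · exact e1.symm
  · exact absurd rfl hb

variable (A)

/-- the permutation of the infinite places -/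
noncomputable def Arch.pmf (σ : RingAut F) (i : A.I) : A.I := (exists_pm A σ i).choose

/-- whether a conjugation occurs -/
noncomputable def Arch.cjb (σ : RingAut F) (i : A.I) : Bool := (exists_pm A σ i).choose_spec.choose

theorem Arch.emb_pmf (σ : RingAut F) (i : A.I) (x : F) :
    A.emb (A.pmf σ i) x = cjr (A.cjb σ i) (A.emb i (σ x)) :=
  (exists_pm A σ i).choose_spec.choose_spec x

theorem Arch.pm_unique' {σ : RingAut F} {i j : A.I} {b : Bool}
    (h : ∀ x, A.emb j x = cjr b (A.emb i (σ x))) : A.pmf σ i = j ∧ A.cjb σ i = b := by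
  have h1 : A.pmf σ i = j := by
    apply A.bij.1
    apply InfinitePlace.ext
    intro x
    rw [InfinitePlace.apply, InfinitePlace.apply, h, A.emb_pmf, norm_cjr, norm_cjr]
  refine ⟨h1, ?_⟩
  refine (pm_unique (σ := σ) (i := i) (i' := i) (j := j) ?_ h).2
  intro x
  rw [← A.emb_pmf, h1]

theorem Arch.pmf_mul (σ τ : RingAut F) (i : A.I) :
    A.pmf (σ * τ) i = A.pmf τ (A.pmf σ i) ∧
      A.cjb (σ * τ) i = xor (A.cjb τ (A.pmf σ i)) (A.cjb σ i) := by
  apply A.pm_unique'
  intro x
  rw [A.emb_pmf, A.emb_pmf, cjr_cjr]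
  rfl

theorem Arch.pmf_one (i : A.I) : A.pmf 1 i = i ∧ A.cjb 1 i = false := by
  apply A.pm_unique'
  intro x
  rfl

/-- the permutation of the infinite places, as an equivalence -/
noncomputable def Arch.pm (σ : RingAut F) : A.I ≃ A.I where
  toFun := A.pmf σ
  invFun := A.pmf σ⁻¹
  left_inv i := by rw [← (A.pmf_mul σ σ⁻¹ i).1, mul_inv_cancel, (A.pmf_one i).1]
  right_inv i := by rw [← (A.pmf_mul σ⁻¹ σ i).1, inv_mul_cancel, (A.pmf_one i).1]

theorem Arch.emb_pm (σ : RingAut F) (i : A.I) (x : F) :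
    A.emb (A.pm σ i) x = cjr (A.cjb σ i) (A.emb i (σ x)) := A.emb_pmf σ i x

theorem Arch.norm_emb_pm (σ : RingAut F) (i : A.I) (x : F) :
    ‖A.emb (A.pm σ i) x‖ = ‖A.emb i (σ x)‖ := by
  rw [A.emb_pm, norm_cjr]

/-- No conjugation occurs if all embeddings and `σ` are compatible with a totally complex
subfield. -/
theorem Arch.cjb_eq_false {k : Type*} [Field k] [Algebra k F] (ι : k →+* ℂ)
    (hι : ¬ ComplexEmbedding.IsReal ι)
    (hA : ∀ i, (A.emb i).comp (algebraMap k F) = ι) (σ : RingAut F)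
    (hσ : ∀ x : k, σ (algebraMap k F x) = algebraMap k F x) (i : A.I) : A.cjb σ i = false := by
  by_contra hb
  rw [Bool.not_eq_false] at hb
  apply hι
  rw [ComplexEmbedding.isReal_iff]
  ext x
  rw [ComplexEmbedding.conjugate_coe_eq]
  have h1 := A.emb_pmf σ i (algebraMap k F x)
  rw [hb, hσ] at h1
  have h2 : A.emb (A.pmf σ i) (algebraMap k F x) = ι x := by
    rw [← hA (A.pmf σ i)]; rfl
  have h3 : A.emb i (algebraMap k F x) = ι x := by
    rw [← hA i]; rfl
  rw [h2, h3] at h1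
  exact h1.symm

variable {A}

noncomputable instance : MulAction (RingAut F) (XI A) where
  smul σ x := fun i => H3.cP (A.cjb σ i) (x (A.pm σ i))
  one_smul x := funext fun i => by
    change H3.cP (A.cjb 1 i) (x (A.pmf 1 i)) = x i
    rw [(A.pmf_one i).1, (A.pmf_one i).2]; rfl
  mul_smul σ τ x := funext fun i => by
    change H3.cP (A.cjb (σ * τ) i) (x (A.pmf (σ * τ) i)) =
      H3.cP (A.cjb σ i) (H3.cP (A.cjb τ (A.pmf σ i)) (x (A.pmf τ (A.pmf σ i))))
    rw [H3.cP_cP, (A.pmf_mul σ τ i).1, (A.pmf_mul σ τ i).2, Bool.xor_comm]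

theorem XI_aut_apply (σ : RingAut F) (x : XI A) (i : A.I) :
    (σ • x) i = H3.cP (A.cjb σ i) (x (A.pm σ i)) := rfl

/-- semi-equivariance -/
theorem XI_aut_smul (σ : RingAut F) (g : G2 F) (x : XI A) : σ • (g • x) = gm σ g • (σ • x) := by
  funext i
  rw [XI_aut_apply, XI_smul_apply, XI_smul_apply, XI_aut_apply, H3.cP_smul]
  congr 1
  ext a b
  change cjr (A.cjb σ i) (A.emb (A.pm σ i) (g a b)) = A.emb i (σ (g a b))
  rw [A.emb_pm, cjr_cjr, Bool.xor_self]; rfl

theorem XI_aut_smul' (σ : RingAut F) (g : PG F) (x : XI A) :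
    σ • (g • x) = pgm σ g • (σ • x) := by
  obtain ⟨g, rfl⟩ := Matrix.ProjGenLinGroup.mk_surjective g
  exact XI_aut_smul σ g x

instance : ContinuousConstSMul (RingAut F) (XI A) where
  continuous_const_smul σ := continuous_pi fun i =>
    (H3.continuous_cP (A.cjb σ i)).comp (continuous_apply (A.pm σ i))

theorem XI_aut_measurePreserving (σ : RingAut F) :
    MeasurePreserving (fun x : XI A => σ • x) volume volume := by
  have h1 : MeasurePreserving (MeasurableEquiv.piCongrLeft (fun _ : A.I => H3) (A.pm σ).symm)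
      (Measure.pi fun _ : A.I => (volume : Measure H3)) (Measure.pi fun _ : A.I => volume) :=
    measurePreserving_piCongrLeft (fun _ : A.I => (volume : Measure H3)) (A.pm σ).symm
  have h2 : MeasurePreserving (fun (x : A.I → H3) (i : A.I) => H3.cP (A.cjb σ i) (x i))
      (Measure.pi fun _ : A.I => (volume : Measure H3)) (Measure.pi fun _ : A.I => volume) :=
    measurePreserving_pi _ _ fun i => H3.measurePreserving_cP (A.cjb σ i)
  have h3 := h2.comp h1
  have e : ((fun (x : A.I → H3) (i : A.I) => H3.cP (A.cjb σ i) (x i)) ∘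
      (MeasurableEquiv.piCongrLeft (fun _ : A.I => H3) (A.pm σ).symm)) =
      (fun x : XI A => σ • x) := by
    funext x i
    have key : (Equiv.piCongrLeft (fun _ : A.I => H3) (A.pm σ).symm) x
        ((A.pm σ).symm (A.pm σ i)) = x (A.pm σ i) :=
      Equiv.piCongrLeft_apply_apply (fun _ : A.I => H3) (A.pm σ).symm x (A.pm σ i)
    rw [Equiv.symm_apply_apply] at key
    exact congrArg (H3.cP (A.cjb σ i)) key
  rw [e] at h3
  exact h3

theorem hinf_aut (σ : RingAut F) (v : Fin 2 → F) (x : XI A) :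
    hinf (fun j => σ (v j)) (σ • x) = hinf v x := by
  rw [hinf, hinf]
  refine Fintype.prod_equiv (A.pm σ) _ _ fun i => ?_
  have h : ∀ z, A.emb i (σ z) = cjr (A.cjb σ i) (A.emb (A.pm σ i) z) := by
    intro z
    rw [A.emb_pm, cjr_cjr, Bool.xor_self]; rfl
  rw [XI_aut_apply, h, h, H3.cP_Q]

end arch

/-! ### finite places -/

section fin

/-- the action on the finite places -/
noncomputable def plE (σ : RingAut F) : Pl F ≃ Pl F :=
  HeightOneSpectrum.equivOfRingEquiv (RingOfIntegers.mapRingEquiv σ)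

theorem plE_mul (σ τ : RingAut F) (w : Pl F) : plE (σ * τ) w = plE σ (plE τ w) := by
  ext x; rfl

theorem plE_one (w : Pl F) : plE (1 : RingAut F) w = w := by
  ext x; rfl

theorem plE_inv_plE (σ : RingAut F) (w : Pl F) : plE σ⁻¹ (plE σ w) = w := by
  rw [← plE_mul, inv_mul_cancel, plE_one]

theorem plE_plE_inv (σ : RingAut F) (w : Pl F) : plE σ (plE σ⁻¹ w) = w := by
  rw [← plE_mul, mul_inv_cancel, plE_one]

theorem valuation_plE (σ : RingAut F) (w : Pl F) (x : F) :
    (plE σ w).valuation F (σ x) = w.valuation F x := by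
  obtain ⟨a, b, hb, rfl⟩ := IsFractionRing.div_surjective (A := 𝓞 F) x
  have h : ∀ r : 𝓞 F, σ (algebraMap (𝓞 F) F r) =
    algebraMap (𝓞 F) F (RingOfIntegers.mapRingEquiv σ r) := fun r => rfl
  rw [map_div₀ σ, map_div₀, map_div₀, h, h, HeightOneSpectrum.valuation_of_algebraMap,
    HeightOneSpectrum.valuation_of_algebraMap, HeightOneSpectrum.valuation_of_algebraMap,
    HeightOneSpectrum.valuation_of_algebraMap, plE, Fermat.Agent.CFT.SUH.intValuation_equiv,
    Fermat.Agent.CFT.SUH.intValuation_equiv]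

theorem absNorm_plE (σ : RingAut F) (w : Pl F) :
    Ideal.absNorm (plE σ w).asIdeal = Ideal.absNorm w.asIdeal := by
  rw [Ideal.absNorm_apply, Ideal.absNorm_apply, Submodule.cardQuot_apply, Submodule.cardQuot_apply]
  refine Nat.card_congr (Ideal.quotientEquiv _ _ (RingOfIntegers.mapRingEquiv σ).symm ?_).toEquiv
  have h1 : (plE σ w).asIdeal = w.asIdeal.comap
    ((RingOfIntegers.mapRingEquiv σ).symm : 𝓞 F →+* 𝓞 F) := rfl
  rw [h1]
  exact (Ideal.map_comap_of_surjective _ (RingOfIntegers.mapRingEquiv σ).symm.surjective _).symm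

theorem qv_plE (σ : RingAut F) (w : Pl F) : qv (plE σ w) = qv w := by
  rw [qv, qv, absNorm_plE]

theorem av_plE (σ : RingAut F) (w : Pl F) (x : F) : av (plE σ w) (σ x) = av w x := by
  have key : ∀ (n m : NNReal) (hn : n ≠ 0) (hm : m ≠ 0) (a b : WithZero (Multiplicative ℤ)),
      n = m → a = b → WithZeroMulInt.toNNReal hn a = WithZeroMulInt.toNNReal hm b := by
    rintro n m hn hm a b rfl rfl; rfl
  rw [av, av, NumberField.HeightOneSpectrum.adicAbv_def, NumberField.HeightOneSpectrum.adicAbv_def]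
  rw [key _ _ _ _ _ _ (by rw [absNorm_plE]) (valuation_plE σ w x)]

theorem av_plE_inv (σ : RingAut F) (w : Pl F) (x : F) : av w (σ x) = av (plE σ⁻¹ w) x := by
  rw [← av_plE σ (plE σ⁻¹ w) x, plE_plE_inv]

theorem nv_plE (σ : RingAut F) (w : Pl F) (v : Fin 2 → F) :
    nv (plE σ w) (fun i => σ (v i)) = nv w v := by
  rw [nv, nv, av_plE, av_plE]

theorem nm_plE (σ : RingAut F) (w : Pl F) (g : G2 F) : nm (plE σ w) (gm σ g).1 = nm w g.1 := by
  rw [nm, nm]
  change max (max (av (plE σ w) (σ (g.1 0 0))) (av (plE σ w) (σ (g.1 0 1))))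
    (max (av (plE σ w) (σ (g.1 1 0))) (av (plE σ w) (σ (g.1 1 1)))) = _
  rw [av_plE, av_plE, av_plE, av_plE]

theorem gm_mem_intGL (σ : RingAut F) (w : Pl F) (g : G2 F) :
    gm σ g ∈ intGL (plE σ w) ↔ g ∈ intGL w := by
  change nm (plE σ w) (gm σ g).1 ≤ 1 ∧ nm (plE σ w) ((gm σ g)⁻¹).1 ≤ 1 ↔
    nm w g.1 ≤ 1 ∧ nm w (g⁻¹).1 ≤ 1
  rw [← map_inv, nm_plE, nm_plE]

theorem gm_mem_stdH (σ : RingAut F) (w : Pl F) (g : G2 F) :
    gm σ g ∈ stdH (plE σ w) ↔ g ∈ stdH w := by
  rw [mem_stdH, mem_stdH, ← map_inv, nm_plE, nm_plE]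

theorem gm_mem_congGL (σ : RingAut F) (w : Pl F) (n : ℕ) (g : G2 F) :
    gm σ g ∈ congGL (plE σ w) n ↔ g ∈ congGL w n := by
  change gm σ g ∈ intGL (plE σ w) ∧ nm (plE σ w) ((gm σ g).1 - 1) ≤ (qv (plE σ w))⁻¹ ^ n ↔
    g ∈ intGL w ∧ nm w (g.1 - 1) ≤ (qv w)⁻¹ ^ n
  rw [gm_mem_intGL, qv_plE]
  have : nm (plE σ w) ((gm σ g).1 - 1) = nm w (g.1 - 1) := by
    have e : ∀ a b, ((gm σ g).1 - 1) a b = σ ((g.1 - 1) a b) := by
      intro a b
      rw [Matrix.sub_apply, Matrix.sub_apply, map_sub]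
      have h1 : (gm σ g).1 a b = σ (g.1 a b) := rfl
      rw [h1]
      simp only [Matrix.one_apply]
      split <;> simp
    rw [nm, nm, e, e, e, e, av_plE, av_plE, av_plE, av_plE]
  rw [this]

/-- the level is compatible with `σ` -/
def Level.Compat (U : Level F) (σ : RingAut F) : Prop :=
  ∀ w (g : G2 F), gm σ g ∈ U.H (plE σ w) ↔ g ∈ U.H w

/-- the group of automorphisms preserving the level -/
def Level.aut (U : Level F) : Subgroup (RingAut F) where
  carrier := {σ | U.Compat σ}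
  mul_mem' := by
    intro σ τ hσ hτ w g
    rw [gm_mul, plE_mul, hσ, hτ]
  one_mem' := by
    intro w g
    rw [gm_one, plE_one]
  inv_mem' := by
    intro σ hσ w g
    have := hσ (plE σ⁻¹ w) (gm σ⁻¹ g)
    rw [plE_plE_inv, ← gm_mul, mul_inv_cancel, gm_one] at this
    exact this.symm

theorem Level.mem_aut (U : Level F) (σ : RingAut F) : σ ∈ U.aut ↔
    ∀ w (g : G2 F), gm σ g ∈ U.H (plE σ w) ↔ g ∈ U.H w := Iff.rfl

theorem Level.one_aut (σ : RingAut F) : σ ∈ (Level.one F).aut := fun w g => gm_mem_stdH σ w g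

variable {U : Level F}

/-- the local twist `Yl U w → Yl U w'` for `w' = σ w` -/
def twl (σ : U.aut) {w w' : Pl F} (h : plE (σ : RingAut F) w = w') : Yl U w → Yl U w' :=
  Quotient.map' (gm (σ : RingAut F)) (by
    intro a b hab
    rw [QuotientGroup.leftRel_apply] at hab ⊢
    subst h
    rw [← map_inv, ← map_mul]
    exact (σ.2 w _).2 hab)

theorem twl_mk (σ : U.aut) {w w' : Pl F} (h : plE (σ : RingAut F) w = w') (g : G2 F) :
    twl σ h (g : Yl U w) = ((gm (σ : RingAut F) g : G2 F) : Yl U w') := rfl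

theorem twl_smul (σ : U.aut) {w w' : Pl F} (h : plE (σ : RingAut F) w = w') (g : G2 F)
    (y : Yl U w) : twl σ h (g • y) = gm (σ : RingAut F) g • twl σ h y := by
  obtain ⟨a, rfl⟩ := QuotientGroup.mk_surjective y
  change twl σ h ((g * a : G2 F) : Yl U w) = _
  rw [twl_mk, twl_mk, map_mul]; rfl

theorem twl_one (σ : U.aut) {w w' : Pl F} (h : plE (σ : RingAut F) w = w') :
    twl σ h ((1 : G2 F) : Yl U w) = ((1 : G2 F) : Yl U w') := by
  rw [twl_mk, map_one]

theorem twl_congr (σ : U.aut) {w₁ w₂ w' : Pl F} (h₁ : plE (σ : RingAut F) w₁ = w')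
    (h₂ : plE (σ : RingAut F) w₂ = w') (y : Y U) : twl σ h₁ (y w₁) = twl σ h₂ (y w₂) := by
  have : w₁ = w₂ := (plE (σ : RingAut F)).injective (h₁.trans h₂.symm)
  subst this
  rfl

theorem hY_twl (σ : U.aut) {w w' : Pl F} (h : plE (σ : RingAut F) w = w') (v : Fin 2 → F)
    (y : Yl U w) : hY w' (fun i => (σ : RingAut F) (v i)) (twl σ h y) = hY w v y := by
  obtain ⟨a, rfl⟩ := QuotientGroup.mk_surjective y
  subst h
  rw [twl_mk]
  change hloc _ _ _ = hloc _ _ _
  have h1 : (gm (σ : RingAut F) a)⁻¹ = gm (σ : RingAut F) a⁻¹ := (map_inv _ _).symm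
  rw [hloc, hloc, gm_det, av_plE, h1, gm_mulVec, nv_plE]

/-- `(σ y)_w = σ(y_{σ⁻¹ w})` -/
noncomputable def twY (σ : U.aut) (y : Y U) : Y U :=
  ⟨fun w => twl σ (plE_plE_inv (σ : RingAut F) w) (y (plE (σ : RingAut F)⁻¹ w)), by
    have h := y.fin.preimage (f := plE (σ : RingAut F)⁻¹)
      (plE (σ : RingAut F)⁻¹).injective.injOn
    refine h.subset ?_
    intro w hw h1
    apply hw
    rw [h1, twl_one]⟩

theorem twY_apply (σ : U.aut) (y : Y U) (w : Pl F) :
    (twY σ y) w = twl σ (plE_plE_inv (σ : RingAut F) w) (y (plE (σ : RingAut F)⁻¹ w)) := rfl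

/-- the component at `σ w` -/
theorem twY_apply' (σ : U.aut) (y : Y U) {w w' : Pl F} (h : plE (σ : RingAut F) w = w') :
    (twY σ y) w' = twl σ h (y w) := by
  rw [twY_apply, twl_congr σ _ h y]

noncomputable instance : MulAction U.aut (Y U) where
  smul := twY
  one_smul y := Y.ext' fun w => by
    have h : plE ((1 : U.aut) : RingAut F) w = w := plE_one w
    change (twY 1 y) w = y w
    rw [twY_apply' 1 y h]
    obtain ⟨a, ha⟩ := QuotientGroup.mk_surjective (y w)
    rw [← ha, twl_mk]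
    have : gm ((1 : U.aut) : RingAut F) a = a := gm_one a
    rw [this]
  mul_smul σ τ y := Y.ext' fun w => by
    have h1 : plE (σ : RingAut F) (plE (σ : RingAut F)⁻¹ w) = w := plE_plE_inv _ w
    have h2 : plE (τ : RingAut F) (plE (τ : RingAut F)⁻¹ (plE (σ : RingAut F)⁻¹ w)) =
      plE (σ : RingAut F)⁻¹ w := plE_plE_inv _ _
    have h : plE ((σ * τ : U.aut) : RingAut F) (plE (τ : RingAut F)⁻¹ (plE (σ : RingAut F)⁻¹ w))
        = w := by
      change plE ((σ : RingAut F) * (τ : RingAut F)) _ = w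
      rw [plE_mul, plE_plE_inv, plE_plE_inv]
    change (twY (σ * τ) y) w = (twY σ (twY τ y)) w
    rw [twY_apply' (σ * τ) y h, twY_apply' σ _ h1, twY_apply' τ y h2]
    obtain ⟨a, ha⟩ := QuotientGroup.mk_surjective
      (y (plE (τ : RingAut F)⁻¹ (plE (σ : RingAut F)⁻¹ w)))
    rw [← ha, twl_mk, twl_mk, twl_mk]
    have : gm ((σ * τ : U.aut) : RingAut F) a = gm (σ : RingAut F) (gm (τ : RingAut F) a) :=
      gm_mul _ _ a
    rw [this]

theorem Y_aut_apply (σ : U.aut) (y : Y U) (w : Pl F) :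
    (σ • y) w = twl σ (plE_plE_inv (σ : RingAut F) w) (y (plE (σ : RingAut F)⁻¹ w)) := rfl

/-- the component at `σ w` -/
theorem Y_aut_apply' (σ : U.aut) (y : Y U) {w w' : Pl F} (h : plE (σ : RingAut F) w = w') :
    (σ • y) w' = twl σ h (y w) := by
  rw [Y_aut_apply, twl_congr σ _ h y]

/-- semi-equivariance -/
theorem Y_aut_smul (σ : U.aut) (g : G2 F) (y : Y U) :
    σ • (g • y) = gm (σ : RingAut F) g • (σ • y) := by
  apply Y.ext'
  intro w
  rw [Y_aut_apply, G2_smul_apply, G2_smul_apply, Y_aut_apply, twl_smul]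

theorem Y_aut_smul' (σ : U.aut) (g : PG F) (y : Y U) :
    σ • (g • y) = pgm (σ : RingAut F) g • (σ • y) := by
  obtain ⟨g, rfl⟩ := Matrix.ProjGenLinGroup.mk_surjective g
  exact Y_aut_smul σ g y

instance : ContinuousConstSMul U.aut (Y U) := ⟨fun _ => continuous_of_discreteTopology⟩

theorem hfin_aut (σ : U.aut) (v : Fin 2 → F) (y : Y U) :
    hfin (fun j => (σ : RingAut F) (v j)) (σ • y) = hfin v y := by
  rw [hfin, hfin, ← finprod_comp_equiv (plE (σ : RingAut F))]
  refine finprod_congr fun w => ?_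
  rw [Y_aut_apply' σ y (rfl : plE (σ : RingAut F) w = _), hY_twl]

end fin

section X

variable {D : Datum F}

/-- the automorphisms of the datum -/
abbrev Datum.aut (D : Datum F) : Subgroup (RingAut F) := D.toLevel.aut

theorem X_aut_fst (σ : D.aut) (x : X D) : (σ • x).1 = (σ : RingAut F) • x.1 := rfl
theorem X_aut_snd (σ : D.aut) (x : X D) : (σ • x).2 = σ • x.2 := rfl

/-- semi-equivariance -/
theorem X_aut_smul (σ : D.aut) (g : G2 F) (x : X D) :
    σ • (g • x) = gm (σ : RingAut F) g • (σ • x) :=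
  Prod.ext (XI_aut_smul (σ : RingAut F) g x.1) (Y_aut_smul σ g x.2)

theorem X_aut_smul' (σ : D.aut) (g : PG F) (x : X D) :
    σ • (g • x) = pgm (σ : RingAut F) g • (σ • x) :=
  Prod.ext (XI_aut_smul' (σ : RingAut F) g x.1) (Y_aut_smul' σ g x.2)

theorem X_aut_measurePreserving (σ : D.aut) :
    MeasurePreserving (fun x : X D => σ • x) volume volume :=
  (XI_aut_measurePreserving (A := D.toArch) (σ : RingAut F)).prod
    (Y_measurePreserving_smul (U := D.toLevel) σ)

instance : ContinuousConstSMul D.aut (XI D.toArch) :=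
  ⟨fun σ => continuous_const_smul (σ : RingAut F)⟩

example : ContinuousConstSMul D.aut (X D) := inferInstance

instance : SMulInvariantMeasure D.aut (X D) volume where
  measure_preimage_smul g _ hs :=
    (X_aut_measurePreserving g).measure_preimage hs.nullMeasurableSet

/-- invariance of the height -/
theorem ht_aut (σ : D.aut) (v : Fin 2 → F) (x : X D) :
    ht (fun j => (σ : RingAut F) (v j)) (σ • x) = ht v x := by
  rw [ht, ht, X_aut_fst, X_aut_snd, hinf_aut, hfin_aut]

omit [NumberField F] in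
theorem aut_e1 (σ : RingAut F) : (fun j => σ ((e1 : Fin 2 → F) j)) = e1 := by
  funext j
  fin_cases j <;> simp [e1]

/-- invariance of the height at the cusp `∞` -/
theorem ht_aut_e1 (σ : D.aut) (x : X D) : ht e1 (σ • x) = ht e1 x := by
  have := ht_aut σ e1 x
  rwa [aut_e1] at this

end X

end Fermat.LT
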